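/-
S25 / block T: base change of modules along a ring homomorphism, in "instance-free" semilinear form.
Owner: helper122.
-/
import Mathlib

set_option autoImplicit false

universe u

open scoped TensorProduct

namespace Fermat.Agent.S25

/-- `β : M → N`, semilinear along `f : R → S`, exhibits `N` as `S ⊗[R] M`
(universal property, instance-free form). -/
def IsBCMap {R S : Type u} [CommRing R] [CommRing S] (f : R →+* S)
    {M N : Type u} [AddCommGroup M] [Module R M] [AddCommGroup N] [Module S N]
    (β : M →ₛₗ[f] N) : Prop :=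
  ∀ (Q : Type u) [AddCommGroup Q] [Module S Q] (g : M →ₛₗ[f] Q),
    ∃! h : N →ₗ[S] Q, ∀ n, h (β n) = g n

section Alg

variable {R S : Type u} [CommRing R] [CommRing S] [Algebra R S]
  (M : Type u) [AddCommGroup M] [Module R M]

/-- `m ↦ 1 ⊗ m`, as a semilinear map. -/
noncomputable def mkAlg : M →ₛₗ[algebraMap R S] S ⊗[R] M where
  toFun := fun m => (1 : S) ⊗ₜ[R] m
  map_add' := fun a b => TensorProduct.tmul_add _ _ _
  map_smul' := fun r m => by
    rw [TensorProduct.tmul_smul, TensorProduct.smul_tmul', TensorProduct.smul_tmul',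
      Algebra.smul_def, smul_eq_mul]

theorem isBCMap_mkAlg : IsBCMap (algebraMap R S) (mkAlg (S := S) M) := by
  intro Q _ _ g
  let _ : Module R Q := Module.compHom Q (algebraMap R S)
  have : IsScalarTower R S Q := ⟨fun r s q => by
    change (r • s) • q = (algebraMap R S r) • (s • q)
    rw [Algebra.smul_def, mul_smul]⟩
  let g' : M →ₗ[R] Q :=
    { toFun := g
      map_add' := g.map_add
      map_smul' := fun r m => g.map_smulₛₗ r m }
  have hbc : IsBaseChange S (TensorProduct.mk R S M 1) := TensorProduct.isBaseChange R M S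
  refine ⟨hbc.lift g', fun n => hbc.lift_eq g' n, fun h hh => ?_⟩
  refine hbc.algHom_ext' _ _ ?_
  ext n
  exact (hh n).trans (hbc.lift_eq g' n).symm

end Alg

section Defs

variable {R S : Type u} [CommRing R] [CommRing S] (f : R →+* S)
  (M : Type u) [AddCommGroup M] [Module R M]

/-- The module `S ⊗[R] M`, where `S` is an `R`-algebra through `f`. -/
def BCMod : Type u :=
  @TensorProduct R _ S M _ _ (@Algebra.toModule R S _ _ f.toAlgebra) _

noncomputable instance : AddCommGroup (BCMod f M) :=
  @TensorProduct.addCommGroup R _ S M _ _ (@Algebra.toModule R S _ _ f.toAlgebra) _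

noncomputable instance : Module S (BCMod f M) :=
  @TensorProduct.leftModule R S _ _ S M _ _ _ (@Algebra.toModule R S _ _ f.toAlgebra) _
    (@Algebra.to_smulCommClass R S _ _ f.toAlgebra)

/-- `m ↦ 1 ⊗ m`. -/
noncomputable def BCMod.mk : M →ₛₗ[f] BCMod f M :=
  @mkAlg R S _ _ f.toAlgebra M _ _

theorem BCMod.isBCMap_mk : IsBCMap f (BCMod.mk f M) :=
  @isBCMap_mkAlg R S _ _ f.toAlgebra M _ _

end Defs

namespace IsBCMap

section Lift

variable {R S : Type u} [CommRing R] [CommRing S] {f : R →+* S}
  {M N : Type u} [AddCommGroup M] [Module R M] [AddCommGroup N] [Module S N]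
  {β : M →ₛₗ[f] N} (hβ : IsBCMap f β)
  {Q : Type u} [AddCommGroup Q] [Module S Q]

/-- The linear map out of a base change induced by a semilinear map. -/
noncomputable def lift (g : M →ₛₗ[f] Q) : N →ₗ[S] Q := (hβ Q g).choose

@[simp] theorem lift_apply (g : M →ₛₗ[f] Q) (m : M) : hβ.lift g (β m) = g m :=
  (hβ Q g).choose_spec.1 m

include hβ in
theorem hom_ext {h h' : N →ₗ[S] Q} (H : ∀ m, h (β m) = h' (β m)) : h = h' := by
  let g : M →ₛₗ[f] Q :=
    { toFun := fun m => h (β m)
      map_add' := fun a b => by rw [map_add, map_add]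
      map_smul' := fun r m => by rw [β.map_smulₛₗ, map_smul] }
  exact ((hβ Q g).choose_spec.2 h fun _ => rfl).trans
    ((hβ Q g).choose_spec.2 h' fun m => (H m).symm).symm

end Lift

section Map

variable {R S R' S' : Type u} [CommRing R] [CommRing S] [CommRing R'] [CommRing S']
  {f : R →+* S} {f' : R' →+* S'} {r : R →+* R'} {s : S →+* S'}
  {M N M' N' : Type u} [AddCommGroup M] [Module R M] [AddCommGroup N] [Module S N]
  [AddCommGroup M'] [Module R' M'] [AddCommGroup N'] [Module S' N']
  {β : M →ₛₗ[f] N} (hβ : IsBCMap f β)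

/-- Functoriality of base change for semilinear maps over a commutative square of rings. -/
noncomputable def map (hsq : ∀ a, s (f a) = f' (r a)) (β' : M' →ₛₗ[f'] N') (ρ : M →ₛₗ[r] M') :
    N →ₛₗ[s] N' :=
  letI inst : Module S N' := Module.compHom N' s
  let g : M →ₛₗ[f] N' :=
    { toFun := fun m => β' (ρ m)
      map_add' := fun a b => by rw [map_add, map_add]
      map_smul' := fun a m => by
        rw [ρ.map_smulₛₗ, β'.map_smulₛₗ, ← hsq]
        rfl }
  { toFun := hβ.lift g
    map_add' := (hβ.lift g).map_add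
    map_smul' := fun c n => (hβ.lift g).map_smul c n }

@[simp] theorem map_apply (hsq : ∀ a, s (f a) = f' (r a)) (β' : M' →ₛₗ[f'] N') (ρ : M →ₛₗ[r] M')
    (m : M) : hβ.map hsq β' ρ (β m) = β' (ρ m) := by
  let inst : Module S N' := Module.compHom N' s
  exact hβ.lift_apply (Q := N') _ m

end Map

end IsBCMap

end Fermat.Agent.S25
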