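/-
S25 / block T1: base change of triples (definitions).
Owner: helper122.
-/
import Fermat.Agent.S25.Core
import Fermat.Agent.S25.Triple.BCMod

set_option autoImplicit false

universe u

open scoped TensorProduct

namespace Fermat.Agent.S25

namespace CurveCharts

variable {k : Type u} [Field k] (𝔠 : CurveCharts k)
  {A A' : Type u} [CommRing A] [Algebra k A] [CommRing A'] [Algebra k A']

theorem res₁_bc₁ (φ : A →ₐ[k] A') (a : 𝔠.R₁ A) :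
    𝔠.res₁ A' (𝔠.bc₁ φ a) = 𝔠.bc₁₂ φ (𝔠.res₁ A a) := by
  induction a using TensorProduct.induction_on with
  | zero => simp
  | tmul a b => simp [res₁, bc₁, bc₁₂]
  | add a b ha hb => simp only [map_add, ha, hb]

theorem res₂_bc₂ (φ : A →ₐ[k] A') (a : 𝔠.R₂ A) :
    𝔠.res₂ A' (𝔠.bc₂ φ a) = 𝔠.bc₁₂ φ (𝔠.res₂ A a) := by
  induction a using TensorProduct.induction_on with
  | zero => simp
  | tmul a b => simp [res₂, bc₂, bc₁₂]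
  | add a b ha hb => simp only [map_add, ha, hb]

end CurveCharts

namespace Triple

variable {k : Type u} [Field k] {𝔠 : CurveCharts k}
  {A A' : Type u} [CommRing A] [Algebra k A] [CommRing A'] [Algebra k A']

/-- Base change of a triple along `φ : A → A'`: `Nᵢ' = Rᵢ A' ⊗[Rᵢ A] Nᵢ`. -/
noncomputable def bc (φ : A →ₐ[k] A') (T : Triple 𝔠 A) : Triple 𝔠 A' where
  N₁ := BCMod (𝔠.bc₁ φ).toRingHom T.N₁
  N₂ := BCMod (𝔠.bc₂ φ).toRingHom T.N₂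
  N₁₂ := BCMod (𝔠.bc₁₂ φ).toRingHom T.N₁₂
  ρ₁ := (BCMod.isBCMap_mk (𝔠.bc₁ φ).toRingHom T.N₁).map (𝔠.res₁_bc₁ φ)
    (BCMod.mk (𝔠.bc₁₂ φ).toRingHom T.N₁₂) T.ρ₁
  ρ₂ := (BCMod.isBCMap_mk (𝔠.bc₂ φ).toRingHom T.N₂).map (𝔠.res₂_bc₂ φ)
    (BCMod.mk (𝔠.bc₁₂ φ).toRingHom T.N₁₂) T.ρ₂

/-- `T.bc φ` is a base change of `T` along `φ`. -/
noncomputable def bcData (φ : A →ₐ[k] A') (T : Triple 𝔠 A) : BaseChange φ T (T.bc φ) where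
  β₁ := BCMod.mk (𝔠.bc₁ φ).toRingHom T.N₁
  β₂ := BCMod.mk (𝔠.bc₂ φ).toRingHom T.N₂
  β₁₂ := BCMod.mk (𝔠.bc₁₂ φ).toRingHom T.N₁₂
  comm₁ := fun n => ((BCMod.isBCMap_mk (𝔠.bc₁ φ).toRingHom T.N₁).map_apply (𝔠.res₁_bc₁ φ)
    (BCMod.mk (𝔠.bc₁₂ φ).toRingHom T.N₁₂) T.ρ₁ n).symm
  comm₂ := fun n => ((BCMod.isBCMap_mk (𝔠.bc₂ φ).toRingHom T.N₂).map_apply (𝔠.res₂_bc₂ φ)
    (BCMod.mk (𝔠.bc₁₂ φ).toRingHom T.N₁₂) T.ρ₂ n).symm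
  isBC₁ := BCMod.isBCMap_mk (𝔠.bc₁ φ).toRingHom T.N₁
  isBC₂ := BCMod.isBCMap_mk (𝔠.bc₂ φ).toRingHom T.N₂
  isBC₁₂ := BCMod.isBCMap_mk (𝔠.bc₁₂ φ).toRingHom T.N₁₂

/-- The constant family with fibre `E`. -/
noncomputable def const (E : Triple 𝔠 k) (A : Type u) [CommRing A] [Algebra k A] : Triple 𝔠 A :=
  E.bc (Algebra.ofId k A)

end Triple

end Fermat.Agent.S25
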