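/-
S25 / block T1-F (auxiliary file): restriction of a base change along the top of a pushout square of
rings to the bottom of the square, by the coinduced module.  Self-contained (only `BCMod.lean`).
Owner: helper205.
-/
import Fermat.Agent.S25.Triple.BCMod

set_option autoImplicit false

universe u

open scoped TensorProduct

namespace Fermat.Agent.S25

namespace DeltaAux

/-! ### the coinduced module -/

/-- `Hom_{A'}(S, Q)` with the `S`-module structure `(s • h) x = h (s * x)`. -/
def Coind (A' S Q : Type u) [CommRing A'] [CommRing S] [Algebra A' S] [AddCommGroup Q]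
    [Module A' Q] : Type u := S →ₗ[A'] Q

section Coind

variable {A' S Q : Type u} [CommRing A'] [CommRing S] [Algebra A' S] [AddCommGroup Q]
    [Module A' Q]

/-- the underlying linear map -/
def Coind.toLin (h : Coind A' S Q) : S →ₗ[A'] Q := h

/-- constructor -/
def Coind.ofLin (h : S →ₗ[A'] Q) : Coind A' S Q := h

@[simp] theorem Coind.toLin_ofLin (h : S →ₗ[A'] Q) : (Coind.ofLin h).toLin = h := rfl

theorem Coind.ext {h h' : Coind A' S Q} (H : ∀ x, h.toLin x = h'.toLin x) : h = h' :=
  LinearMap.ext H

noncomputable instance : AddCommGroup (Coind A' S Q) :=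
  inferInstanceAs (AddCommGroup (S →ₗ[A'] Q))

@[simp] theorem Coind.toLin_add (h h' : Coind A' S Q) : (h + h').toLin = h.toLin + h'.toLin := rfl

@[simp] theorem Coind.toLin_zero : (0 : Coind A' S Q).toLin = 0 := rfl

noncomputable instance : SMul S (Coind A' S Q) :=
  ⟨fun s h => Coind.ofLin (h.toLin ∘ₗ LinearMap.mulLeft A' s)⟩

@[simp] theorem Coind.smul_apply (s : S) (h : Coind A' S Q) (x : S) :
    (s • h).toLin x = h.toLin (s * x) := rfl

noncomputable instance : Module S (Coind A' S Q) where
  one_smul h := Coind.ext fun x => by simp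
  mul_smul s t h := Coind.ext fun x => by
    simp only [Coind.smul_apply]
    congr 1
    ring
  smul_zero s := Coind.ext fun x => by simp
  smul_add s h h' := Coind.ext fun x => by simp
  add_smul s t h := Coind.ext fun x => by simp [add_mul]
  zero_smul h := Coind.ext fun x => by simp

end Coind

/-! ### restriction along a pushout square -/

section Restrict

variable {A A' R S : Type u} [CommRing A] [CommRing A'] [CommRing R] [CommRing S]
  [Algebra A R] [Algebra A' S] {φ : A →+* A'} {f : R →+* S}
  {M N : Type u} [AddCommGroup M] [Module R M] [Module A M] [IsScalarTower A R M]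
  [AddCommGroup N] [Module S N] [Module A' N] [IsScalarTower A' S N]

/-- Base change along the top `f : R → S` of a pushout square of rings (`S = A' ⊗[A] R`) is base
change along the bottom `φ : A → A'`. -/
theorem restrict (fA : R →ₛₗ[φ] S) (hfA : ∀ r, fA r = f r) (hpush : IsBCMap φ fA)
    {β : M →ₛₗ[f] N} (hβ : IsBCMap f β) (βA : M →ₛₗ[φ] N) (hβA : ∀ m, βA m = β m) :
    IsBCMap φ βA := by
  intro Q _ _ g
  -- `r ↦ g (r • m)`
  let gm : M → (R →ₛₗ[φ] Q) := fun m =>
    { toFun := fun r => g (r • m)
      map_add' := fun r r' => by rw [add_smul, map_add]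
      map_smul' := fun a r => by rw [smul_assoc, g.map_smulₛₗ] }
  have hG : ∀ m r, hpush.lift (gm m) (fA r) = g (r • m) := fun m r => hpush.lift_apply (gm m) r
  let G : M →ₛₗ[f] Coind A' S Q :=
    { toFun := fun m => Coind.ofLin (hpush.lift (gm m))
      map_add' := fun m m' => by
        show hpush.lift (gm (m + m')) = hpush.lift (gm m) + hpush.lift (gm m')
        refine hpush.hom_ext fun r => ?_
        rw [LinearMap.add_apply, hG, hG, hG, smul_add, map_add]
      map_smul' := fun r₀ m => by
        show hpush.lift (gm (r₀ • m)) = hpush.lift (gm m) ∘ₗ LinearMap.mulLeft A' (f r₀)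
        refine hpush.hom_ext fun r => ?_
        rw [LinearMap.comp_apply, LinearMap.mulLeft_apply, hG, hfA, ← map_mul, ← hfA, hG,
          mul_comm, mul_smul] }
  have hGapp : ∀ m, (G m).toLin = hpush.lift (gm m) := fun _ => rfl
  let H : N →ₗ[S] Coind A' S Q := hβ.lift G
  have hH : ∀ m, H (β m) = G m := fun m => hβ.lift_apply G m
  have h1 : fA 1 = 1 := by rw [hfA, map_one]
  let h : N →ₗ[A'] Q :=
    { toFun := fun n => (H n).toLin 1
      map_add' := fun n n' => by rw [map_add, Coind.toLin_add, LinearMap.add_apply]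
      map_smul' := fun a n => by
        rw [← algebraMap_smul S a n, map_smul, Coind.smul_apply, mul_one, RingHom.id_apply,
          Algebra.algebraMap_eq_smul_one, map_smul] }
  refine ⟨h, fun m => ?_, fun h' hh' => ?_⟩
  · show (H (βA m)).toLin 1 = g m
    rw [hβA, hH, hGapp, ← h1, hG, one_smul]
  · let H' : N →ₗ[S] Coind A' S Q :=
      { toFun := fun n => Coind.ofLin
          { toFun := fun x => h' (x • n)
            map_add' := fun x y => by rw [add_smul, map_add]
            map_smul' := fun a x => by rw [smul_assoc, map_smul, RingHom.id_apply] }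
        map_add' := fun n n' => Coind.ext fun x => by
          show h' (x • (n + n')) = h' (x • n) + h' (x • n')
          rw [smul_add, map_add]
        map_smul' := fun s n => Coind.ext fun x => by
          show h' (x • s • n) = h' ((s * x) • n)
          rw [mul_comm, mul_smul] }
    have hH' : ∀ n x, (H' n).toLin x = h' (x • n) := fun _ _ => rfl
    have key : H' = H := by
      refine hβ.hom_ext fun m => ?_
      rw [hH]
      show (H' (β m)).toLin = hpush.lift (gm m)
      refine hpush.hom_ext fun r => ?_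
      rw [hG, hH', hfA, ← β.map_smulₛₗ, ← hβA, hh']
    ext n
    show h' n = (H n).toLin 1
    rw [← key, hH', one_smul]

end Restrict

/-! ### the pushout square `A → A'`, `A ⊗ B → A' ⊗ B` -/

section Tensor

variable {k A A' B : Type u} [CommRing k] [CommRing A] [CommRing A'] [CommRing B]
  [Algebra k A] [Algebra k A'] [Algebra k B]

theorem isBCMap_tensorMap (φ : A →ₐ[k] A') (fA : A ⊗[k] B →ₛₗ[φ.toRingHom] A' ⊗[k] B)
    (hfA : ∀ r, fA r = Algebra.TensorProduct.map φ (AlgHom.id k B) r) :
    IsBCMap φ.toRingHom fA := by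
  intro Q _ _ g
  let _ : Module k Q := Module.compHom Q (algebraMap k A')
  have : IsScalarTower k A' Q := ⟨fun c a q => by
    change (c • a) • q = (algebraMap k A' c) • (a • q)
    rw [Algebra.smul_def, mul_smul]⟩
  have hf : ∀ a b, fA (a ⊗ₜ b) = φ a ⊗ₜ[k] b := fun a b => by
    rw [hfA, Algebra.TensorProduct.map_tmul, AlgHom.id_apply]
  let g₀ : B →ₗ[k] Q :=
    { toFun := fun b => g (1 ⊗ₜ b)
      map_add' := fun b b' => by rw [TensorProduct.tmul_add, map_add]
      map_smul' := fun c b => by
        have h1 : (1 : A) ⊗ₜ[k] (c • b) = (algebraMap k A c) • ((1 : A) ⊗ₜ[k] b) := by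
          rw [TensorProduct.tmul_smul, algebraMap_smul]
        rw [h1, g.map_smulₛₗ, RingHom.id_apply]
        show φ (algebraMap k A c) • g (1 ⊗ₜ b) = (algebraMap k A' c) • g (1 ⊗ₜ b)
        rw [φ.commutes] }
  let h : A' ⊗[k] B →ₗ[A'] Q :=
    TensorProduct.AlgebraTensorModule.lift (LinearMap.toSpanSingleton A' (B →ₗ[k] Q) g₀)
  have hh : ∀ a b, h (a ⊗ₜ b) = a • g (1 ⊗ₜ b) := fun a b => rfl
  have hg : ∀ (a : A) (b : B), g (a ⊗ₜ b) = φ a • g (1 ⊗ₜ b) := fun a b => by
    have h1 : a ⊗ₜ[k] b = a • ((1 : A) ⊗ₜ[k] b) := by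
      rw [TensorProduct.smul_tmul', smul_eq_mul, mul_one]
    rw [h1, g.map_smulₛₗ]
    rfl
  refine ⟨h, fun r => ?_, fun h' hh' => ?_⟩
  · induction r using TensorProduct.induction_on with
    | zero => simp
    | tmul a b => rw [hf, hh, hg a b]
    | add x y hx hy => rw [map_add, map_add, map_add, hx, hy]
  · refine LinearMap.ext fun r => ?_
    induction r using TensorProduct.induction_on with
    | zero => simp
    | tmul a b =>
      have h1 : a ⊗ₜ[k] b = a • fA ((1 : A) ⊗ₜ[k] b) := by
        rw [hf, map_one, TensorProduct.smul_tmul', smul_eq_mul, mul_one]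
      rw [hh, h1, map_smul, hh']
    | add x y hx hy => rw [map_add, map_add, hx, hy]

/-- The form used for triples. -/
theorem restrict_tensor (φ : A →ₐ[k] A')
    {M N : Type u} [AddCommGroup M] [Module (A ⊗[k] B) M] [Module A M]
    [IsScalarTower A (A ⊗[k] B) M]
    [AddCommGroup N] [Module (A' ⊗[k] B) N] [Module A' N] [IsScalarTower A' (A' ⊗[k] B) N]
    {β : M →ₛₗ[(Algebra.TensorProduct.map φ (AlgHom.id k B)).toRingHom] N}
    (hβ : IsBCMap (Algebra.TensorProduct.map φ (AlgHom.id k B)).toRingHom β)
    (βA : M →ₛₗ[φ.toRingHom] N) (hβA : ∀ m, βA m = β m) : IsBCMap φ.toRingHom βA := by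
  let fA : A ⊗[k] B →ₛₗ[φ.toRingHom] A' ⊗[k] B :=
    { toFun := Algebra.TensorProduct.map φ (AlgHom.id k B)
      map_add' := map_add _
      map_smul' := fun a r => by
        rw [Algebra.smul_def, map_mul, Algebra.smul_def]
        simp [Algebra.TensorProduct.algebraMap_apply] }
  exact restrict fA (fun _ => rfl) (isBCMap_tensorMap φ fA fun _ => rfl) hβ βA hβA

end Tensor

/-! ### comparison with the tensor product -/

section Equiv

variable {R S : Type u} [CommRing R] [CommRing S] {f : R →+* S}
  {M N N' : Type u} [AddCommGroup M] [Module R M] [AddCommGroup N] [Module S N]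
  [AddCommGroup N'] [Module S N']

/-- two base changes of the same module are canonically isomorphic -/
noncomputable def equiv {β : M →ₛₗ[f] N} (hβ : IsBCMap f β) {β' : M →ₛₗ[f] N'}
    (hβ' : IsBCMap f β') : N ≃ₗ[S] N' :=
  LinearEquiv.ofLinearMap (hβ.lift β') (hβ'.lift β)
    (hβ'.hom_ext fun m => by simp)
    (hβ.hom_ext fun m => by simp)

@[simp] theorem equiv_apply {β : M →ₛₗ[f] N} (hβ : IsBCMap f β) {β' : M →ₛₗ[f] N'}
    (hβ' : IsBCMap f β') (m : M) : equiv hβ hβ' (β m) = β' m :=
  hβ.lift_apply β' m

theorem congr_ringHom {f' : R →+* S} (hf : f = f') {β : M →ₛₗ[f] N} (hβ : IsBCMap f β)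
    (β' : M →ₛₗ[f'] N) (h : ∀ m, β' m = β m) : IsBCMap f' β' := by
  subst hf
  have : β' = β := LinearMap.ext h
  rw [this]
  exact hβ

/-- If `β` is a base change along `f` and `f` is the structure map of the algebra `S`, then
`S ⊗[R] M ≃ N`. -/
theorem exists_tensorEquiv [Algebra R S] (hf : ∀ a, algebraMap R S a = f a) {β : M →ₛₗ[f] N}
    (hβ : IsBCMap f β) : ∃ e : S ⊗[R] M ≃ₗ[S] N, ∀ m, e (1 ⊗ₜ m) = β m := by
  have hf' : f = algebraMap R S := RingHom.ext fun a => (hf a).symm
  let β' : M →ₛₗ[algebraMap R S] N :=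
    { toFun := β
      map_add' := β.map_add
      map_smul' := fun a m => by rw [β.map_smulₛₗ, hf] }
  have hβ' : IsBCMap (algebraMap R S) β' := congr_ringHom hf' hβ β' fun _ => rfl
  exact ⟨equiv (isBCMap_mkAlg (S := S) M) hβ', fun m => equiv_apply (isBCMap_mkAlg (S := S) M) hβ' m⟩

end Equiv

end DeltaAux

end Fermat.Agent.S25
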