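/-
S25 / block T1-F (= T3): for a base change `D : BaseChange φ T T'` of triples, the maps `βᵢ` are also
base changes along `φ : A → A'` of the underlying `A`-modules, hence the Čech differential `δ`
commutes with base change.
Owner: helper205.
-/
import Fermat.Agent.S25.Triple.BC
import Fermat.Agent.S25.Triple.DeltaAux
import Fermat.Agent.S25.FiniteModelBC

set_option autoImplicit false

universe u

open scoped TensorProduct

namespace Fermat.Agent.S25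

namespace Triple

variable {k : Type u} [Field k] {𝔠 : CurveCharts k}
  {A A' : Type u} [CommRing A] [Algebra k A] [CommRing A'] [Algebra k A']

/-- `β₁` as a map semilinear along `φ : A → A'`. -/
noncomputable def BaseChange.β₁A {φ : A →ₐ[k] A'} {T : Triple 𝔠 A} {T' : Triple 𝔠 A'}
    (D : BaseChange φ T T') : T.N₁ →ₛₗ[φ.toRingHom] T'.N₁ where
  toFun := D.β₁
  map_add' := D.β₁.map_add
  map_smul' a n := by
    change D.β₁ ((algebraMap A (𝔠.R₁ A) a) • n) = (algebraMap A' (𝔠.R₁ A') (φ a)) • D.β₁ n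
    rw [D.β₁.map_smulₛₗ]
    congr 1

/-- `β₂` as a map semilinear along `φ : A → A'`. -/
noncomputable def BaseChange.β₂A {φ : A →ₐ[k] A'} {T : Triple 𝔠 A} {T' : Triple 𝔠 A'}
    (D : BaseChange φ T T') : T.N₂ →ₛₗ[φ.toRingHom] T'.N₂ where
  toFun := D.β₂
  map_add' := D.β₂.map_add
  map_smul' a n := by
    change D.β₂ ((algebraMap A (𝔠.R₂ A) a) • n) = (algebraMap A' (𝔠.R₂ A') (φ a)) • D.β₂ n
    rw [D.β₂.map_smulₛₗ]
    congr 1

/-- `β₁₂` as a map semilinear along `φ : A → A'`. -/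
noncomputable def BaseChange.β₁₂A {φ : A →ₐ[k] A'} {T : Triple 𝔠 A} {T' : Triple 𝔠 A'}
    (D : BaseChange φ T T') : T.N₁₂ →ₛₗ[φ.toRingHom] T'.N₁₂ where
  toFun := D.β₁₂
  map_add' := D.β₁₂.map_add
  map_smul' a n := by
    change D.β₁₂ ((algebraMap A (𝔠.R₁₂ A) a) • n) = (algebraMap A' (𝔠.R₁₂ A') (φ a)) • D.β₁₂ n
    rw [D.β₁₂.map_smulₛₗ]
    congr 1

@[simp] theorem BaseChange.β₁A_apply {φ : A →ₐ[k] A'} {T : Triple 𝔠 A} {T' : Triple 𝔠 A'}
    (D : BaseChange φ T T') (n : T.N₁) : D.β₁A n = D.β₁ n := rfl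
@[simp] theorem BaseChange.β₂A_apply {φ : A →ₐ[k] A'} {T : Triple 𝔠 A} {T' : Triple 𝔠 A'}
    (D : BaseChange φ T T') (n : T.N₂) : D.β₂A n = D.β₂ n := rfl
@[simp] theorem BaseChange.β₁₂A_apply {φ : A →ₐ[k] A'} {T : Triple 𝔠 A} {T' : Triple 𝔠 A'}
    (D : BaseChange φ T T') (n : T.N₁₂) : D.β₁₂A n = D.β₁₂ n := rfl

theorem BaseChange.isBCMap_β₁A {φ : A →ₐ[k] A'} {T : Triple 𝔠 A} {T' : Triple 𝔠 A'}
    (D : BaseChange φ T T') : IsBCMap φ.toRingHom D.β₁A :=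
  DeltaAux.restrict_tensor φ (β := D.β₁) D.isBC₁ D.β₁A fun _ => rfl
theorem BaseChange.isBCMap_β₂A {φ : A →ₐ[k] A'} {T : Triple 𝔠 A} {T' : Triple 𝔠 A'}
    (D : BaseChange φ T T') : IsBCMap φ.toRingHom D.β₂A :=
  DeltaAux.restrict_tensor φ (β := D.β₂) D.isBC₂ D.β₂A fun _ => rfl
theorem BaseChange.isBCMap_β₁₂A {φ : A →ₐ[k] A'} {T : Triple 𝔠 A} {T' : Triple 𝔠 A'}
    (D : BaseChange φ T T') : IsBCMap φ.toRingHom D.β₁₂A :=
  DeltaAux.restrict_tensor φ (β := D.β₁₂) D.isBC₁₂ D.β₁₂A fun _ => rfl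

/-- KEY (T3), for an `A`-algebra `A'` whose structure map is `φ`. -/
theorem BaseChange.exists_equiv_δ [Algebra A A'] {φ : A →ₐ[k] A'}
    (hφ : ∀ a, algebraMap A A' a = φ a) {T : Triple 𝔠 A} {T' : Triple 𝔠 A'}
    (D : BaseChange φ T T') :
    ∃ (e0 : A' ⊗[A] (T.N₁ × T.N₂) ≃ₗ[A'] (T'.N₁ × T'.N₂)) (e1 : A' ⊗[A] T.N₁₂ ≃ₗ[A'] T'.N₁₂),
      (∀ z, e1 (T.δ.baseChange A' z) = T'.δ (e0 z)) ∧
      (∀ z, e0 (1 ⊗ₜ z) = (D.β₁ z.1, D.β₂ z.2)) ∧ (∀ n, e1 (1 ⊗ₜ n) = D.β₁₂ n) := by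
  obtain ⟨ε₁, hε₁⟩ := DeltaAux.exists_tensorEquiv (f := φ.toRingHom) hφ D.isBCMap_β₁A
  obtain ⟨ε₂, hε₂⟩ := DeltaAux.exists_tensorEquiv (f := φ.toRingHom) hφ D.isBCMap_β₂A
  obtain ⟨e1, he1⟩ := DeltaAux.exists_tensorEquiv (f := φ.toRingHom) hφ D.isBCMap_β₁₂A
  let e0 : A' ⊗[A] (T.N₁ × T.N₂) ≃ₗ[A'] (T'.N₁ × T'.N₂) :=
    (TensorProduct.prodRight A A' A' T.N₁ T.N₂).trans (ε₁.prodCongr ε₂)
  have he0 : ∀ z, e0 (1 ⊗ₜ z) = (D.β₁ z.1, D.β₂ z.2) := fun z => by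
    show (ε₁.prodCongr ε₂) (TensorProduct.prodRight A A' A' T.N₁ T.N₂ (1 ⊗ₜ z)) = _
    rw [TensorProduct.prodRight_tmul, LinearEquiv.prodCongr_apply, hε₁, hε₂]
    rfl
  refine ⟨e0, e1, fun z => ?_, he0, he1⟩
  have key : e1.toLinearMap ∘ₗ T.δ.baseChange A' = T'.δ ∘ₗ e0.toLinearMap := by
    refine (TensorProduct.isBaseChange A (T.N₁ × T.N₂) A').algHom_ext _ _ fun z => ?_
    show e1 (T.δ.baseChange A' (1 ⊗ₜ z)) = T'.δ (e0 (1 ⊗ₜ z))
    rw [LinearMap.baseChange_tmul, he1, he0, δ_apply, δ_apply, BaseChange.β₁₂A_apply, map_sub,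
      D.comm₁, D.comm₂]
  exact LinearMap.congr_fun key z

theorem BaseChange.bijective_δ_iff [Algebra A A'] {φ : A →ₐ[k] A'}
    (hφ : ∀ a, algebraMap A A' a = φ a) {T : Triple 𝔠 A} {T' : Triple 𝔠 A'}
    (D : BaseChange φ T T') :
    Function.Bijective T'.δ ↔ Function.Bijective (T.δ.baseChange A') := by
  obtain ⟨e0, e1, h, -, -⟩ := D.exists_equiv_δ hφ
  have h1 : (T'.δ : _ → _) ∘ e0 = e1 ∘ (T.δ.baseChange A') := funext fun z => (h z).symm
  rw [← Function.Bijective.of_comp_iff _ e0.bijective, h1,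
    Function.Bijective.of_comp_iff' e1.bijective]

theorem BaseChange.injective_δ_iff [Algebra A A'] {φ : A →ₐ[k] A'}
    (hφ : ∀ a, algebraMap A A' a = φ a) {T : Triple 𝔠 A} {T' : Triple 𝔠 A'}
    (D : BaseChange φ T T') :
    Function.Injective T'.δ ↔ Function.Injective (T.δ.baseChange A') := by
  obtain ⟨e0, e1, h, -, -⟩ := D.exists_equiv_δ hφ
  have h1 : (T'.δ : _ → _) ∘ e0 = e1 ∘ (T.δ.baseChange A') := funext fun z => (h z).symm
  rw [← Function.Injective.of_comp_iff' _ e0.bijective, h1,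
    Function.Injective.of_comp_iff e1.injective]

theorem BaseChange.surjective_δ_iff [Algebra A A'] {φ : A →ₐ[k] A'}
    (hφ : ∀ a, algebraMap A A' a = φ a) {T : Triple 𝔠 A} {T' : Triple 𝔠 A'}
    (D : BaseChange φ T T') :
    Function.Surjective T'.δ ↔ Function.Surjective (T.δ.baseChange A') := by
  obtain ⟨e0, e1, h, -, -⟩ := D.exists_equiv_δ hφ
  have h1 : (T'.δ : _ → _) ∘ e0 = e1 ∘ (T.δ.baseChange A') := funext fun z => (h z).symm
  rw [← Function.Surjective.of_comp_iff _ e0.surjective, h1,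
    Function.Surjective.of_comp_iff' e1.bijective]

/-- A finite model of `T.δ` gives a finite model of `T'.δ` for every base change `T'` of `T`;
version for a given algebra structure; its `d` is `F.d.baseChange A'` by `rfl`. -/
noncomputable def BaseChange.finiteModelAlg [Algebra A A'] {φ : A →ₐ[k] A'}
    (hφ : ∀ a, algebraMap A A' a = φ a) {T : Triple 𝔠 A} {T' : Triple 𝔠 A'}
    (D : BaseChange φ T T') (F : FiniteModel T.δ) : FiniteModel T'.δ :=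
  have h := D.exists_equiv_δ hφ
  (F.baseChange A').ofEquiv h.choose h.choose_spec.choose h.choose_spec.choose_spec.1

@[simp] theorem BaseChange.finiteModelAlg_d [Algebra A A'] {φ : A →ₐ[k] A'}
    (hφ : ∀ a, algebraMap A A' a = φ a) {T : Triple 𝔠 A} {T' : Triple 𝔠 A'}
    (D : BaseChange φ T T') (F : FiniteModel T.δ) :
    (D.finiteModelAlg hφ F).d = F.d.baseChange A' := rfl

/-- A finite model of `T.δ` gives a finite model of `T'.δ` for every base change `T'` of `T`. -/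
noncomputable def BaseChange.finiteModel {φ : A →ₐ[k] A'} {T : Triple 𝔠 A} {T' : Triple 𝔠 A'}
    (D : BaseChange φ T T') (F : FiniteModel T.δ) : FiniteModel T'.δ :=
  letI : Algebra A A' := φ.toRingHom.toAlgebra
  D.finiteModelAlg (fun _ => rfl) F

end Triple

end Fermat.Agent.S25
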