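/-
S25 / block T1-B: comparison of `IsBCMap` with Mathlib's `IsBaseChange`; stability of
invertible / finite / projective modules; base change along a pushout square.
Owner: helper294.
-/
import Fermat.Agent.S25.Triple.BCMod

set_option autoImplicit false
set_option linter.style.haveILetI false

universe u

open scoped TensorProduct

namespace Fermat.Agent.S25

namespace IsBCMap

section B

variable {R S : Type u} [CommRing R] [CommRing S]
  {M N : Type u} [AddCommGroup M] [Module R M] [AddCommGroup N] [Module S N]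

theorem of_isBaseChange [Algebra R S] [Module R N] [IsScalarTower R S N] {β₀ : M →ₗ[R] N}
    (h₀ : IsBaseChange S β₀) (β : M →ₛₗ[algebraMap R S] N) (h : ∀ m, β m = β₀ m) :
    IsBCMap (algebraMap R S) β := by
  intro Q _ _ g
  let _ : Module R Q := Module.compHom Q (algebraMap R S)
  have : IsScalarTower R S Q := ⟨fun r s q => by
    change (r • s) • q = (algebraMap R S r) • (s • q)
    rw [Algebra.smul_def, mul_smul]⟩
  let g' : M →ₗ[R] Q :=
    { toFun := g
      map_add' := g.map_add
      map_smul' := fun r m => g.map_smulₛₗ r m }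
  refine ⟨h₀.lift g', fun n => by rw [h]; exact h₀.lift_eq g' n, fun k hk => ?_⟩
  refine h₀.algHom_ext' _ _ ?_
  ext n
  have h1 : k (β₀ n) = g n := by rw [← h]; exact hk n
  exact h1.trans (h₀.lift_eq g' n).symm

/-- auxiliary: two base changes of the same module are isomorphic. -/
theorem exists_equiv_aux {f : R →+* S} {β : M →ₛₗ[f] N} (hβ : IsBCMap f β)
    {N' : Type u} [AddCommGroup N'] [Module S N'] {β' : M →ₛₗ[f] N'} (hβ' : IsBCMap f β') :
    ∃ e : N ≃ₗ[S] N', ∀ m, e (β m) = β' m := by
  refine ⟨LinearEquiv.ofLinearMap (hβ.lift β') (hβ'.lift β) ?_ ?_, fun m => hβ.lift_apply β' m⟩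
  · apply hβ'.hom_ext
    intro m
    simp
  · apply hβ.hom_ext
    intro m
    simp

theorem isBaseChange [Algebra R S] [Module R N] [IsScalarTower R S N]
    {β : M →ₛₗ[algebraMap R S] N} (hβ : IsBCMap (algebraMap R S) β) (β₀ : M →ₗ[R] N)
    (h : ∀ m, β₀ m = β m) : IsBaseChange S β₀ := by
  obtain ⟨e, he⟩ := exists_equiv_aux (isBCMap_mkAlg (R := R) (S := S) M) hβ
  exact IsBaseChange.of_equiv e (fun x => (he x).trans (h x).symm)

variable {f : R →+* S} {β : M →ₛₗ[f] N}

/-- auxiliary: `N` is isomorphic to the Mathlib tensor product for the algebra structure `f`. -/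
theorem exists_equiv_tensor_aux (hβ : IsBCMap f β) :
    letI := f.toAlgebra
    ∃ e : S ⊗[R] M ≃ₗ[S] N, ∀ m, e ((1 : S) ⊗ₜ[R] m) = β m := by
  letI := f.toAlgebra
  exact exists_equiv_aux (isBCMap_mkAlg (R := R) (S := S) M) hβ

theorem invertible (hβ : IsBCMap f β) (hM : Module.Invertible R M) : Module.Invertible S N := by
  letI := f.toAlgebra
  obtain ⟨e, -⟩ := exists_equiv_tensor_aux hβ
  exact Module.Invertible.congr e

theorem finite (hβ : IsBCMap f β) (hM : Module.Finite R M) : Module.Finite S N := by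
  letI := f.toAlgebra
  obtain ⟨e, -⟩ := exists_equiv_tensor_aux hβ
  exact Module.Finite.equiv e

theorem projective (hβ : IsBCMap f β) (hM : Module.Projective R M) : Module.Projective S N := by
  letI := f.toAlgebra
  obtain ⟨e, -⟩ := exists_equiv_tensor_aux hβ
  exact Module.Projective.of_equiv e

/-- auxiliary: transport of `IsBCMap` along a linear equivalence of the target. -/
theorem of_equiv_aux (hβ : IsBCMap f β) {N' : Type u} [AddCommGroup N'] [Module S N']
    (e : N ≃ₗ[S] N') (β' : M →ₛₗ[f] N') (h : ∀ m, β' m = e (β m)) : IsBCMap f β' := by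
  intro Q _ _ g
  refine ⟨(hβ.lift g).comp e.symm.toLinearMap, fun n => by simp [h], fun k hk => ?_⟩
  have : k.comp e.toLinearMap = hβ.lift g := by
    apply hβ.hom_ext
    intro m
    simp [← h, hk]
  rw [← this]
  ext x
  simp

/-- Base change along the top of a pushout square of rings is base change along the bottom.
`A --φ--> A'`, `i : A → R`, `i' : A' → S`, `f : R → S`, `S = A' ⊗[A] R` (hypothesis `hpush`). -/
theorem restrict_pushout {A A' : Type u} [CommRing A] [CommRing A'] {φ : A →+* A'}
    {i : A →+* R} {i' : A' →+* S}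
    [iAR : Module A R] (hR : ∀ (a : A) (r : R), a • r = i a * r)
    [iAS : Module A' S] (hS : ∀ (a : A') (s : S), a • s = i' a * s)
    (fA : R →ₛₗ[φ] S) (hfA : ∀ r, fA r = f r) (hpush : IsBCMap φ fA)
    [iAM : Module A M] (hM : ∀ (a : A) (m : M), a • m = i a • m)
    [iAN : Module A' N] (hN : ∀ (a : A') (n : N), a • n = i' a • n)
    (hβ : IsBCMap f β) (βA : M →ₛₗ[φ] N) (hβA : ∀ m, βA m = β m) : IsBCMap φ βA := by
  letI algAR : Algebra A R := i.toAlgebra
  letI algAS' : Algebra A' S := i'.toAlgebra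
  letI algAA' : Algebra A A' := φ.toAlgebra
  letI algRS : Algebra R S := f.toAlgebra
  letI algAS : Algebra A S := (f.comp i).toAlgebra
  obtain rfl : iAR = algAR.toModule := Module.ext' _ _ (fun a r => hR a r)
  obtain rfl : iAS = algAS'.toModule := Module.ext' _ _ (fun a r => hS a r)
  have hsq : ∀ a, i' (φ a) = f (i a) := by
    intro a
    have h1 := fA.map_smulₛₗ a 1
    rw [hfA, hfA, hR, hS, map_one, mul_one, mul_one] at h1
    exact h1.symm
  haveI t1 : IsScalarTower A R S := IsScalarTower.of_algebraMap_eq (fun _ => rfl)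
  haveI t2 : IsScalarTower A A' S := IsScalarTower.of_algebraMap_eq (fun a => (hsq a).symm)
  haveI t3 : IsScalarTower A R M := ⟨fun a r m => by
    rw [hM, ← mul_smul]; rfl⟩
  haveI t4 : IsScalarTower A' S N := ⟨fun a s n => by
    rw [hN, ← mul_smul]; rfl⟩
  haveI push : Algebra.IsPushout A A' R S := by
    constructor
    exact isBaseChange (β := fA) hpush _ (fun m => (hfA m).symm)
  obtain ⟨e, he⟩ := exists_equiv_tensor_aux hβ
  let e1 : S ⊗[R] M ≃ₗ[A'] A' ⊗[A] M := Algebra.IsPushout.cancelBaseChange A A' R S M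
  let e2 : A' ⊗[A] M ≃ₗ[A'] N := e1.symm ≪≫ₗ (e.restrictScalars A')
  refine of_equiv_aux (isBCMap_mkAlg (R := A) (S := A') M) e2 βA (fun m => ?_)
  have h1 : e1.symm ((1 : A') ⊗ₜ[A] m) = (1 : S) ⊗ₜ[R] m := by
    rw [LinearEquiv.symm_apply_eq]
    exact (Algebra.IsPushout.cancelBaseChange_tmul A A' R S M m).symm
  show βA m = e (e1.symm ((1 : A') ⊗ₜ[A] m))
  rw [h1, he, hβA]

end B

end IsBCMap

end Fermat.Agent.S25
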