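/-
S25 / block T1-A: formal properties of `IsBCMap`.
Owner: helper122.
-/
import Fermat.Agent.S25.Triple.BCMod

set_option autoImplicit false

universe u

namespace Fermat.Agent.S25

namespace IsBCMap

variable {R S T : Type u} [CommRing R] [CommRing S] [CommRing T] {f : R →+* S} {g : S →+* T}
  {M M' N N' P : Type u} [AddCommGroup M] [Module R M] [AddCommGroup M'] [Module R M']
  [AddCommGroup N] [Module S N] [AddCommGroup N'] [Module S N'] [AddCommGroup P] [Module T P]
  {β : M →ₛₗ[f] N}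

theorem semilinear_ext (hβ : IsBCMap f β) {u u' : N →ₛₗ[g] P} (H : ∀ m, u (β m) = u' (β m)) :
    u = u' := by
  let inst : Module S P := Module.compHom P g
  let v : N →ₗ[S] P :=
    { toFun := u
      map_add' := u.map_add
      map_smul' := fun c n => u.map_smulₛₗ c n }
  let v' : N →ₗ[S] P :=
    { toFun := u'
      map_add' := u'.map_add
      map_smul' := fun c n => u'.map_smulₛₗ c n }
  have hv : v = v' := hβ.hom_ext H
  ext n
  exact congrArg (fun w : N →ₗ[S] P => w n) hv

theorem span_range (hβ : IsBCMap f β) : Submodule.span S (Set.range β) = ⊤ := by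
  set W := Submodule.span S (Set.range β) with hW
  have h : W.mkQ = 0 := by
    refine hβ.hom_ext fun m => ?_
    rw [LinearMap.zero_apply, Submodule.mkQ_apply, Submodule.Quotient.mk_eq_zero]
    exact Submodule.subset_span ⟨m, rfl⟩
  rw [← Submodule.ker_mkQ W, h, LinearMap.ker_zero]

theorem induction_on (hβ : IsBCMap f β) {C : N → Prop} (n : N) (zero : C 0)
    (smul : ∀ (s : S) (m : M), C (s • β m)) (add : ∀ a b, C a → C b → C (a + b)) : C n := by
  have hn : n ∈ Submodule.span S (Set.range β) := by rw [hβ.span_range]; trivial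
  have key : ∀ s : S, C (s • n) := by
    induction hn using Submodule.span_induction with
    | mem x hx =>
      obtain ⟨m, rfl⟩ := hx
      exact fun s => smul s m
    | zero => intro s; rw [smul_zero]; exact zero
    | add x y _ _ hx hy => intro s; rw [smul_add]; exact add _ _ (hx s) (hy s)
    | smul a x _ hx => intro s; rw [← mul_smul]; exact hx _
  simpa using key 1

/-- two base changes of the same module are canonically isomorphic -/
noncomputable def equiv (hβ : IsBCMap f β) {β' : M →ₛₗ[f] N'} (hβ' : IsBCMap f β') :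
    N ≃ₗ[S] N' :=
  LinearEquiv.ofLinearMap (hβ.lift β') (hβ'.lift β)
    (hβ'.hom_ext fun m => by simp)
    (hβ.hom_ext fun m => by simp)

@[simp] theorem equiv_apply (hβ : IsBCMap f β) {β' : M →ₛₗ[f] N'} (hβ' : IsBCMap f β') (m : M) :
    hβ.equiv hβ' (β m) = β' m := hβ.lift_apply β' m

@[simp] theorem equiv_symm_apply (hβ : IsBCMap f β) {β' : M →ₛₗ[f] N'} (hβ' : IsBCMap f β')
    (m : M) : (hβ.equiv hβ').symm (β' m) = β m := hβ'.lift_apply β m

theorem of_equiv (hβ : IsBCMap f β) (e : N ≃ₗ[S] N') (β' : M →ₛₗ[f] N')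
    (h : ∀ m, β' m = e (β m)) : IsBCMap f β' := by
  intro Q _ _ g
  refine ⟨(hβ.lift g).comp e.symm.toLinearMap, fun m => by simp [h], fun k hk => ?_⟩
  have : k.comp e.toLinearMap = hβ.lift g := hβ.hom_ext fun m => by
    simp [← h, hk]
  rw [← this]
  ext n
  simp

theorem of_equiv_left (hβ : IsBCMap f β) (e : M' ≃ₗ[R] M) (β' : M' →ₛₗ[f] N)
    (h : ∀ m, β' m = β (e m)) : IsBCMap f β' := by
  intro Q _ _ g
  let g' : M →ₛₗ[f] Q :=
    { toFun := fun m => g (e.symm m)
      map_add' := fun a b => by rw [map_add, map_add]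
      map_smul' := fun a m => by rw [map_smul, g.map_smulₛₗ] }
  refine ⟨hβ.lift g', fun m => ?_, fun k hk => hβ.hom_ext fun m => ?_⟩
  · rw [h, hβ.lift_apply]
    change g (e.symm (e m)) = g m
    rw [e.symm_apply_apply]
  · rw [hβ.lift_apply]
    change k (β m) = g (e.symm m)
    rw [← hk, h, e.apply_symm_apply]

theorem comp (hβ : IsBCMap f β) {γ : N →ₛₗ[g] P} (hγ : IsBCMap g γ) {h : R →+* T}
    (hh : ∀ a, h a = g (f a)) (δ : M →ₛₗ[h] P) (hδ : ∀ m, δ m = γ (β m)) : IsBCMap h δ := by
  intro Q _ _ u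
  let inst : Module S Q := Module.compHom Q g
  let u₁ : M →ₛₗ[f] Q :=
    { toFun := u
      map_add' := u.map_add
      map_smul' := fun a m => by
        rw [u.map_smulₛₗ, hh]
        rfl }
  let u₂ : N →ₛₗ[g] Q :=
    { toFun := hβ.lift u₁
      map_add' := (hβ.lift u₁).map_add
      map_smul' := fun c n => (hβ.lift u₁).map_smul c n }
  refine ⟨hγ.lift u₂, fun m => ?_, fun k hk => hγ.hom_ext fun n => ?_⟩
  · rw [hδ, hγ.lift_apply]
    exact hβ.lift_apply u₁ m
  · rw [hγ.lift_apply]
    let k₂ : N →ₛₗ[g] Q :=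
      { toFun := fun n => k (γ n)
        map_add' := fun a b => by rw [map_add, map_add]
        map_smul' := fun c n => by rw [γ.map_smulₛₗ, map_smul] }
    have : k₂ = u₂ := hβ.semilinear_ext fun m => by
      change k (γ (β m)) = hβ.lift u₁ (β m)
      rw [hβ.lift_apply, ← hδ, hk]
      rfl
    exact congrArg (fun w : N →ₛₗ[g] Q => w n) this

theorem of_comp (hβ : IsBCMap f β) {h : R →+* T} (hh : ∀ a, h a = g (f a)) {δ : M →ₛₗ[h] P}
    (hδ' : IsBCMap h δ) (γ : N →ₛₗ[g] P) (hδ : ∀ m, δ m = γ (β m)) : IsBCMap g γ := by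
  intro Q _ _ u
  let u₁ : M →ₛₗ[h] Q :=
    { toFun := fun m => u (β m)
      map_add' := fun a b => by rw [map_add, map_add]
      map_smul' := fun a m => by rw [β.map_smulₛₗ, u.map_smulₛₗ, hh] }
  refine ⟨hδ'.lift u₁, fun n => ?_, fun k hk => hδ'.hom_ext fun m => ?_⟩
  · let k₂ : N →ₛₗ[g] Q :=
      { toFun := fun n => hδ'.lift u₁ (γ n)
        map_add' := fun a b => by rw [map_add, map_add]
        map_smul' := fun c n => by rw [γ.map_smulₛₗ, map_smul] }
    have : k₂ = u := hβ.semilinear_ext fun m => by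
      change hδ'.lift u₁ (γ (β m)) = u (β m)
      rw [← hδ, hδ'.lift_apply]
      rfl
    exact congrArg (fun w : N →ₛₗ[g] Q => w n) this
  · rw [hδ'.lift_apply, hδ, hk]
    rfl

theorem of_bijective {f₀ : R →+* R} (hf : ∀ a, f₀ a = a) (β₀ : M →ₛₗ[f₀] M')
    (hb : Function.Bijective β₀) : IsBCMap f₀ β₀ := by
  intro Q _ _ u
  let e : M ≃+ M' := AddEquiv.ofBijective β₀.toAddMonoidHom hb
  have he : ∀ m, e m = β₀ m := fun _ => rfl
  let k : M' →ₗ[R] Q :=
    { toFun := fun n => u (e.symm n)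
      map_add' := fun a b => by rw [map_add, map_add]
      map_smul' := fun c n => by
        have : e.symm (c • n) = c • e.symm n := by
          apply e.injective
          rw [e.apply_symm_apply, he, β₀.map_smulₛₗ, hf, ← he, e.apply_symm_apply]
        rw [this, u.map_smulₛₗ, hf]
        rfl }
  refine ⟨k, fun m => ?_, fun k' hk' => ?_⟩
  · change u (e.symm (β₀ m)) = u m
    rw [← he, e.symm_apply_apply]
  · ext n
    change k' n = u (e.symm n)
    rw [← hk', ← he, e.apply_symm_apply]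

theorem self (β₀ : R →ₛₗ[f] S) (h : ∀ a, β₀ a = f a) : IsBCMap f β₀ := by
  intro Q _ _ u
  refine ⟨LinearMap.toSpanSingleton S Q (u 1), fun a => ?_, fun k hk => ?_⟩
  · rw [LinearMap.toSpanSingleton_apply, h, ← u.map_smulₛₗ, smul_eq_mul, mul_one]
  · ext
    rw [LinearMap.toSpanSingleton_apply, one_smul, ← hk, h, f.map_one]

theorem prod (hβ : IsBCMap f β) {β' : M' →ₛₗ[f] N'} (hβ' : IsBCMap f β')
    (γ : (M × M') →ₛₗ[f] (N × N')) (hγ : ∀ z, γ z = (β z.1, β' z.2)) : IsBCMap f γ := by
  intro Q _ _ u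
  let u₁ : M →ₛₗ[f] Q :=
    { toFun := fun m => u (m, 0)
      map_add' := fun a b => by rw [← map_add, Prod.mk_add_mk, add_zero]
      map_smul' := fun a m => by rw [← u.map_smulₛₗ, Prod.smul_mk, smul_zero] }
  let u₂ : M' →ₛₗ[f] Q :=
    { toFun := fun m => u (0, m)
      map_add' := fun a b => by rw [← map_add, Prod.mk_add_mk, add_zero]
      map_smul' := fun a m => by rw [← u.map_smulₛₗ, Prod.smul_mk, smul_zero] }
  refine ⟨(hβ.lift u₁).coprod (hβ'.lift u₂), fun z => ?_, fun k hk => ?_⟩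
  · rw [hγ, LinearMap.coprod_apply, hβ.lift_apply, hβ'.lift_apply]
    change u (z.1, 0) + u (0, z.2) = u z
    rw [← map_add, Prod.mk_add_mk, add_zero, zero_add]
  · have h1 : k.comp (LinearMap.inl S N N') = hβ.lift u₁ := hβ.hom_ext fun m => by
      rw [hβ.lift_apply]
      change k (β m, 0) = u (m, 0)
      rw [← hk, hγ, map_zero]
    have h2 : k.comp (LinearMap.inr S N N') = hβ'.lift u₂ := hβ'.hom_ext fun m => by
      rw [hβ'.lift_apply]
      change k (0, β' m) = u (0, m)
      rw [← hk, hγ, map_zero]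
    rw [← h1, ← h2]
    ext n <;> simp

end IsBCMap

end Fermat.Agent.S25
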