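/-
S25 / block T1-C: quasi-coherence of a triple = base change along `resᵢ`.   (helper110)
-/
import Fermat.Agent.S25.Core
import Fermat.Agent.S25.Triple.BCMod

set_option autoImplicit false

universe u

open scoped TensorProduct

namespace Fermat.Agent.S25

namespace QC

section General

variable {R S : Type u} [CommRing R] [CommRing S]
  {M N : Type u} [AddCommGroup M] [Module R M] [AddCommGroup N] [Module S N]

/-- comparison with Mathlib's `IsBaseChange` (local version) -/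
theorem isBCMap_iff_isBaseChange [Algebra R S] [Module R N] [IsScalarTower R S N]
    (β : M →ₛₗ[algebraMap R S] N) (β₀ : M →ₗ[R] N) (h : ∀ m, β₀ m = β m) :
    IsBCMap (algebraMap R S) β ↔ IsBaseChange S β₀ := by
  constructor
  · intro hβ
    refine IsBaseChange.of_lift_unique β₀ ?_
    intro Q instQ _ _ _ g
    let instG : AddCommGroup Q := Module.addCommMonoidToAddCommGroup S
    let g' : M →ₛₗ[algebraMap R S] Q :=
      { toFun := g
        map_add' := g.map_add
        map_smul' := fun r m => by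
          rw [g.map_smul, algebraMap_smul] }
    obtain ⟨l, hl, hu⟩ := hβ Q g'
    refine ⟨l, ?_, fun l' hl' => hu l' fun m => ?_⟩
    · ext m
      have h1 := hl m
      rw [← h] at h1
      exact h1
    · have h1 := LinearMap.congr_fun hl' m
      rw [← h]
      exact h1
  · intro h₀ Q _ _ g
    let _ : Module R Q := Module.compHom Q (algebraMap R S)
    have : IsScalarTower R S Q := ⟨fun r s q => by
      change (r • s) • q = (algebraMap R S r) • (s • q)
      rw [Algebra.smul_def, mul_smul]⟩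
    let g' : M →ₗ[R] Q :=
      { toFun := g
        map_add' := g.map_add
        map_smul' := fun r m => g.map_smulₛₗ r m }
    refine ⟨h₀.lift g', fun n => ?_, fun l hl => ?_⟩
    · rw [← h]; exact h₀.lift_eq g' n
    · refine h₀.algHom_ext' _ _ ?_
      ext n
      have := hl n
      rw [← h] at this
      exact this.trans (h₀.lift_eq g' n).symm

/-- Along a localization `f : R → S = R[1/x]`, a semilinear map is a base change iff it satisfies
the two elementary localization conditions. -/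
theorem isBCMap_iff_of_away (f : R →+* S) (x : R)
    (hloc : @IsLocalization.Away R _ x S _ f.toAlgebra) (β : M →ₛₗ[f] N) :
    IsBCMap f β ↔ (∀ n : N, ∃ (m : ℕ) (n₁ : M), β n₁ = (f x) ^ m • n) ∧
      (∀ n₁ : M, β n₁ = 0 → ∃ m : ℕ, x ^ m • n₁ = 0) := by
  let _ : Algebra R S := f.toAlgebra
  let _ : Module R N := Module.compHom N f
  have : IsScalarTower R S N := ⟨fun r s n => by
    change (f r * s) • n = f r • (s • n)
    rw [mul_smul]⟩
  let β₀ : M →ₗ[R] N :=
    { toFun := β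
      map_add' := β.map_add
      map_smul' := fun r m => β.map_smulₛₗ r m }
  have h1 : IsBCMap f β ↔ IsBaseChange S β₀ :=
    isBCMap_iff_isBaseChange (R := R) (S := S) β β₀ fun _ => rfl
  have hsm : ∀ (r : R) (n : N), r • n = f r • n := fun _ _ => rfl
  rw [h1, ← isLocalizedModule_iff_isBaseChange (Submonoid.powers x) S β₀]
  constructor
  · intro h
    refine ⟨fun n => ?_, fun n₁ h0 => ?_⟩
    · obtain ⟨⟨n₁, ⟨_, m, rfl⟩⟩, h⟩ := IsLocalizedModule.surj (Submonoid.powers x) β₀ n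
      refine ⟨m, n₁, ?_⟩
      rw [← map_pow, ← hsm]
      exact h.symm
    · obtain ⟨⟨_, m, rfl⟩, h⟩ := (IsLocalizedModule.eq_zero_iff (Submonoid.powers x) β₀).1 h0
      exact ⟨m, h⟩
  · rintro ⟨hs, hi⟩
    refine ⟨?_, fun n => ?_, fun {a b} hab => ?_⟩
    · rintro ⟨_, m, rfl⟩
      have hu : IsUnit (f (x ^ m)) :=
        IsLocalization.map_units (M := Submonoid.powers x) S ⟨x ^ m, m, rfl⟩
      rw [Module.End.isUnit_iff]
      obtain ⟨u, hu⟩ := hu
      constructor
      · intro a b hab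
        have h2 : f (x ^ m) • a = f (x ^ m) • b := hab
        rw [← hu] at h2
        have := congrArg (fun z => (↑u⁻¹ : S) • z) h2
        simpa [smul_smul] using this
      · intro a
        refine ⟨(↑u⁻¹ : S) • a, ?_⟩
        change f (x ^ m) • ((↑u⁻¹ : S) • a) = a
        rw [← hu, smul_smul]
        simp
    · obtain ⟨m, n₁, h⟩ := hs n
      refine ⟨(n₁, ⟨x ^ m, m, rfl⟩), ?_⟩
      change f (x ^ m) • n = β n₁
      rw [map_pow, h]
    · have h0 : β (a - b) = 0 := by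
        rw [map_sub]
        exact sub_eq_zero.2 hab
      obtain ⟨m, hm⟩ := hi _ h0
      refine ⟨⟨x ^ m, m, rfl⟩, ?_⟩
      change x ^ m • a = x ^ m • b
      rwa [smul_sub, sub_eq_zero] at hm

/-- the elementary localization conditions for the ring itself -/
theorem away_self (f : R →+* S) (x : R) (hloc : @IsLocalization.Away R _ x S _ f.toAlgebra) :
    (∀ n : S, ∃ (m : ℕ) (n₁ : R), f n₁ = (f x) ^ m * n) ∧
      (∀ n₁ : R, f n₁ = 0 → ∃ m : ℕ, x ^ m * n₁ = 0) := by
  let _ : Algebra R S := f.toAlgebra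
  refine ⟨fun n => ?_, fun n₁ h0 => ?_⟩
  · obtain ⟨⟨n₁, ⟨_, m, rfl⟩⟩, h⟩ := IsLocalization.surj (Submonoid.powers x) n
    refine ⟨m, n₁, ?_⟩
    have h' : n * f (x ^ m) = f n₁ := h
    rw [← h', map_pow, mul_comm]
  · obtain ⟨⟨_, m, rfl⟩, h⟩ := (IsLocalization.map_eq_zero_iff (Submonoid.powers x) S n₁).1 h0
    exact ⟨m, h⟩

end General

end QC

namespace CurveCharts

variable {k : Type u} [Field k] (𝔠 : CurveCharts k)
  (A : Type u) [CommRing A] [Algebra k A]

theorem isLocalization_res₁ :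
    @IsLocalization.Away (𝔠.R₁ A) _ (𝔠.xA A) (𝔠.R₁₂ A) _ (𝔠.res₁ A).toRingHom.toAlgebra := by
  let _ : Algebra (A ⊗[k] 𝔠.B₁) (A ⊗[k] 𝔠.B₁₂) := (𝔠.res₁ A).toRingHom.toAlgebra
  have : IsScalarTower A (A ⊗[k] 𝔠.B₁) (A ⊗[k] 𝔠.B₁₂) :=
    IsScalarTower.of_algebraMap_eq' (by
      ext a
      exact ((𝔠.res₁ A).commutes a).symm)
  have := 𝔠.away₁
  have key := IsLocalization.tensorProduct_tensorProduct_right k A (Submonoid.powers 𝔠.x) 𝔠.B₁₂
    (by
      ext b
      simp [RingHom.algebraMap_toAlgebra, res₁])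
  rw [Submonoid.map_powers] at key
  exact key

theorem isLocalization_res₂ :
    @IsLocalization.Away (𝔠.R₂ A) _ (𝔠.yA A) (𝔠.R₁₂ A) _ (𝔠.res₂ A).toRingHom.toAlgebra := by
  let _ : Algebra (A ⊗[k] 𝔠.B₂) (A ⊗[k] 𝔠.B₁₂) := (𝔠.res₂ A).toRingHom.toAlgebra
  have : IsScalarTower A (A ⊗[k] 𝔠.B₂) (A ⊗[k] 𝔠.B₁₂) :=
    IsScalarTower.of_algebraMap_eq' (by
      ext a
      exact ((𝔠.res₂ A).commutes a).symm)
  have := 𝔠.away₂
  have key := IsLocalization.tensorProduct_tensorProduct_right k A (Submonoid.powers 𝔠.y) 𝔠.B₁₂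
    (by
      ext b
      simp [RingHom.algebraMap_toAlgebra, res₂])
  rw [Submonoid.map_powers] at key
  exact key

end CurveCharts

namespace Triple

variable {k : Type u} [Field k] {𝔠 : CurveCharts k}
  {A : Type u} [CommRing A] [Algebra k A]

theorem isQC_iff (T : Triple 𝔠 A) :
    T.IsQC ↔ IsBCMap (𝔠.res₁ A).toRingHom T.ρ₁ ∧ IsBCMap (𝔠.res₂ A).toRingHom T.ρ₂ := by
  rw [QC.isBCMap_iff_of_away _ _ (𝔠.isLocalization_res₁ A) T.ρ₁,
    QC.isBCMap_iff_of_away _ _ (𝔠.isLocalization_res₂ A) T.ρ₂]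
  exact ⟨fun h => ⟨⟨h.surj₁, h.inj₁⟩, ⟨h.surj₂, h.inj₂⟩⟩,
    fun h => ⟨h.1.1, h.1.2, h.2.1, h.2.2⟩⟩

theorem unit_isQC : (unit 𝔠 A).IsQC :=
  have h₁ := QC.away_self _ _ (𝔠.isLocalization_res₁ A)
  have h₂ := QC.away_self _ _ (𝔠.isLocalization_res₂ A)
  ⟨h₁.1, h₁.2, h₂.1, h₂.2⟩

theorem unit_isInvertible : (unit 𝔠 A).IsInvertible :=
  { unit_isQC with
    inv₁ := inferInstanceAs (Module.Invertible (𝔠.R₁ A) (𝔠.R₁ A))
    inv₂ := inferInstanceAs (Module.Invertible (𝔠.R₂ A) (𝔠.R₂ A)) }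

theorem unit_isRigid : (unit 𝔠 A).IsRigid := by
  refine ⟨(1 : 𝔠.R₂ A), fun m => ⟨m, ?_⟩⟩
  have h0 : ∀ m : 𝔠.R₂ A, m - m • (1 : 𝔠.R₂ A) = 0 := fun m => by
    rw [smul_eq_mul, mul_one, sub_self]
  have h1 : m - (show 𝔠.R₂ A from m) • (show (unit 𝔠 A).N₂ from (1 : 𝔠.R₂ A)) = 0 := h0 m
  rw [h1]
  exact Submodule.zero_mem _

end Triple

end Fermat.Agent.S25
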