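/-
S25 / block T1-E: base change of triples: uniqueness, composition, stability of the properties.
Owner: helper122.
-/
import Fermat.Agent.S25.AlgSpec
import Fermat.Agent.S25.Triple.BC
import Fermat.Agent.S25.Triple.BCModLemmas
import Fermat.Agent.S25.Triple.BCModMathlib
import Fermat.Agent.S25.Triple.QC

set_option autoImplicit false

universe u

open scoped TensorProduct

namespace Fermat.Agent.S25

namespace CurveCharts

variable {k : Type u} [Field k] (𝔠 : CurveCharts k)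
  {A A' A'' : Type u} [CommRing A] [Algebra k A] [CommRing A'] [Algebra k A']
  [CommRing A''] [Algebra k A'']

theorem bc₁_comp (φ : A →ₐ[k] A') (ψ : A' →ₐ[k] A'') (a : 𝔠.R₁ A) :
    𝔠.bc₁ (ψ.comp φ) a = 𝔠.bc₁ ψ (𝔠.bc₁ φ a) := by
  induction a using TensorProduct.induction_on with
  | zero => simp
  | tmul a b => simp [bc₁]
  | add a b ha hb => simp only [map_add, ha, hb]

theorem bc₂_comp (φ : A →ₐ[k] A') (ψ : A' →ₐ[k] A'') (a : 𝔠.R₂ A) :
    𝔠.bc₂ (ψ.comp φ) a = 𝔠.bc₂ ψ (𝔠.bc₂ φ a) := by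
  induction a using TensorProduct.induction_on with
  | zero => simp
  | tmul a b => simp [bc₂]
  | add a b ha hb => simp only [map_add, ha, hb]

theorem bc₁₂_comp (φ : A →ₐ[k] A') (ψ : A' →ₐ[k] A'') (a : 𝔠.R₁₂ A) :
    𝔠.bc₁₂ (ψ.comp φ) a = 𝔠.bc₁₂ ψ (𝔠.bc₁₂ φ a) := by
  induction a using TensorProduct.induction_on with
  | zero => simp
  | tmul a b => simp [bc₁₂]
  | add a b ha hb => simp only [map_add, ha, hb]

theorem bc₁_id (a : 𝔠.R₁ A) : 𝔠.bc₁ (AlgHom.id k A) a = a := by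
  simp [bc₁]

theorem bc₂_id (a : 𝔠.R₂ A) : 𝔠.bc₂ (AlgHom.id k A) a = a := by
  simp [bc₂]

theorem bc₁₂_id (a : 𝔠.R₁₂ A) : 𝔠.bc₁₂ (AlgHom.id k A) a = a := by
  simp [bc₁₂]

theorem ev₀_bc₂ (φ : A →ₐ[k] A') (a : 𝔠.R₂ A) : 𝔠.ev₀ A' (𝔠.bc₂ φ a) = φ (𝔠.ev₀ A a) := by
  induction a using TensorProduct.induction_on with
  | zero => simp
  | tmul a b => simp [ev₀, bc₂, Algebra.smul_def]
  | add a b ha hb => simp only [map_add, ha, hb]

end CurveCharts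

namespace Triple

variable {k : Type u} [Field k] {𝔠 : CurveCharts k}
  {A A' A'' : Type u} [CommRing A] [Algebra k A] [CommRing A'] [Algebra k A']
  [CommRing A''] [Algebra k A'']

theorem BaseChange.h₁ {φ : A →ₐ[k] A'} {T : Triple 𝔠 A} {T' : Triple 𝔠 A'}
    (D : BaseChange φ T T') : IsBCMap (𝔠.bc₁ φ).toRingHom D.β₁ := D.isBC₁
theorem BaseChange.h₂ {φ : A →ₐ[k] A'} {T : Triple 𝔠 A} {T' : Triple 𝔠 A'}
    (D : BaseChange φ T T') : IsBCMap (𝔠.bc₂ φ).toRingHom D.β₂ := D.isBC₂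
theorem BaseChange.h₁₂ {φ : A →ₐ[k] A'} {T : Triple 𝔠 A} {T' : Triple 𝔠 A'}
    (D : BaseChange φ T T') : IsBCMap (𝔠.bc₁₂ φ).toRingHom D.β₁₂ := D.isBC₁₂

/-- Two base changes of the same triple are isomorphic. -/
noncomputable def BaseChange.unique {φ : A →ₐ[k] A'} {T : Triple 𝔠 A} {T' T'' : Triple 𝔠 A'}
    (D : BaseChange φ T T') (D' : BaseChange φ T T'') : Iso T' T'' where
  e₁ := D.h₁.equiv D'.h₁
  e₂ := D.h₂.equiv D'.h₂
  e₁₂ := D.h₁₂.equiv D'.h₁₂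
  comm₁ := fun n => by
    have := D.h₁.semilinear_ext
      (u := (D.h₁₂.equiv D'.h₁₂).toLinearMap.comp T'.ρ₁)
      (u' := T''.ρ₁.comp
        (D.h₁.equiv D'.h₁).toLinearMap)
      (fun m => by
        simp only [LinearMap.comp_apply, LinearEquiv.coe_coe]
        rw [← D.comm₁, IsBCMap.equiv_apply, IsBCMap.equiv_apply, D'.comm₁])
    exact congrArg (fun w => w n) this
  comm₂ := fun n => by
    have := D.h₂.semilinear_ext
      (u := (D.h₁₂.equiv D'.h₁₂).toLinearMap.comp T'.ρ₂)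
      (u' := T''.ρ₂.comp
        (D.h₂.equiv D'.h₂).toLinearMap)
      (fun m => by
        simp only [LinearMap.comp_apply, LinearEquiv.coe_coe]
        rw [← D.comm₂, IsBCMap.equiv_apply, IsBCMap.equiv_apply, D'.comm₂])
    exact congrArg (fun w => w n) this

/-- Base change is stable under isomorphism of the target. -/
noncomputable def BaseChange.ofIso {φ : A →ₐ[k] A'} {T : Triple 𝔠 A} {T' T'' : Triple 𝔠 A'}
    (D : BaseChange φ T T') (e : Iso T' T'') : BaseChange φ T T'' where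
  β₁ := e.e₁.toLinearMap.comp D.β₁
  β₂ := e.e₂.toLinearMap.comp D.β₂
  β₁₂ := e.e₁₂.toLinearMap.comp D.β₁₂
  comm₁ := fun n => by
    simp only [LinearMap.comp_apply, LinearEquiv.coe_coe]
    rw [D.comm₁, e.comm₁]
  comm₂ := fun n => by
    simp only [LinearMap.comp_apply, LinearEquiv.coe_coe]
    rw [D.comm₂, e.comm₂]
  isBC₁ := IsBCMap.of_equiv (β := D.β₁) D.isBC₁ e.e₁ _ fun _ => rfl
  isBC₂ := IsBCMap.of_equiv (β := D.β₂) D.isBC₂ e.e₂ _ fun _ => rfl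
  isBC₁₂ := IsBCMap.of_equiv (β := D.β₁₂) D.isBC₁₂ e.e₁₂ _ fun _ => rfl

/-- Base change is stable under isomorphism of the source. -/
noncomputable def BaseChange.ofIsoLeft {φ : A →ₐ[k] A'} {T₀ T : Triple 𝔠 A} {T' : Triple 𝔠 A'}
    (D : BaseChange φ T T') (e : Iso T₀ T) : BaseChange φ T₀ T' where
  β₁ := D.β₁.comp e.e₁.toLinearMap
  β₂ := D.β₂.comp e.e₂.toLinearMap
  β₁₂ := D.β₁₂.comp e.e₁₂.toLinearMap
  comm₁ := fun n => by
    simp only [LinearMap.comp_apply, LinearEquiv.coe_coe]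
    rw [e.comm₁, D.comm₁]
  comm₂ := fun n => by
    simp only [LinearMap.comp_apply, LinearEquiv.coe_coe]
    rw [e.comm₂, D.comm₂]
  isBC₁ := IsBCMap.of_equiv_left (β := D.β₁) D.isBC₁ e.e₁ _ fun _ => rfl
  isBC₂ := IsBCMap.of_equiv_left (β := D.β₂) D.isBC₂ e.e₂ _ fun _ => rfl
  isBC₁₂ := IsBCMap.of_equiv_left (β := D.β₁₂) D.isBC₁₂ e.e₁₂ _ fun _ => rfl

/-- auxiliary: composition of semilinear maps along a ring hom which is pointwise the composite -/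
noncomputable def compAux {R S T : Type u} [CommRing R] [CommRing S] [CommRing T] {f : R →+* S}
    {g : S →+* T} {h : R →+* T} (hh : ∀ a, h a = g (f a))
    {M N P : Type u} [AddCommGroup M] [Module R M] [AddCommGroup N] [Module S N]
    [AddCommGroup P] [Module T P] (γ : N →ₛₗ[g] P) (β : M →ₛₗ[f] N) : M →ₛₗ[h] P where
  toFun := fun m => γ (β m)
  map_add' := fun a b => by rw [map_add, map_add]
  map_smul' := fun a m => by rw [β.map_smulₛₗ, γ.map_smulₛₗ, hh]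

/-- Transitivity of base change. -/
noncomputable def BaseChange.comp {φ : A →ₐ[k] A'} {ψ : A' →ₐ[k] A''} {T : Triple 𝔠 A}
    {T' : Triple 𝔠 A'} {T'' : Triple 𝔠 A''} (D : BaseChange φ T T') (D' : BaseChange ψ T' T'') :
    BaseChange (ψ.comp φ) T T'' where
  β₁ := compAux (𝔠.bc₁_comp φ ψ) D'.β₁ D.β₁
  β₂ := compAux (𝔠.bc₂_comp φ ψ) D'.β₂ D.β₂
  β₁₂ := compAux (𝔠.bc₁₂_comp φ ψ) D'.β₁₂ D.β₁₂
  comm₁ := fun n => by
    change D'.β₁₂ (D.β₁₂ (T.ρ₁ n)) = T''.ρ₁ (D'.β₁ (D.β₁ n))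
    rw [D.comm₁, D'.comm₁]
  comm₂ := fun n => by
    change D'.β₁₂ (D.β₁₂ (T.ρ₂ n)) = T''.ρ₂ (D'.β₂ (D.β₂ n))
    rw [D.comm₂, D'.comm₂]
  isBC₁ := IsBCMap.comp (β := D.β₁) D.isBC₁ (γ := D'.β₁) D'.isBC₁ (𝔠.bc₁_comp φ ψ) _ fun _ => rfl
  isBC₂ := IsBCMap.comp (β := D.β₂) D.isBC₂ (γ := D'.β₂) D'.isBC₂ (𝔠.bc₂_comp φ ψ) _ fun _ => rfl
  isBC₁₂ := IsBCMap.comp (β := D.β₁₂) D.isBC₁₂ (γ := D'.β₁₂) D'.isBC₁₂ (𝔠.bc₁₂_comp φ ψ) _
    fun _ => rfl

/-- auxiliary: the identity as a semilinear map along a ring hom which is pointwise the identity -/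
noncomputable def idAux {R : Type u} [CommRing R] {f : R →+* R} (hf : ∀ a, f a = a)
    (M : Type u) [AddCommGroup M] [Module R M] : M →ₛₗ[f] M where
  toFun := fun m => m
  map_add' := fun _ _ => rfl
  map_smul' := fun a m => by rw [hf]

/-- Base change along the identity. -/
noncomputable def BaseChange.id (T : Triple 𝔠 A) : BaseChange (AlgHom.id k A) T T where
  β₁ := idAux (𝔠.bc₁_id) T.N₁
  β₂ := idAux (𝔠.bc₂_id) T.N₂
  β₁₂ := idAux (𝔠.bc₁₂_id) T.N₁₂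
  comm₁ := fun _ => rfl
  comm₂ := fun _ => rfl
  isBC₁ := IsBCMap.of_bijective (𝔠.bc₁_id) _ Function.bijective_id
  isBC₂ := IsBCMap.of_bijective (𝔠.bc₂_id) _ Function.bijective_id
  isBC₁₂ := IsBCMap.of_bijective (𝔠.bc₁₂_id) _ Function.bijective_id

/-- auxiliary: a ring hom as a semilinear map -/
noncomputable def selfAux {R S : Type u} [CommRing R] [CommRing S] (f : R →+* S) : R →ₛₗ[f] S where
  toFun := f
  map_add' := f.map_add
  map_smul' := fun a m => by simp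

/-- The structure sheaf base changes to the structure sheaf. -/
noncomputable def BaseChange.unit (φ : A →ₐ[k] A') :
    BaseChange φ (Triple.unit 𝔠 A) (Triple.unit 𝔠 A') where
  β₁ := selfAux (𝔠.bc₁ φ).toRingHom
  β₂ := selfAux (𝔠.bc₂ φ).toRingHom
  β₁₂ := selfAux (𝔠.bc₁₂ φ).toRingHom
  comm₁ := fun n => (𝔠.res₁_bc₁ φ n).symm
  comm₂ := fun n => (𝔠.res₂_bc₂ φ n).symm
  isBC₁ := IsBCMap.self _ fun _ => rfl
  isBC₂ := IsBCMap.self _ fun _ => rfl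
  isBC₁₂ := IsBCMap.self _ fun _ => rfl

theorem BaseChange.isQC {φ : A →ₐ[k] A'} {T : Triple 𝔠 A} {T' : Triple 𝔠 A'}
    (D : BaseChange φ T T') (h : T.IsQC) : T'.IsQC := by
  rw [isQC_iff] at h ⊢
  constructor
  · have h1 : IsBCMap ((𝔠.bc₁₂ φ).toRingHom.comp (𝔠.res₁ A).toRingHom)
        (compAux (fun _ => rfl) D.β₁₂ T.ρ₁) :=
      IsBCMap.comp h.1 (γ := D.β₁₂) D.isBC₁₂ (fun _ => rfl) _ fun _ => rfl
    exact IsBCMap.of_comp (β := D.β₁) D.isBC₁ (fun a => (𝔠.res₁_bc₁ φ a).symm) h1 T'.ρ₁ D.comm₁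
  · have h1 : IsBCMap ((𝔠.bc₁₂ φ).toRingHom.comp (𝔠.res₂ A).toRingHom)
        (compAux (fun _ => rfl) D.β₁₂ T.ρ₂) :=
      IsBCMap.comp h.2 (γ := D.β₁₂) D.isBC₁₂ (fun _ => rfl) _ fun _ => rfl
    exact IsBCMap.of_comp (β := D.β₂) D.isBC₂ (fun a => (𝔠.res₂_bc₂ φ a).symm) h1 T'.ρ₂ D.comm₂

theorem BaseChange.isInvertible {φ : A →ₐ[k] A'} {T : Triple 𝔠 A} {T' : Triple 𝔠 A'}
    (D : BaseChange φ T T') (h : T.IsInvertible) : T'.IsInvertible where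
  toIsQC := D.isQC h.toIsQC
  inv₁ := IsBCMap.invertible (β := D.β₁) D.isBC₁ h.inv₁
  inv₂ := IsBCMap.invertible (β := D.β₂) D.isBC₂ h.inv₂

theorem BaseChange.isRigid {φ : A →ₐ[k] A'} {T : Triple 𝔠 A} {T' : Triple 𝔠 A'}
    (D : BaseChange φ T T') (h : T.IsRigid) : T'.IsRigid := by
  obtain ⟨n, hn⟩ := h
  refine ⟨D.β₂ n, fun m => ?_⟩
  set I' := (RingHom.ker (𝔠.ev₀ A').toRingHom) • (⊤ : Submodule (𝔠.R₂ A') T'.N₂) with hI'
  -- the image of `I • N₂` lies in `I' • N₂'`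
  have himg : ∀ z ∈ (RingHom.ker (𝔠.ev₀ A).toRingHom) • (⊤ : Submodule (𝔠.R₂ A) T.N₂),
      D.β₂ z ∈ I' := by
    intro z hz
    induction hz using Submodule.smul_induction_on' with
    | smul r hr x _ =>
      rw [D.β₂.map_smulₛₗ]
      refine Submodule.smul_mem_smul ?_ trivial
      rw [RingHom.mem_ker] at hr ⊢
      change 𝔠.ev₀ A' (𝔠.bc₂ φ r) = 0
      rw [𝔠.ev₀_bc₂]
      change 𝔠.ev₀ A r = 0 at hr
      rw [hr, map_zero]
    | add x _ y _ hx hy => rw [map_add]; exact I'.add_mem hx hy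
  refine D.h₂.induction_on (C := fun m => ∃ r : 𝔠.R₂ A', m - r • D.β₂ n ∈ I') m ⟨0, by simp⟩ ?_ ?_
  · intro s m₀
    obtain ⟨r, hr⟩ := hn m₀
    refine ⟨s * 𝔠.bc₂ φ r, ?_⟩
    have : s • D.β₂ m₀ - (s * 𝔠.bc₂ φ r) • D.β₂ n = s • D.β₂ (m₀ - r • n) := by
      rw [map_sub, D.β₂.map_smulₛₗ, smul_sub, mul_smul]
      rfl
    rw [this]
    exact I'.smul_mem s (himg _ hr)
  · rintro a b ⟨r, hr⟩ ⟨r', hr'⟩
    refine ⟨r + r', ?_⟩
    have : a + b - (r + r') • D.β₂ n = (a - r • D.β₂ n) + (b - r' • D.β₂ n) := by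
      rw [add_smul]; abel
    rw [this]
    exact I'.add_mem hr hr'

theorem BaseChange.deg0 {φ : A →ₐ[k] A'} {T : Triple 𝔠 A} {T' : Triple 𝔠 A'}
    (D : BaseChange φ T T') (h : T.Deg0) : T'.Deg0 :=
  fun K _ _ ψ TK ⟨D'⟩ => h K (ψ.comp φ) TK ⟨D.comp D'⟩

theorem BaseChange.isPic0 {φ : A →ₐ[k] A'} {T : Triple 𝔠 A} {T' : Triple 𝔠 A'}
    (D : BaseChange φ T T') (h : T.IsPic0) : T'.IsPic0 :=
  ⟨D.isInvertible h.inv, D.isRigid h.rigid, D.deg0 h.deg0⟩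

/-- an isomorphism is a base change along the identity -/
noncomputable def BaseChange.ofIsoId {T T' : Triple 𝔠 A} (e : Iso T T') :
    BaseChange (AlgHom.id k A) T T' := (BaseChange.id T).ofIso e

theorem Deg0.of_iso {T T' : Triple 𝔠 A} (e : Iso T T') (h : T.Deg0) : T'.Deg0 :=
  (BaseChange.ofIsoId e).deg0 h

theorem IsPic0.of_iso {T T' : Triple 𝔠 A} (e : Iso T T') (h : T.IsPic0) : T'.IsPic0 :=
  (BaseChange.ofIsoId e).isPic0 h

/-! ### the three `AlgSpec` fields -/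

theorem exists_bc (A A' : Type u) [CommRing A] [Algebra k A] [CommRing A'] [Algebra k A']
    (φ : A →ₐ[k] A') (T : Triple 𝔠 A) : ∃ T' : Triple 𝔠 A', IsBC φ T T' :=
  ⟨T.bc φ, ⟨T.bcData φ⟩⟩

theorem bc_unique (A A' : Type u) [CommRing A] [Algebra k A] [CommRing A'] [Algebra k A']
    (φ : A →ₐ[k] A') (T : Triple 𝔠 A) (T' T'' : Triple 𝔠 A') (h : IsBC φ T T')
    (h' : IsBC φ T T'') : Nonempty (Iso T' T'') :=
  ⟨h.some.unique h'.some⟩

theorem bc_pic0 (A A' : Type u) [CommRing A] [Algebra k A] [CommRing A'] [Algebra k A']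
    (φ : A →ₐ[k] A') (T : Triple 𝔠 A) (T' : Triple 𝔠 A') (h : IsBC φ T T') (hT : T.IsPic0) :
    T'.IsPic0 :=
  h.some.isPic0 hT

end Triple

end Fermat.Agent.S25
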