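/-
S25: explicit line bundles: ideal sheaves of divisors in `W₁ × Spec A` / `W₂ × Spec A`, and the twists
`𝒪(j·D_∞)`, `D_∞ = (x)_∞`.   Owner: helper25.  FROZEN INTERFACE (definitions only).
-/
import Fermat.Agent.S25.Core

set_option autoImplicit false

universe u

open scoped TensorProduct

namespace Fermat.Agent.S25.Triple

variable {k : Type u} [Field k] {𝔠 : CurveCharts k} {A : Type u} [CommRing A] [Algebra k A]

/-- The ideal sheaf of the closed subscheme `D = V(I) ⊆ W₁ × Spec A` (meaningful when `D` is finite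
over `A`, so that `D` is closed in `C × Spec A`): `(I, (I·R₁₂) ∩ R₂, I·R₁₂)`. -/
noncomputable def Idiv (I : Ideal (𝔠.R₁ A)) : Triple 𝔠 A where
  N₁ := I
  N₂ := ((I.map (𝔠.res₁ A).toRingHom).comap (𝔠.res₂ A).toRingHom : Ideal (𝔠.R₂ A))
  N₁₂ := (I.map (𝔠.res₁ A).toRingHom : Ideal (𝔠.R₁₂ A))
  ρ₁ :=
    { toFun := fun n => ⟨(𝔠.res₁ A).toRingHom n.1, Ideal.mem_map_of_mem _ n.2⟩
      map_add' := fun a b => Subtype.ext (map_add (𝔠.res₁ A).toRingHom a.1 b.1)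
      map_smul' := fun r n => Subtype.ext (map_mul (𝔠.res₁ A).toRingHom r n.1) }
  ρ₂ :=
    { toFun := fun n => ⟨(𝔠.res₂ A).toRingHom n.1, n.2⟩
      map_add' := fun a b => Subtype.ext (map_add (𝔠.res₂ A).toRingHom a.1 b.1)
      map_smul' := fun r n => Subtype.ext (map_mul (𝔠.res₂ A).toRingHom r n.1) }

/-- The ideal sheaf of the closed subscheme `V(I) ⊆ W₂ × Spec A`: `((I·R₁₂) ∩ R₁, I, I·R₁₂)`. -/
noncomputable def Idiv₂ (I : Ideal (𝔠.R₂ A)) : Triple 𝔠 A where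
  N₁ := ((I.map (𝔠.res₂ A).toRingHom).comap (𝔠.res₁ A).toRingHom : Ideal (𝔠.R₁ A))
  N₂ := I
  N₁₂ := (I.map (𝔠.res₂ A).toRingHom : Ideal (𝔠.R₁₂ A))
  ρ₁ :=
    { toFun := fun n => ⟨(𝔠.res₁ A).toRingHom n.1, n.2⟩
      map_add' := fun a b => Subtype.ext (map_add (𝔠.res₁ A).toRingHom a.1 b.1)
      map_smul' := fun r n => Subtype.ext (map_mul (𝔠.res₁ A).toRingHom r n.1) }
  ρ₂ :=
    { toFun := fun n => ⟨(𝔠.res₂ A).toRingHom n.1, Ideal.mem_map_of_mem _ n.2⟩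
      map_add' := fun a b => Subtype.ext (map_add (𝔠.res₂ A).toRingHom a.1 b.1)
      map_smul' := fun r n => Subtype.ext (map_mul (𝔠.res₂ A).toRingHom r n.1) }

variable (𝔠 A)

/-- The ideal sheaf `𝒪(-P₀)` of the marked section. -/
noncomputable def IP0 : Triple 𝔠 A := Idiv₂ (RingHom.ker (𝔠.ev₀ A).toRingHom)

/-- `𝒪(j·D_∞)`: trivial on both charts, transition function `x^j`.  Global sections are the
`b ∈ R₁` with `y^j b ∈ R₂`. -/
noncomputable def Otw (j : ℕ) : Triple 𝔠 A where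
  N₁ := 𝔠.R₁ A
  N₂ := 𝔠.R₂ A
  N₁₂ := 𝔠.R₁₂ A
  ρ₁ :=
    { toFun := 𝔠.res₁ A
      map_add' := map_add _
      map_smul' := fun r n => by simp [smul_eq_mul] }
  ρ₂ :=
    { toFun := fun r => (𝔠.res₁ A (𝔠.xA A)) ^ j * 𝔠.res₂ A r
      map_add' := fun a b => by simp [mul_add]
      map_smul' := fun r n => by
        change (𝔠.res₁ A (𝔠.xA A)) ^ j * 𝔠.res₂ A (r * n) =
          𝔠.res₂ A r * ((𝔠.res₁ A (𝔠.xA A)) ^ j * 𝔠.res₂ A n)
        rw [map_mul]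
        ring }

variable {𝔠 A}

/-- The graph ideal of an `A`-valued point of `W₁`. -/
noncomputable def graphIdeal₁ (σ : 𝔠.B₁ →ₐ[k] A) : Ideal (𝔠.R₁ A) :=
  RingHom.ker (Algebra.TensorProduct.lift (AlgHom.id A A) σ (fun _ _ => Commute.all _ _)).toRingHom

/-- The graph ideal of an `A`-valued point of `W₂`. -/
noncomputable def graphIdeal₂ (τ : 𝔠.B₂ →ₐ[k] A) : Ideal (𝔠.R₂ A) :=
  RingHom.ker (Algebra.TensorProduct.lift (AlgHom.id A A) τ (fun _ _ => Commute.all _ _)).toRingHom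

/-- `𝒪(-σ)` for `σ ∈ W₁(A)`. -/
noncomputable def Ipt (σ : 𝔠.B₁ →ₐ[k] A) : Triple 𝔠 A := Idiv (graphIdeal₁ σ)

/-- `𝒪(-τ)` for `τ ∈ W₂(A)`. -/
noncomputable def Ipt₂ (τ : 𝔠.B₂ →ₐ[k] A) : Triple 𝔠 A := Idiv₂ (graphIdeal₂ τ)

end Fermat.Agent.S25.Triple
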