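/-
S25-T3: internal Hom of triples and the dual.   Owner: helper184.

`ihom T T'` has `Nᵢ := T.Nᵢ →ₗ[Rᵢ A] T'.Nᵢ`.  The restriction map `ρ₁` sends `f : N₁ → N₁'` to the
unique `R₁₂`-linear `g : N₁₂ → N₁₂'` with `g ∘ ρ₁ = ρ₁' ∘ f`.  To have a TOTAL definition we use
the junk value `0` unless *every* `f` has a unique extension (`SemiExt.HasExt`); this holds as soon
as `T.IsQC` (see `Triple.hasExt₁`, `Triple.hasExt₂`).
-/
import Fermat.Agent.S25.Core

set_option autoImplicit false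

universe u

open scoped TensorProduct

namespace Fermat.Agent.S25

/-! ### Abstract extension of linear maps along semilinear maps -/

namespace SemiExt

variable {R S : Type*} [CommRing R] [CommRing S] {φ : R →+* S}
  {M M' N N' : Type*} [AddCommGroup M] [Module R M] [AddCommGroup M'] [Module R M']
  [AddCommGroup N] [Module S N] [AddCommGroup N'] [Module S N']

/-- Every `R`-linear map `M → M'` extends uniquely to an `S`-linear map `N → N'`. -/
def HasExt (ρ : M →ₛₗ[φ] N) (ρ' : M' →ₛₗ[φ] N') : Prop :=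
  ∀ f : M →ₗ[R] M', ∃! g : N →ₗ[S] N', ∀ n, g (ρ n) = ρ' (f n)

open Classical in
/-- The extension map `Hom_R(M, M') → Hom_S(N, N')` (junk value `0` unless `HasExt ρ ρ'`). -/
noncomputable def ext (ρ : M →ₛₗ[φ] N) (ρ' : M' →ₛₗ[φ] N') :
    (M →ₗ[R] M') →ₛₗ[φ] (N →ₗ[S] N') :=
  if h : HasExt ρ ρ' then
    { toFun := fun f => (h f).choose
      map_add' := fun f f' => by
        refine ((h (f + f')).choose_spec.2 _ fun n => ?_).symm
        simp [(h f).choose_spec.1, (h f').choose_spec.1]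
      map_smul' := fun r f => by
        refine ((h (r • f)).choose_spec.2 _ fun n => ?_).symm
        simp [(h f).choose_spec.1] }
  else 0

variable {ρ : M →ₛₗ[φ] N} {ρ' : M' →ₛₗ[φ] N'}

lemma ext_apply (h : HasExt ρ ρ') (f : M →ₗ[R] M') (n : M) : ext ρ ρ' f (ρ n) = ρ' (f n) := by
  have : ext ρ ρ' f = (h f).choose := by simp [ext, dif_pos h]
  rw [this]
  exact (h f).choose_spec.1 n

lemma ext_unique (h : HasExt ρ ρ') (f : M →ₗ[R] M') (g : N →ₗ[S] N')
    (hg : ∀ n, g (ρ n) = ρ' (f n)) : ext ρ ρ' f = g :=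
  (h f).unique (ext_apply h f) hg

lemma ext_eq_iff (h : HasExt ρ ρ') (f : M →ₗ[R] M') (g : N →ₗ[S] N') :
    ext ρ ρ' f = g ↔ ∀ n, g (ρ n) = ρ' (f n) :=
  ⟨fun e n => e ▸ ext_apply h f n, ext_unique h f g⟩

end SemiExt

variable {k : Type u} [Field k]

namespace Triple

variable {𝔠 : CurveCharts k} {A : Type u} [CommRing A] [Algebra k A]

/-- Internal Hom of triples.  Meaningful when `T.IsQC`. -/
noncomputable def ihom (T T' : Triple 𝔠 A) : Triple 𝔠 A where
  N₁ := T.N₁ →ₗ[𝔠.R₁ A] T'.N₁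
  N₂ := T.N₂ →ₗ[𝔠.R₂ A] T'.N₂
  N₁₂ := T.N₁₂ →ₗ[𝔠.R₁₂ A] T'.N₁₂
  ρ₁ := SemiExt.ext T.ρ₁ T'.ρ₁
  ρ₂ := SemiExt.ext T.ρ₂ T'.ρ₂

/-- The dual triple. -/
noncomputable def dual (T : Triple 𝔠 A) : Triple 𝔠 A := ihom T (unit 𝔠 A)

end Triple

end Fermat.Agent.S25
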