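/-
S25-T2: tensor product of triples.   Owner: helper228.

* `Triple.tensor T T'`, with `IsQC.tensor`, `IsInvertible.tensor`, `IsRigid.tensor`
* `tensorUnit`, `unitTensor`, `tensorComm`, `tensorAssoc` (isomorphisms of triples)
* `Hom.tensor`, `Iso.tensor` (functoriality)
* `IsInvertible.inv₁₂` : the module on the overlap of an invertible triple is invertible
* `TensorAux.*` : localisation facts on the coordinate rings (`res₁ (xA)` is a unit, `R₁₂ A` is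
  `R₁ A [1/x]`, ...), and the abstract lemma `TensorAux.IsLoc.tensor`.
See `TensorBC.lean` (base change) and `TensorExact.lean` (exactness).
-/
import Fermat.Agent.S25.Core

set_option autoImplicit false

universe u

open scoped TensorProduct

namespace Fermat.Agent.S25

namespace Triple

variable {k : Type u} [Field k] {𝔠 : CurveCharts k} {A : Type u} [CommRing A] [Algebra k A]

/-- Tensor product of triples: componentwise tensor products, `ρ = ρ ⊗ ρ`. -/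
noncomputable def tensor (T T' : Triple 𝔠 A) : Triple 𝔠 A where
  N₁ := T.N₁ ⊗[𝔠.R₁ A] T'.N₁
  N₂ := T.N₂ ⊗[𝔠.R₂ A] T'.N₂
  N₁₂ := T.N₁₂ ⊗[𝔠.R₁₂ A] T'.N₁₂
  ρ₁ := TensorProduct.map T.ρ₁ T'.ρ₁
  ρ₂ := TensorProduct.map T.ρ₂ T'.ρ₂

@[simp] lemma tensor_ρ₁_tmul (T T' : Triple 𝔠 A) (n : T.N₁) (n' : T'.N₁) :
    (T.tensor T').ρ₁ (n ⊗ₜ[𝔠.R₁ A] n') = T.ρ₁ n ⊗ₜ[𝔠.R₁₂ A] T'.ρ₁ n' := rfl

@[simp] lemma tensor_ρ₂_tmul (T T' : Triple 𝔠 A) (n : T.N₂) (n' : T'.N₂) :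
    (T.tensor T').ρ₂ (n ⊗ₜ[𝔠.R₂ A] n') = T.ρ₂ n ⊗ₜ[𝔠.R₁₂ A] T'.ρ₂ n' := rfl

end Triple

/-! ### Abstract localisation lemmas -/

namespace TensorAux

section Abstract

variable {R S : Type*} [CommRing R] [CommRing S] (σ : R →+* S) (x : R)
  {M M' L L' : Type*} [AddCommGroup M] [AddCommGroup M'] [AddCommGroup L] [AddCommGroup L']
  [Module R M] [Module R M'] [Module S L] [Module S L']

/-- `f : M → L` (semilinear along `σ : R → S`) exhibits `L` as `M[1/x]` (elementary form). -/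
structure IsLoc (f : M →ₛₗ[σ] L) : Prop where
  surj : ∀ l : L, ∃ (m : ℕ) (n : M), f n = (σ x) ^ m • l
  inj : ∀ n : M, f n = 0 → ∃ m : ℕ, x ^ m • n = 0

/-- `S` is generated by `σ R` and `1/σ x`. -/
def RingSurj : Prop := ∀ s : S, ∃ (m : ℕ) (r : R), σ r = (σ x) ^ m * s

variable {σ x}

/-- a semilinear map as a linear map for the restricted module structure -/
def toLin (f : M →ₛₗ[σ] L) : letI : Module R L := Module.compHom L σ; M →ₗ[R] L :=
  letI : Module R L := Module.compHom L σ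
  { toFun := f
    map_add' := f.map_add
    map_smul' := fun r n => f.map_smulₛₗ r n }

theorem IsLoc.isLocalizedModule (hx : IsUnit (σ x)) {f : M →ₛₗ[σ] L} (hf : IsLoc σ x f) :
    letI : Module R L := Module.compHom L σ
    IsLocalizedModule (Submonoid.powers x) (toLin f) := by
  let : Module R L := Module.compHom L σ
  refine ⟨?_, ?_, ?_⟩
  · rintro ⟨_, m, rfl⟩
    rw [Module.End.isUnit_iff]
    have hu : IsUnit (σ (x ^ m)) := by rw [map_pow]; exact hx.pow m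
    constructor
    · intro a b hab
      exact hu.smul_left_cancel.1 hab
    · intro b
      obtain ⟨u, hu'⟩ := hu
      refine ⟨(↑u⁻¹ : S) • b, ?_⟩
      change σ (x ^ m) • ((↑u⁻¹ : S) • b) = b
      rw [← hu', smul_smul, Units.mul_inv, one_smul]
  · intro y
    obtain ⟨m, n, hn⟩ := hf.surj y
    refine ⟨(n, ⟨x ^ m, m, rfl⟩), ?_⟩
    change σ (x ^ m) • y = f n
    rw [hn, map_pow]
  · intro a b hab
    have h0 : f (a - b) = 0 := by
      rw [map_sub]; exact sub_eq_zero.2 hab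
    obtain ⟨m, hm⟩ := hf.inj _ h0
    refine ⟨⟨x ^ m, m, rfl⟩, ?_⟩
    change x ^ m • a = x ^ m • b
    rw [smul_sub, sub_eq_zero] at hm
    exact hm

/-- moving a scalar of `S` across `⊗[R]` -/
theorem smul_tmul_of_ringSurj (hx : IsUnit (σ x)) (hS : RingSurj σ x) (s : S) (l : L) (l' : L') :
    letI : Module R L := Module.compHom L σ
    letI : Module R L' := Module.compHom L' σ
    (s • l) ⊗ₜ[R] l' = l ⊗ₜ[R] (s • l') := by
  let : Module R L := Module.compHom L σ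
  let : Module R L' := Module.compHom L' σ
  obtain ⟨m, r, hr⟩ := hS s
  obtain ⟨u, hu⟩ := hx.pow m
  set l₀ : L := (↑u⁻¹ : S) • l with hl₀
  have h1 : l = (x ^ m) • l₀ := by
    change l = σ (x ^ m) • l₀
    rw [map_pow, ← hu, hl₀, smul_smul, Units.mul_inv, one_smul]
  have h2 : s • l = r • l₀ := by
    change s • l = σ r • l₀
    rw [hr, ← hu, hl₀, smul_smul, mul_comm (u : S) s, mul_assoc, Units.mul_inv, mul_one]
  have h3 : r • l' = (x ^ m) • (s • l') := by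
    change σ r • l' = σ (x ^ m) • (s • l')
    rw [hr, map_pow, smul_smul]
  rw [h2, TensorProduct.smul_tmul, h3, ← TensorProduct.smul_tmul, ← h1]

/-- the canonical additive map `L ⊗[S] L' → L ⊗[R] L'` -/
noncomputable def toTensorR (hx : IsUnit (σ x)) (hS : RingSurj σ x) (L L' : Type*) [AddCommGroup L]
    [AddCommGroup L'] [Module S L] [Module S L'] :
    letI : Module R L := Module.compHom L σ
    letI : Module R L' := Module.compHom L' σ
    L ⊗[S] L' →+ L ⊗[R] L' :=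
  letI : Module R L := Module.compHom L σ
  letI : Module R L' := Module.compHom L' σ
  TensorProduct.liftAddHom
    (AddMonoidHom.mk' (fun l => (TensorProduct.mk R L L' l).toAddMonoidHom)
      (fun a b => by ext c; simp))
    (fun s l l' => smul_tmul_of_ringSurj hx hS s l l')

theorem IsLoc.tensor (hx : IsUnit (σ x)) (hS : RingSurj σ x) {f : M →ₛₗ[σ] L} {f' : M' →ₛₗ[σ] L'}
    (hf : IsLoc σ x f) (hf' : IsLoc σ x f') : IsLoc σ x (TensorProduct.map f f') := by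
  refine ⟨?_, ?_⟩
  · intro l
    induction l using TensorProduct.induction_on with
    | zero => exact ⟨0, 0, by simp⟩
    | tmul a b =>
      obtain ⟨m, n, hn⟩ := hf.surj a
      obtain ⟨m', n', hn'⟩ := hf'.surj b
      refine ⟨m + m', n ⊗ₜ n', ?_⟩
      rw [TensorProduct.map_tmul, hn, hn', TensorProduct.smul_tmul_smul, pow_add]
    | add a b ha hb =>
      obtain ⟨m, n, hn⟩ := ha
      obtain ⟨m', n', hn'⟩ := hb
      refine ⟨m + m', x ^ m' • n + x ^ m • n', ?_⟩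
      rw [map_add, map_smulₛₗ, map_smulₛₗ, hn, hn', smul_add, smul_smul, smul_smul, map_pow,
        map_pow, pow_add, mul_comm]
  · intro t ht
    let : Module R L := Module.compHom L σ
    let : Module R L' := Module.compHom L' σ
    have := hf.isLocalizedModule hx
    have := hf'.isLocalizedModule hx
    have key : ∀ t : M ⊗[R] M', toTensorR hx hS L L' (TensorProduct.map f f' t) =
        TensorProduct.map (toLin f) (toLin f') t := by
      intro t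
      induction t using TensorProduct.induction_on with
      | zero => simp
      | tmul a b => rfl
      | add a b ha hb => rw [map_add, map_add, map_add, ha, hb]
    have h0 : TensorProduct.map (toLin f) (toLin f') t = 0 := by
      rw [← key, ht, map_zero]
    obtain ⟨⟨_, m, rfl⟩, hc⟩ :=
      (IsLocalizedModule.eq_zero_iff (Submonoid.powers x) (TensorProduct.map (toLin f) (toLin f'))).1 h0
    exact ⟨m, hc⟩


/-- the localisation of an invertible module is invertible -/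
theorem IsLoc.invertible (hx : IsUnit (σ x)) (hS : RingSurj σ x)
    (hker : ∀ r : R, σ r = 0 → ∃ m : ℕ, x ^ m * r = 0) {f : M →ₛₗ[σ] L} (hf : IsLoc σ x f)
    [Module.Invertible R M] : Module.Invertible S L := by
  let : Algebra R S := σ.toAlgebra
  let : Module R L := Module.compHom L σ
  have : IsScalarTower R S L := ⟨fun r s l => by
    change (σ r * s) • l = σ r • (s • l)
    rw [mul_smul]⟩
  have : IsLocalization (Submonoid.powers x) S := by
    refine IsLocalization.Away.mk x hx ?_ ?_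
    · intro s
      obtain ⟨m, r, hr⟩ := hS s
      exact ⟨m, r, by rw [mul_comm]; exact hr.symm⟩
    · intro a b hab
      have h0 : σ (a - b) = 0 := by rw [map_sub]; exact sub_eq_zero.2 hab
      obtain ⟨m, hm⟩ := hker _ h0
      exact ⟨m, by rwa [mul_sub, sub_eq_zero] at hm⟩
  have := hf.isLocalizedModule hx
  exact Module.Invertible.of_isLocalization (Submonoid.powers x) (toLin f)

/-! commutation lemmas on raw tensor products -/

section Comm

variable {P P' Q Q' : Type*} [AddCommGroup P] [AddCommGroup P'] [AddCommGroup Q] [AddCommGroup Q']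
  [Module R P] [Module R P'] [Module S Q] [Module S Q']

theorem map_map_comm (ρ : M →ₛₗ[σ] L) (ρ' : M' →ₛₗ[σ] L') (τ : P →ₛₗ[σ] Q) (τ' : P' →ₛₗ[σ] Q')
    (f : M →ₗ[R] P) (f' : M' →ₗ[R] P') (g : L →ₗ[S] Q) (g' : L' →ₗ[S] Q')
    (h : ∀ n, g (ρ n) = τ (f n)) (h' : ∀ n, g' (ρ' n) = τ' (f' n)) (n : M ⊗[R] M') :
    TensorProduct.map g g' (TensorProduct.map ρ ρ' n) =
      TensorProduct.map τ τ' (TensorProduct.map f f' n) := by
  induction n using TensorProduct.induction_on with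
  | zero => simp only [map_zero]
  | tmul a b => simp only [TensorProduct.map_tmul, h, h']
  | add a b ha hb => simp only [map_add, ha, hb]

theorem congr_map_comm (ρ : M →ₛₗ[σ] L) (ρ' : M' →ₛₗ[σ] L') (τ : P →ₛₗ[σ] Q) (τ' : P' →ₛₗ[σ] Q')
    (f : M ≃ₗ[R] P) (f' : M' ≃ₗ[R] P') (g : L ≃ₗ[S] Q) (g' : L' ≃ₗ[S] Q')
    (h : ∀ n, g (ρ n) = τ (f n)) (h' : ∀ n, g' (ρ' n) = τ' (f' n)) (n : M ⊗[R] M') :
    TensorProduct.congr g g' (TensorProduct.map ρ ρ' n) =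
      TensorProduct.map τ τ' (TensorProduct.congr f f' n) := by
  induction n using TensorProduct.induction_on with
  | zero => simp only [map_zero]
  | tmul a b => simp only [TensorProduct.map_tmul, TensorProduct.congr_tmul, h, h']
  | add a b ha hb => simp only [map_add, ha, hb]

theorem rid_map_comm (ρ : M →ₛₗ[σ] L) (ι : R →ₛₗ[σ] S) (hι : ∀ r, ι r = σ r) (n : M ⊗[R] R) :
    TensorProduct.rid S L (TensorProduct.map ρ ι n) = ρ (TensorProduct.rid R M n) := by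
  induction n using TensorProduct.induction_on with
  | zero => simp only [map_zero]
  | tmul a b => simp only [TensorProduct.map_tmul, TensorProduct.rid_tmul, hι, map_smulₛₗ]
  | add a b ha hb => simp only [map_add, ha, hb]

theorem lid_map_comm (ρ : M →ₛₗ[σ] L) (ι : R →ₛₗ[σ] S) (hι : ∀ r, ι r = σ r) (n : R ⊗[R] M) :
    TensorProduct.lid S L (TensorProduct.map ι ρ n) = ρ (TensorProduct.lid R M n) := by
  induction n using TensorProduct.induction_on with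
  | zero => simp only [map_zero]
  | tmul a b => simp only [TensorProduct.map_tmul, TensorProduct.lid_tmul, hι, map_smulₛₗ]
  | add a b ha hb => simp only [map_add, ha, hb]

theorem comm_map_comm (ρ : M →ₛₗ[σ] L) (ρ' : M' →ₛₗ[σ] L') (n : M ⊗[R] M') :
    TensorProduct.comm S L L' (TensorProduct.map ρ ρ' n) =
      TensorProduct.map ρ' ρ (TensorProduct.comm R M M' n) := by
  induction n using TensorProduct.induction_on with
  | zero => simp only [map_zero]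
  | tmul a b => simp only [TensorProduct.map_tmul, TensorProduct.comm_tmul]
  | add a b ha hb => simp only [map_add, ha, hb]

theorem assoc_map_comm (ρ : M →ₛₗ[σ] L) (ρ' : M' →ₛₗ[σ] L') (τ : P →ₛₗ[σ] Q)
    (n : (M ⊗[R] M') ⊗[R] P) :
    TensorProduct.assoc S L L' Q (TensorProduct.map (TensorProduct.map ρ ρ') τ n) =
      TensorProduct.map ρ (TensorProduct.map ρ' τ) (TensorProduct.assoc R M M' P n) := by
  induction n using TensorProduct.induction_on with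
  | zero => simp only [map_zero]
  | tmul ab c =>
    induction ab using TensorProduct.induction_on with
    | zero => simp only [TensorProduct.zero_tmul, map_zero]
    | tmul a b => simp only [TensorProduct.map_tmul, TensorProduct.assoc_tmul]
    | add a b ha hb => simp only [TensorProduct.add_tmul, map_add, ha, hb]
  | add a b ha hb => simp only [map_add, ha, hb]

end Comm

/-- auxiliary: `I • ⊤` is absorbed by tensoring on the right -/
lemma tmul_mem_smul_top_left (I : Ideal R) {m : M}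
    (hm : m ∈ I • (⊤ : Submodule R M)) (n : M') :
    m ⊗ₜ[R] n ∈ I • (⊤ : Submodule R (M ⊗[R] M')) := by
  induction hm using Submodule.smul_induction_on' with
  | smul r hr m _ =>
    rw [← TensorProduct.smul_tmul']
    exact Submodule.smul_mem_smul hr Submodule.mem_top
  | add a _ b _ ha hb =>
    rw [TensorProduct.add_tmul]
    exact Submodule.add_mem _ ha hb

/-- auxiliary: `I • ⊤` is absorbed by tensoring on the left -/
lemma tmul_mem_smul_top_right (I : Ideal R) (m : M) {n : M'}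
    (hn : n ∈ I • (⊤ : Submodule R M')) :
    m ⊗ₜ[R] n ∈ I • (⊤ : Submodule R (M ⊗[R] M')) := by
  induction hn using Submodule.smul_induction_on' with
  | smul r hr n _ =>
    rw [TensorProduct.tmul_smul]
    exact Submodule.smul_mem_smul hr Submodule.mem_top
  | add a _ b _ ha hb =>
    rw [TensorProduct.tmul_add]
    exact Submodule.add_mem _ ha hb

/-- generators modulo `I` multiply -/
theorem rigid_tensor (I : Ideal R) {n : M} {n' : M'}
    (hn : ∀ m : M, ∃ r : R, m - r • n ∈ I • (⊤ : Submodule R M))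
    (hn' : ∀ m : M', ∃ r : R, m - r • n' ∈ I • (⊤ : Submodule R M')) (m : M ⊗[R] M') :
    ∃ r : R, m - r • (n ⊗ₜ[R] n') ∈ I • (⊤ : Submodule R (M ⊗[R] M')) := by
  induction m using TensorProduct.induction_on with
  | zero => exact ⟨0, by simp⟩
  | tmul a b =>
    obtain ⟨r, hr⟩ := hn a
    obtain ⟨r', hr'⟩ := hn' b
    refine ⟨r * r', ?_⟩
    have e : a ⊗ₜ[R] b - (r * r') • (n ⊗ₜ[R] n') =
        (a - r • n) ⊗ₜ[R] b + (r • n) ⊗ₜ[R] (b - r' • n') := by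
      rw [TensorProduct.sub_tmul, TensorProduct.tmul_sub, TensorProduct.smul_tmul_smul]
      abel
    rw [e]
    exact Submodule.add_mem _ (tmul_mem_smul_top_left _ hr b) (tmul_mem_smul_top_right _ _ hr')
  | add a b ha hb =>
    obtain ⟨r, hr⟩ := ha
    obtain ⟨r', hr'⟩ := hb
    refine ⟨r + r', ?_⟩
    have e : a + b - (r + r') • (n ⊗ₜ[R] n') =
        (a - r • (n ⊗ₜ[R] n')) + (b - r' • (n ⊗ₜ[R] n')) := by
      rw [add_smul]; abel
    rw [e]
    exact Submodule.add_mem _ hr hr'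

end Abstract

/-! ### The coordinate rings -/

section Rings

variable {k : Type u} [Field k] (𝔠 : CurveCharts k) (A : Type u) [CommRing A] [Algebra k A]

lemma res₁_tmul (a : A) (b : 𝔠.B₁) : 𝔠.res₁ A (a ⊗ₜ b) = a ⊗ₜ algebraMap 𝔠.B₁ 𝔠.B₁₂ b := rfl
lemma res₂_tmul (a : A) (b : 𝔠.B₂) : 𝔠.res₂ A (a ⊗ₜ b) = a ⊗ₜ algebraMap 𝔠.B₂ 𝔠.B₁₂ b := rfl

lemma res₁_xA_mul_res₂_yA : 𝔠.res₁ A (𝔠.xA A) * 𝔠.res₂ A (𝔠.yA A) = 1 := by
  rw [CurveCharts.xA, CurveCharts.yA, res₁_tmul, res₂_tmul, Algebra.TensorProduct.tmul_mul_tmul,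
    𝔠.xy, mul_one]
  rfl

lemma isUnit_res₁_xA : IsUnit ((𝔠.res₁ A).toRingHom (𝔠.xA A)) :=
  IsUnit.of_mul_eq_one _ (res₁_xA_mul_res₂_yA 𝔠 A)

lemma isUnit_res₂_yA : IsUnit ((𝔠.res₂ A).toRingHom (𝔠.yA A)) :=
  IsUnit.of_mul_eq_one _ ((mul_comm _ _).trans (res₁_xA_mul_res₂_yA 𝔠 A))

lemma res₁_xA_pow (m : ℕ) :
    (𝔠.res₁ A (𝔠.xA A)) ^ m = (1 : A) ⊗ₜ[k] ((algebraMap 𝔠.B₁ 𝔠.B₁₂ 𝔠.x) ^ m) := by
  rw [CurveCharts.xA, res₁_tmul, Algebra.TensorProduct.tmul_pow, one_pow]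

lemma res₂_yA_pow (m : ℕ) :
    (𝔠.res₂ A (𝔠.yA A)) ^ m = (1 : A) ⊗ₜ[k] ((algebraMap 𝔠.B₂ 𝔠.B₁₂ 𝔠.y) ^ m) := by
  rw [CurveCharts.yA, res₂_tmul, Algebra.TensorProduct.tmul_pow, one_pow]

lemma exists_res₁_eq (s : 𝔠.R₁₂ A) :
    ∃ (m : ℕ) (r : 𝔠.R₁ A), 𝔠.res₁ A r = (𝔠.res₁ A (𝔠.xA A)) ^ m * s := by
  induction s using TensorProduct.induction_on with
  | zero => exact ⟨0, 0, by simp⟩
  | tmul a b =>
    have := 𝔠.away₁
    obtain ⟨n, b₁, hb⟩ := IsLocalization.Away.surj 𝔠.x b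
    refine ⟨n, a ⊗ₜ b₁, ?_⟩
    have h : ((1 : A) ⊗ₜ[k] ((algebraMap 𝔠.B₁ 𝔠.B₁₂ 𝔠.x) ^ n) : A ⊗[k] 𝔠.B₁₂) * (a ⊗ₜ[k] b) =
        a ⊗ₜ[k] (b * (algebraMap 𝔠.B₁ 𝔠.B₁₂ 𝔠.x) ^ n) := by
      rw [Algebra.TensorProduct.tmul_mul_tmul, one_mul, mul_comm]
    rw [res₁_tmul, ← hb, res₁_xA_pow]
    exact h.symm
  | add s t hs ht =>
    obtain ⟨m, r, hr⟩ := hs
    obtain ⟨m', r', hr'⟩ := ht
    refine ⟨m + m', (𝔠.xA A) ^ m' * r + (𝔠.xA A) ^ m * r', ?_⟩
    rw [map_add, map_mul, map_mul, map_pow, map_pow, hr, hr', pow_add]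
    ring

lemma exists_res₂_eq (s : 𝔠.R₁₂ A) :
    ∃ (m : ℕ) (r : 𝔠.R₂ A), 𝔠.res₂ A r = (𝔠.res₂ A (𝔠.yA A)) ^ m * s := by
  induction s using TensorProduct.induction_on with
  | zero => exact ⟨0, 0, by simp⟩
  | tmul a b =>
    have := 𝔠.away₂
    obtain ⟨n, b₁, hb⟩ := IsLocalization.Away.surj 𝔠.y b
    refine ⟨n, a ⊗ₜ b₁, ?_⟩
    have h : ((1 : A) ⊗ₜ[k] ((algebraMap 𝔠.B₂ 𝔠.B₁₂ 𝔠.y) ^ n) : A ⊗[k] 𝔠.B₁₂) * (a ⊗ₜ[k] b) =
        a ⊗ₜ[k] (b * (algebraMap 𝔠.B₂ 𝔠.B₁₂ 𝔠.y) ^ n) := by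
      rw [Algebra.TensorProduct.tmul_mul_tmul, one_mul, mul_comm]
    rw [res₂_tmul, ← hb, res₂_yA_pow]
    exact h.symm
  | add s t hs ht =>
    obtain ⟨m, r, hr⟩ := hs
    obtain ⟨m', r', hr'⟩ := ht
    refine ⟨m + m', (𝔠.yA A) ^ m' * r + (𝔠.yA A) ^ m * r', ?_⟩
    rw [map_add, map_mul, map_mul, map_pow, map_pow, hr, hr', pow_add]
    ring

lemma res₁_injective : Function.Injective (𝔠.res₁ A) := by
  have := 𝔠.away₁
  have hinj : Function.Injective (IsScalarTower.toAlgHom k 𝔠.B₁ 𝔠.B₁₂).toLinearMap := by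
    have hx0 : 𝔠.x ≠ 0 := fun h => 𝔠.trans₁ (h ▸ isAlgebraic_zero)
    exact IsLocalization.injective 𝔠.B₁₂ (powers_le_nonZeroDivisors_of_noZeroDivisors hx0)
  have h := Module.Flat.lTensor_preserves_injective_linearMap (M := A) _ hinj
  intro a b hab
  apply h
  have key : ∀ t : 𝔠.R₁ A, LinearMap.lTensor A (IsScalarTower.toAlgHom k 𝔠.B₁ 𝔠.B₁₂).toLinearMap t
      = 𝔠.res₁ A t := by
    intro t
    induction t using TensorProduct.induction_on with
    | zero => simp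
    | tmul a b => rfl
    | add s t hs ht => rw [map_add, map_add, hs, ht]
  rw [key, key, hab]

lemma y_ne_zero : 𝔠.y ≠ 0 := by
  intro h
  have hxy := 𝔠.xy
  rw [h, map_zero, mul_zero] at hxy
  have := 𝔠.away₁
  have hx0 : 𝔠.x ≠ 0 := fun h => 𝔠.trans₁ (h ▸ isAlgebraic_zero)
  have hinj : Function.Injective (algebraMap 𝔠.B₁ 𝔠.B₁₂) :=
    IsLocalization.injective 𝔠.B₁₂ (powers_le_nonZeroDivisors_of_noZeroDivisors hx0)
  have h01 : (0 : 𝔠.B₁) = 1 := hinj (by rw [map_zero, map_one]; exact hxy)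
  exact zero_ne_one h01

lemma res₂_injective : Function.Injective (𝔠.res₂ A) := by
  have := 𝔠.away₂
  have hinj : Function.Injective (IsScalarTower.toAlgHom k 𝔠.B₂ 𝔠.B₁₂).toLinearMap :=
    IsLocalization.injective 𝔠.B₁₂ (powers_le_nonZeroDivisors_of_noZeroDivisors (y_ne_zero 𝔠))
  have h := Module.Flat.lTensor_preserves_injective_linearMap (M := A) _ hinj
  intro a b hab
  apply h
  have key : ∀ t : 𝔠.R₂ A, LinearMap.lTensor A (IsScalarTower.toAlgHom k 𝔠.B₂ 𝔠.B₁₂).toLinearMap t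
      = 𝔠.res₂ A t := by
    intro t
    induction t using TensorProduct.induction_on with
    | zero => simp
    | tmul a b => rfl
    | add s t hs ht => rw [map_add, map_add, hs, ht]
  rw [key, key, hab]


end Rings

end TensorAux

namespace Triple

variable {k : Type u} [Field k] {𝔠 : CurveCharts k} {A : Type u} [CommRing A] [Algebra k A]

open TensorAux

/-! ### Stability of `IsQC`, `IsInvertible`, `IsRigid` -/

lemma isQC_iff_isLoc (T : Triple 𝔠 A) : T.IsQC ↔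
    IsLoc (𝔠.res₁ A).toRingHom (𝔠.xA A) T.ρ₁ ∧ IsLoc (𝔠.res₂ A).toRingHom (𝔠.yA A) T.ρ₂ :=
  ⟨fun h => ⟨⟨h.surj₁, h.inj₁⟩, ⟨h.surj₂, h.inj₂⟩⟩,
    fun h => ⟨h.1.surj, h.1.inj, h.2.surj, h.2.inj⟩⟩

theorem IsQC.tensor {T T' : Triple 𝔠 A} (h : T.IsQC) (h' : T'.IsQC) : (T.tensor T').IsQC :=
  (isQC_iff_isLoc _).2
    ⟨((isQC_iff_isLoc T).1 h).1.tensor (isUnit_res₁_xA 𝔠 A) (exists_res₁_eq 𝔠 A)
        ((isQC_iff_isLoc T').1 h').1,
      ((isQC_iff_isLoc T).1 h).2.tensor (isUnit_res₂_yA 𝔠 A) (exists_res₂_eq 𝔠 A)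
        ((isQC_iff_isLoc T').1 h').2⟩

theorem IsInvertible.tensor {T T' : Triple 𝔠 A} (h : T.IsInvertible) (h' : T'.IsInvertible) :
    (T.tensor T').IsInvertible where
  toIsQC := h.toIsQC.tensor h'.toIsQC
  inv₁ := by
    have := h.inv₁
    have := h'.inv₁
    exact inferInstanceAs (Module.Invertible (𝔠.R₁ A) (T.N₁ ⊗[𝔠.R₁ A] T'.N₁))
  inv₂ := by
    have := h.inv₂
    have := h'.inv₂
    exact inferInstanceAs (Module.Invertible (𝔠.R₂ A) (T.N₂ ⊗[𝔠.R₂ A] T'.N₂))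

/-- The module of sections on the overlap of an invertible triple is invertible. -/
theorem IsInvertible.inv₁₂ {T : Triple 𝔠 A} (h : T.IsInvertible) :
    Module.Invertible (𝔠.R₁₂ A) T.N₁₂ := by
  have := h.inv₁
  refine ((isQC_iff_isLoc T).1 h.toIsQC).1.invertible (isUnit_res₁_xA 𝔠 A) (exists_res₁_eq 𝔠 A) ?_
  intro r hr
  refine ⟨0, ?_⟩
  rw [pow_zero, one_mul]
  exact res₁_injective 𝔠 A (hr.trans (map_zero _).symm)

theorem IsRigid.tensor {T T' : Triple 𝔠 A} (h : T.IsRigid) (h' : T'.IsRigid) :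
    (T.tensor T').IsRigid := by
  obtain ⟨n, hn⟩ := h
  obtain ⟨n', hn'⟩ := h'
  exact ⟨n ⊗ₜ[𝔠.R₂ A] n', rigid_tensor _ hn hn'⟩

/-! ### Functoriality -/

/-- Tensor product of morphisms of triples. -/
noncomputable def Hom.tensor {T T' S S' : Triple 𝔠 A} (f : Hom T S) (f' : Hom T' S') :
    Hom (T.tensor T') (S.tensor S') where
  f₁ := TensorProduct.map f.f₁ f'.f₁
  f₂ := TensorProduct.map f.f₂ f'.f₂
  f₁₂ := TensorProduct.map f.f₁₂ f'.f₁₂
  comm₁ := map_map_comm T.ρ₁ T'.ρ₁ S.ρ₁ S'.ρ₁ f.f₁ f'.f₁ f.f₁₂ f'.f₁₂ f.comm₁ f'.comm₁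
  comm₂ := map_map_comm T.ρ₂ T'.ρ₂ S.ρ₂ S'.ρ₂ f.f₂ f'.f₂ f.f₁₂ f'.f₁₂ f.comm₂ f'.comm₂

/-- Tensor product of isomorphisms of triples. -/
noncomputable def Iso.tensor {T T' S S' : Triple 𝔠 A} (e : Iso T S) (e' : Iso T' S') :
    Iso (T.tensor T') (S.tensor S') where
  e₁ := TensorProduct.congr e.e₁ e'.e₁
  e₂ := TensorProduct.congr e.e₂ e'.e₂
  e₁₂ := TensorProduct.congr e.e₁₂ e'.e₁₂
  comm₁ := congr_map_comm T.ρ₁ T'.ρ₁ S.ρ₁ S'.ρ₁ e.e₁ e'.e₁ e.e₁₂ e'.e₁₂ e.comm₁ e'.comm₁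
  comm₂ := congr_map_comm T.ρ₂ T'.ρ₂ S.ρ₂ S'.ρ₂ e.e₂ e'.e₂ e.e₁₂ e'.e₁₂ e.comm₂ e'.comm₂

/-! ### Unit, commutativity, associativity -/

/-- `T ⊗ 𝒪 ≅ T`. -/
noncomputable def tensorUnit (T : Triple 𝔠 A) : Iso (T.tensor (unit 𝔠 A)) T where
  e₁ := TensorProduct.rid (𝔠.R₁ A) T.N₁
  e₂ := TensorProduct.rid (𝔠.R₂ A) T.N₂
  e₁₂ := TensorProduct.rid (𝔠.R₁₂ A) T.N₁₂
  comm₁ := rid_map_comm T.ρ₁ (unit 𝔠 A).ρ₁ (fun _ => rfl)
  comm₂ := rid_map_comm T.ρ₂ (unit 𝔠 A).ρ₂ (fun _ => rfl)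

/-- `𝒪 ⊗ T ≅ T`. -/
noncomputable def unitTensor (T : Triple 𝔠 A) : Iso ((unit 𝔠 A).tensor T) T where
  e₁ := TensorProduct.lid (𝔠.R₁ A) T.N₁
  e₂ := TensorProduct.lid (𝔠.R₂ A) T.N₂
  e₁₂ := TensorProduct.lid (𝔠.R₁₂ A) T.N₁₂
  comm₁ := lid_map_comm T.ρ₁ (unit 𝔠 A).ρ₁ (fun _ => rfl)
  comm₂ := lid_map_comm T.ρ₂ (unit 𝔠 A).ρ₂ (fun _ => rfl)

/-- `T ⊗ T' ≅ T' ⊗ T`. -/
noncomputable def tensorComm (T T' : Triple 𝔠 A) : Iso (T.tensor T') (T'.tensor T) where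
  e₁ := TensorProduct.comm (𝔠.R₁ A) T.N₁ T'.N₁
  e₂ := TensorProduct.comm (𝔠.R₂ A) T.N₂ T'.N₂
  e₁₂ := TensorProduct.comm (𝔠.R₁₂ A) T.N₁₂ T'.N₁₂
  comm₁ := comm_map_comm T.ρ₁ T'.ρ₁
  comm₂ := comm_map_comm T.ρ₂ T'.ρ₂

/-- `(T ⊗ T') ⊗ T'' ≅ T ⊗ (T' ⊗ T'')`. -/
noncomputable def tensorAssoc (T T' T'' : Triple 𝔠 A) :
    Iso ((T.tensor T').tensor T'') (T.tensor (T'.tensor T'')) where
  e₁ := TensorProduct.assoc (𝔠.R₁ A) T.N₁ T'.N₁ T''.N₁
  e₂ := TensorProduct.assoc (𝔠.R₂ A) T.N₂ T'.N₂ T''.N₂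
  e₁₂ := TensorProduct.assoc (𝔠.R₁₂ A) T.N₁₂ T'.N₁₂ T''.N₁₂
  comm₁ := assoc_map_comm T.ρ₁ T'.ρ₁ T''.ρ₁
  comm₂ := assoc_map_comm T.ρ₂ T'.ρ₂ T''.ρ₂

end Triple

end Fermat.Agent.S25
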