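/-
S25, task T1-D: elementary lemmas on isomorphisms of triples.   Owner: helper279.

* `Iso.refl`, `Iso.symm`, `Iso.trans` with component simp lemmas;
* transport of `IsQC`, `IsInvertible`, `IsRigid` along an isomorphism;
* an isomorphism induces `A`-linear equivalences commuting with the Čech differential, hence
  `h0`, `h1`, `chi` are isomorphism invariants.
-/
import Fermat.Agent.S25.AlgSpec

set_option autoImplicit false

universe u

open scoped TensorProduct Polynomial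

namespace Fermat.Agent.S25

variable {k : Type u} [Field k]

namespace Triple

variable {𝔠 : CurveCharts k} {A : Type u} [CommRing A] [Algebra k A]

/-- The identity isomorphism. -/
noncomputable def Iso.refl (T : Triple 𝔠 A) : Iso T T where
  e₁ := LinearEquiv.refl _ _
  e₂ := LinearEquiv.refl _ _
  e₁₂ := LinearEquiv.refl _ _
  comm₁ _ := rfl
  comm₂ _ := rfl

/-- The inverse isomorphism. -/
noncomputable def Iso.symm {T T' : Triple 𝔠 A} (e : Iso T T') : Iso T' T where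
  e₁ := e.e₁.symm
  e₂ := e.e₂.symm
  e₁₂ := e.e₁₂.symm
  comm₁ n := by
    rw [LinearEquiv.symm_apply_eq, e.comm₁, LinearEquiv.apply_symm_apply]
  comm₂ n := by
    rw [LinearEquiv.symm_apply_eq, e.comm₂, LinearEquiv.apply_symm_apply]

/-- Composition of isomorphisms. -/
noncomputable def Iso.trans {T T' T'' : Triple 𝔠 A} (e : Iso T T') (e' : Iso T' T'') :
    Iso T T'' where
  e₁ := e.e₁.trans e'.e₁
  e₂ := e.e₂.trans e'.e₂
  e₁₂ := e.e₁₂.trans e'.e₁₂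
  comm₁ n := by
    rw [LinearEquiv.trans_apply, e.comm₁, e'.comm₁, LinearEquiv.trans_apply]
  comm₂ n := by
    rw [LinearEquiv.trans_apply, e.comm₂, e'.comm₂, LinearEquiv.trans_apply]

@[simp] lemma Iso.refl_e₁ (T : Triple 𝔠 A) : (Iso.refl T).e₁ = LinearEquiv.refl _ _ := rfl
@[simp] lemma Iso.refl_e₂ (T : Triple 𝔠 A) : (Iso.refl T).e₂ = LinearEquiv.refl _ _ := rfl
@[simp] lemma Iso.refl_e₁₂ (T : Triple 𝔠 A) : (Iso.refl T).e₁₂ = LinearEquiv.refl _ _ := rfl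

@[simp] lemma Iso.symm_e₁ {T T' : Triple 𝔠 A} (e : Iso T T') : e.symm.e₁ = e.e₁.symm := rfl
@[simp] lemma Iso.symm_e₂ {T T' : Triple 𝔠 A} (e : Iso T T') : e.symm.e₂ = e.e₂.symm := rfl
@[simp] lemma Iso.symm_e₁₂ {T T' : Triple 𝔠 A} (e : Iso T T') : e.symm.e₁₂ = e.e₁₂.symm := rfl

@[simp] lemma Iso.trans_e₁ {T T' T'' : Triple 𝔠 A} (e : Iso T T') (e' : Iso T' T'') :
    (e.trans e').e₁ = e.e₁.trans e'.e₁ := rfl
@[simp] lemma Iso.trans_e₂ {T T' T'' : Triple 𝔠 A} (e : Iso T T') (e' : Iso T' T'') :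
    (e.trans e').e₂ = e.e₂.trans e'.e₂ := rfl
@[simp] lemma Iso.trans_e₁₂ {T T' T'' : Triple 𝔠 A} (e : Iso T T') (e' : Iso T' T'') :
    (e.trans e').e₁₂ = e.e₁₂.trans e'.e₁₂ := rfl

/-- The underlying morphism of an isomorphism. -/
noncomputable def Iso.toHom {T T' : Triple 𝔠 A} (e : Iso T T') : Hom T T' where
  f₁ := e.e₁.toLinearMap
  f₂ := e.e₂.toLinearMap
  f₁₂ := e.e₁₂.toLinearMap
  comm₁ := e.comm₁
  comm₂ := e.comm₂

@[simp] lemma Iso.toHom_f₁ {T T' : Triple 𝔠 A} (e : Iso T T') :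
    e.toHom.f₁ = e.e₁.toLinearMap := rfl
@[simp] lemma Iso.toHom_f₂ {T T' : Triple 𝔠 A} (e : Iso T T') :
    e.toHom.f₂ = e.e₂.toLinearMap := rfl
@[simp] lemma Iso.toHom_f₁₂ {T T' : Triple 𝔠 A} (e : Iso T T') :
    e.toHom.f₁₂ = e.e₁₂.toLinearMap := rfl

theorem IsQC.of_iso {T T' : Triple 𝔠 A} (e : Iso T T') (h : T.IsQC) : T'.IsQC where
  surj₁ n := by
    obtain ⟨m, n₁, hn⟩ := h.surj₁ (e.e₁₂.symm n)
    refine ⟨m, e.e₁ n₁, ?_⟩
    rw [← e.comm₁, hn, map_smul, LinearEquiv.apply_symm_apply]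
  inj₁ n₁ hn := by
    obtain ⟨m, hm⟩ := h.inj₁ (e.e₁.symm n₁) (by
      apply e.e₁₂.injective
      rw [e.comm₁, LinearEquiv.apply_symm_apply, hn, map_zero])
    refine ⟨m, ?_⟩
    apply e.e₁.symm.injective
    rw [map_smul, hm, map_zero]
  surj₂ n := by
    obtain ⟨m, n₂, hn⟩ := h.surj₂ (e.e₁₂.symm n)
    refine ⟨m, e.e₂ n₂, ?_⟩
    rw [← e.comm₂, hn, map_smul, LinearEquiv.apply_symm_apply]
  inj₂ n₂ hn := by
    obtain ⟨m, hm⟩ := h.inj₂ (e.e₂.symm n₂) (by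
      apply e.e₁₂.injective
      rw [e.comm₂, LinearEquiv.apply_symm_apply, hn, map_zero])
    refine ⟨m, ?_⟩
    apply e.e₂.symm.injective
    rw [map_smul, hm, map_zero]

theorem IsInvertible.of_iso {T T' : Triple 𝔠 A} (e : Iso T T') (h : T.IsInvertible) :
    T'.IsInvertible where
  toIsQC := h.toIsQC.of_iso e
  inv₁ := by
    have := h.inv₁
    exact Module.Invertible.congr e.e₁
  inv₂ := by
    have := h.inv₂
    exact Module.Invertible.congr e.e₂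

theorem IsRigid.of_iso {T T' : Triple 𝔠 A} (e : Iso T T') (h : T.IsRigid) : T'.IsRigid := by
  obtain ⟨n, hn⟩ := h
  refine ⟨e.e₂ n, fun m => ?_⟩
  obtain ⟨r, hr⟩ := hn (e.e₂.symm m)
  refine ⟨r, ?_⟩
  have h1 : e.e₂ (e.e₂.symm m - r • n) ∈
      Submodule.map e.e₂.toLinearMap
        ((RingHom.ker (𝔠.ev₀ A).toRingHom) • (⊤ : Submodule (𝔠.R₂ A) T.N₂)) :=
    Submodule.mem_map_of_mem hr
  rw [Submodule.map_smul'', Submodule.map_top, LinearEquiv.range] at h1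
  rwa [map_sub, LinearEquiv.apply_symm_apply, map_smul] at h1

/-- The `A`-linear equivalence on `N₁ × N₂` induced by an isomorphism. -/
noncomputable def Iso.equiv₀ {T T' : Triple 𝔠 A} (e : Iso T T') :
    (T.N₁ × T.N₂) ≃ₗ[A] (T'.N₁ × T'.N₂) :=
  (e.e₁.restrictScalars A).prodCongr (e.e₂.restrictScalars A)

/-- The `A`-linear equivalence on `N₁₂` induced by an isomorphism. -/
noncomputable def Iso.equiv₁ {T T' : Triple 𝔠 A} (e : Iso T T') : T.N₁₂ ≃ₗ[A] T'.N₁₂ :=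
  e.e₁₂.restrictScalars A

@[simp] lemma Iso.equiv₀_apply {T T' : Triple 𝔠 A} (e : Iso T T') (z : T.N₁ × T.N₂) :
    e.equiv₀ z = (e.e₁ z.1, e.e₂ z.2) := rfl

@[simp] lemma Iso.equiv₁_apply {T T' : Triple 𝔠 A} (e : Iso T T') (z : T.N₁₂) :
    e.equiv₁ z = e.e₁₂ z := rfl

theorem Iso.equiv₁_δ {T T' : Triple 𝔠 A} (e : Iso T T') (z : T.N₁ × T.N₂) :
    e.equiv₁ (T.δ z) = T'.δ (e.equiv₀ z) := by
  rw [δ_apply, δ_apply, Iso.equiv₁_apply, map_sub, e.comm₁, e.comm₂, Iso.equiv₀_apply]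

/-- an isomorphism of triples induces `A`-linear equivalences compatible with `δ` -/
theorem Iso.exists_equiv_δ {T T' : Triple 𝔠 A} (e : Iso T T') :
    ∃ (e0 : (T.N₁ × T.N₂) ≃ₗ[A] (T'.N₁ × T'.N₂)) (e1 : T.N₁₂ ≃ₗ[A] T'.N₁₂),
      ∀ z, e1 (T.δ z) = T'.δ (e0 z) :=
  ⟨e.equiv₀, e.equiv₁, e.equiv₁_δ⟩

theorem Iso.map_ker_δ {T T' : Triple 𝔠 A} (e : Iso T T') :
    (LinearMap.ker T.δ).map e.equiv₀.toLinearMap = LinearMap.ker T'.δ := by
  ext z
  constructor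
  · rintro ⟨w, hw, rfl⟩
    rw [LinearMap.mem_ker]
    change T'.δ (e.equiv₀ w) = 0
    rw [← e.equiv₁_δ, LinearMap.mem_ker.mp hw, map_zero]
  · intro hz
    refine ⟨e.equiv₀.symm z, ?_, LinearEquiv.apply_symm_apply _ _⟩
    change T.δ (e.equiv₀.symm z) = 0
    apply e.equiv₁.injective
    rw [e.equiv₁_δ, LinearEquiv.apply_symm_apply, LinearMap.mem_ker.mp hz, map_zero]

theorem Iso.map_range_δ {T T' : Triple 𝔠 A} (e : Iso T T') :
    (LinearMap.range T.δ).map e.equiv₁.toLinearMap = LinearMap.range T'.δ := by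
  ext z
  constructor
  · rintro ⟨w, ⟨v, rfl⟩, rfl⟩
    exact ⟨e.equiv₀ v, (e.equiv₁_δ v).symm⟩
  · rintro ⟨v, rfl⟩
    refine ⟨T.δ (e.equiv₀.symm v), ⟨_, rfl⟩, ?_⟩
    change e.equiv₁ (T.δ (e.equiv₀.symm v)) = _
    rw [e.equiv₁_δ, LinearEquiv.apply_symm_apply]

/-- `H⁰` is an isomorphism invariant. -/
noncomputable def Iso.kerEquiv {T T' : Triple 𝔠 A} (e : Iso T T') :
    LinearMap.ker T.δ ≃ₗ[A] LinearMap.ker T'.δ :=
  e.equiv₀.ofSubmodules _ _ e.map_ker_δ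

/-- `H¹` is an isomorphism invariant. -/
noncomputable def Iso.cokerEquiv {T T' : Triple 𝔠 A} (e : Iso T T') :
    (T.N₁₂ ⧸ LinearMap.range T.δ) ≃ₗ[A] (T'.N₁₂ ⧸ LinearMap.range T'.δ) :=
  Submodule.Quotient.equiv _ _ e.equiv₁ e.map_range_δ

theorem Iso.h0_eq {K : Type u} [Field K] [Algebra k K] {T T' : Triple 𝔠 K} (e : Iso T T') :
    T.h0 = T'.h0 :=
  e.kerEquiv.finrank_eq

theorem Iso.h1_eq {K : Type u} [Field K] [Algebra k K] {T T' : Triple 𝔠 K} (e : Iso T T') :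
    T.h1 = T'.h1 :=
  e.cokerEquiv.finrank_eq

theorem Iso.chi_eq {K : Type u} [Field K] [Algebra k K] {T T' : Triple 𝔠 K} (e : Iso T T') :
    T.chi = T'.chi := by
  rw [chi, chi, e.h0_eq, e.h1_eq]

end Triple

end Fermat.Agent.S25
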