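/-
S25-T2 (continued): tensor product of triples commutes with base change.   Owner: helper228.
-/
import Fermat.Agent.S25.Triple.Tensor
import Fermat.Agent.S25.Triple.BCMod

set_option autoImplicit false

universe u

open scoped TensorProduct

namespace Fermat.Agent.S25

namespace IsBCMap

variable {R S : Type u} [CommRing R] [CommRing S] {σ : R →+* S}
  {M M' P P' : Type u} [AddCommGroup M] [AddCommGroup M'] [AddCommGroup P] [AddCommGroup P']
  [Module R M] [Module R M'] [Module S P] [Module S P']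
  {β : M →ₛₗ[σ] P} {β' : M' →ₛₗ[σ] P'}

/-- The tensor product of two base change maps is a base change map. -/
theorem tensor (hβ : IsBCMap σ β) (hβ' : IsBCMap σ β') :
    IsBCMap σ (TensorProduct.map β β') := by
  intro Q _ _ f
  -- first variable fixed: extend in the second variable
  let G₀ : M →ₛₗ[σ] (P' →ₗ[S] Q) :=
    { toFun := fun m => hβ'.lift (TensorProduct.curry f m)
      map_add' := fun a b => by
        refine hβ'.hom_ext fun m' => ?_
        rw [LinearMap.add_apply, lift_apply, lift_apply, lift_apply, map_add, LinearMap.add_apply]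
      map_smul' := fun r a => by
        refine hβ'.hom_ext fun m' => ?_
        rw [LinearMap.smul_apply, lift_apply, lift_apply, map_smulₛₗ, LinearMap.smul_apply] }
  let G : P →ₗ[S] (P' →ₗ[S] Q) := hβ.lift G₀
  have hG : ∀ m m', G (β m) (β' m') = f (m ⊗ₜ m') := by
    intro m m'
    have h1 : G (β m) = G₀ m := hβ.lift_apply G₀ m
    rw [h1]
    exact hβ'.lift_apply (TensorProduct.curry f m) m'
  refine ⟨TensorProduct.lift G, ?_, ?_⟩
  · intro n
    induction n using TensorProduct.induction_on with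
    | zero => simp only [map_zero]
    | tmul a b => rw [TensorProduct.map_tmul, TensorProduct.lift.tmul, hG]
    | add a b ha hb => simp only [map_add, ha, hb]
  · intro g hg
    apply TensorProduct.curry_injective
    refine hβ.hom_ext fun m => hβ'.hom_ext fun m' => ?_
    rw [TensorProduct.curry_apply, TensorProduct.curry_apply, TensorProduct.lift.tmul, hG,
      ← hg (m ⊗ₜ m'), TensorProduct.map_tmul]

end IsBCMap

namespace TensorAux

variable {R S R' S' : Type*} [CommRing R] [CommRing S] [CommRing R'] [CommRing S']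
  {σ : R →+* S} {σ' : R' →+* S'} {r : R →+* R'} {s : S →+* S'}
  {M M' L L' N N' K K' : Type*}
  [AddCommGroup M] [AddCommGroup M'] [AddCommGroup L] [AddCommGroup L']
  [AddCommGroup N] [AddCommGroup N'] [AddCommGroup K] [AddCommGroup K']
  [Module R M] [Module R M'] [Module S L] [Module S L']
  [Module R' N] [Module R' N'] [Module S' K] [Module S' K']

/-- commutation of a square of semilinear maps passes to tensor products -/
theorem map_map_comm_semilinear (ρ : M →ₛₗ[σ] L) (ρ' : M' →ₛₗ[σ] L')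
    (τ : N →ₛₗ[σ'] K) (τ' : N' →ₛₗ[σ'] K')
    (b : M →ₛₗ[r] N) (b' : M' →ₛₗ[r] N') (c : L →ₛₗ[s] K) (c' : L' →ₛₗ[s] K')
    (h : ∀ n, c (ρ n) = τ (b n)) (h' : ∀ n, c' (ρ' n) = τ' (b' n)) (n : M ⊗[R] M') :
    TensorProduct.map c c' (TensorProduct.map ρ ρ' n) =
      TensorProduct.map τ τ' (TensorProduct.map b b' n) := by
  induction n using TensorProduct.induction_on with
  | zero => simp only [map_zero]
  | tmul x y => simp only [TensorProduct.map_tmul, h, h']
  | add x y hx hy => simp only [map_add, hx, hy]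

end TensorAux

namespace Triple

variable {k : Type u} [Field k] {𝔠 : CurveCharts k}
  {A A' : Type u} [CommRing A] [Algebra k A] [CommRing A'] [Algebra k A']

/-- Base change commutes with tensor products: if `S`, `S'` are base changes of `T`, `T'` along `φ`
then `S ⊗ S'` is a base change of `T ⊗ T'`. -/
noncomputable def BaseChange.tensor {φ : A →ₐ[k] A'} {T T' : Triple 𝔠 A} {S S' : Triple 𝔠 A'}
    (b : BaseChange φ T S) (b' : BaseChange φ T' S') :
    BaseChange φ (T.tensor T') (S.tensor S') where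
  β₁ := TensorProduct.map b.β₁ b'.β₁
  β₂ := TensorProduct.map b.β₂ b'.β₂
  β₁₂ := TensorProduct.map b.β₁₂ b'.β₁₂
  comm₁ := TensorAux.map_map_comm_semilinear T.ρ₁ T'.ρ₁ S.ρ₁ S'.ρ₁ b.β₁ b'.β₁ b.β₁₂ b'.β₁₂
    b.comm₁ b'.comm₁
  comm₂ := TensorAux.map_map_comm_semilinear T.ρ₂ T'.ρ₂ S.ρ₂ S'.ρ₂ b.β₂ b'.β₂ b.β₁₂ b'.β₁₂
    b.comm₂ b'.comm₂
  isBC₁ := IsBCMap.tensor (β := b.β₁) (β' := b'.β₁) b.isBC₁ b'.isBC₁
  isBC₂ := IsBCMap.tensor (β := b.β₂) (β' := b'.β₂) b.isBC₂ b'.isBC₂
  isBC₁₂ := IsBCMap.tensor (β := b.β₁₂) (β' := b'.β₁₂) b.isBC₁₂ b'.isBC₁₂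

end Triple

end Fermat.Agent.S25
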