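/-
S25 / block T4, layer A: the six-term sequence of a short exact sequence of two-term complexes of
modules, and additivity of the index (Euler characteristic) over a field.  Pure linear algebra.
Owner: helper278.
-/
import Mathlib

set_option autoImplicit false

open LinearMap Function

namespace Fermat.Agent.S25.Snake

section Maps

variable {R : Type*} [CommRing R] {X Y X₂ Y₂ X₃ Y₃ : Type*}
  [AddCommGroup X] [Module R X] [AddCommGroup Y] [Module R Y]
  [AddCommGroup X₂] [Module R X₂] [AddCommGroup Y₂] [Module R Y₂]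
  [AddCommGroup X₃] [Module R X₃] [AddCommGroup Y₃] [Module R Y₃]

/-- The map induced on kernels by a commutative square. -/
def kerMap (d : X →ₗ[R] Y) (d₂ : X₂ →ₗ[R] Y₂) (a : X →ₗ[R] X₂) (b : Y →ₗ[R] Y₂)
    (h : ∀ x, b (d x) = d₂ (a x)) : ker d →ₗ[R] ker d₂ :=
  (a.comp (ker d).subtype).codRestrict (ker d₂) (fun x => by
    have hx : d x.1 = 0 := x.2
    simp [← h, hx])

@[simp] lemma kerMap_coe (d : X →ₗ[R] Y) (d₂ : X₂ →ₗ[R] Y₂) (a : X →ₗ[R] X₂) (b : Y →ₗ[R] Y₂)
    (h : ∀ x, b (d x) = d₂ (a x)) (x : ker d) : (kerMap d d₂ a b h x : X₂) = a x := rfl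

/-- The map induced on cokernels by a commutative square. -/
def cokerMap (d : X →ₗ[R] Y) (d₂ : X₂ →ₗ[R] Y₂) (a : X →ₗ[R] X₂) (b : Y →ₗ[R] Y₂)
    (h : ∀ x, b (d x) = d₂ (a x)) : (Y ⧸ range d) →ₗ[R] (Y₂ ⧸ range d₂) :=
  Submodule.mapQ _ _ b (by
    rintro _ ⟨x, rfl⟩
    exact ⟨a x, (h x).symm⟩)

@[simp] lemma cokerMap_mk (d : X →ₗ[R] Y) (d₂ : X₂ →ₗ[R] Y₂) (a : X →ₗ[R] X₂) (b : Y →ₗ[R] Y₂)
    (h : ∀ x, b (d x) = d₂ (a x)) (y : Y) :
    cokerMap d d₂ a b h (Submodule.Quotient.mk y) = Submodule.Quotient.mk (b y) := rfl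

end Maps

section Six

variable {R : Type*} [CommRing R] {X' X X'' Y' Y Y'' : Type*}
  [AddCommGroup X'] [Module R X'] [AddCommGroup X] [Module R X] [AddCommGroup X''] [Module R X'']
  [AddCommGroup Y'] [Module R Y'] [AddCommGroup Y] [Module R Y] [AddCommGroup Y''] [Module R Y'']

/-- A short exact sequence of two-term complexes `d' → d → d''`. -/
structure SES (d' : X' →ₗ[R] Y') (d : X →ₗ[R] Y) (d'' : X'' →ₗ[R] Y'')
    (i : X' →ₗ[R] X) (p : X →ₗ[R] X'') (j : Y' →ₗ[R] Y) (q : Y →ₗ[R] Y'') : Prop where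
  comm' : ∀ x, j (d' x) = d (i x)
  comm'' : ∀ x, q (d x) = d'' (p x)
  i_inj : Injective i
  ip : Exact i p
  p_surj : Surjective p
  j_inj : Injective j
  jq : Exact j q
  q_surj : Surjective q

variable {d' : X' →ₗ[R] Y'} {d : X →ₗ[R] Y} {d'' : X'' →ₗ[R] Y''}
  {i : X' →ₗ[R] X} {p : X →ₗ[R] X''} {j : Y' →ₗ[R] Y} {q : Y →ₗ[R] Y''}

namespace SES

variable (S : SES d' d d'' i p j q)
include S

/-- `H⁰' → H⁰` -/
abbrev k₁ : ker d' →ₗ[R] ker d := kerMap d' d i j S.comm'
/-- `H⁰ → H⁰''` -/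
abbrev k₂ : ker d →ₗ[R] ker d'' := kerMap d d'' p q S.comm''
/-- `H¹' → H¹` -/
abbrev c₁ : (Y' ⧸ range d') →ₗ[R] (Y ⧸ range d) := cokerMap d' d i j S.comm'
/-- `H¹ → H¹''` -/
abbrev c₂ : (Y ⧸ range d) →ₗ[R] (Y'' ⧸ range d'') := cokerMap d d'' p q S.comm''

lemma k₁_injective : Injective S.k₁ := by
  intro x y h
  apply Subtype.ext
  apply S.i_inj
  exact congrArg Subtype.val h

lemma exact_k₁_k₂ : Exact S.k₁ S.k₂ := by
  intro x
  constructor
  · intro h
    have h1 : p x.1 = 0 := congrArg Subtype.val h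
    obtain ⟨x', hx'⟩ := (S.ip _).1 h1
    have hk : d' x' = 0 := by
      apply S.j_inj
      rw [S.comm', hx', map_zero]
      exact x.2
    exact ⟨⟨x', hk⟩, Subtype.ext hx'⟩
  · rintro ⟨x', rfl⟩
    apply Subtype.ext
    exact S.ip.apply_apply_eq_zero _

/-- The connecting homomorphism `H⁰'' → H¹'`. -/
noncomputable def conn : ker d'' →ₗ[R] (Y' ⧸ range d') :=
  SnakeLemma.δ' d' d d'' i p S.ip j q S.jq
    (LinearMap.ext fun x => S.comm' x) (LinearMap.ext fun x => S.comm'' x)
    (ker d'').subtype (exact_subtype_ker_map d'') (range d').mkQ (exact_map_mkQ_range d')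
    S.p_surj S.j_inj

lemma conn_eq (x : ker d'') (y : X) (hy : p y = x) (z : Y') (hz : j z = d y) :
    S.conn x = Submodule.Quotient.mk z :=
  SnakeLemma.δ'_eq d' d d'' i p S.ip j q S.jq
    (LinearMap.ext fun x => S.comm' x) (LinearMap.ext fun x => S.comm'' x)
    (ker d'').subtype (exact_subtype_ker_map d'') (range d').mkQ (exact_map_mkQ_range d')
    S.p_surj S.j_inj x y hy z hz

lemma exact_k₂_conn : Exact S.k₂ S.conn :=
  SnakeLemma.exact_δ'_right d' d d'' i p S.ip j q S.jq
    (LinearMap.ext fun x => S.comm' x) (LinearMap.ext fun x => S.comm'' x)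
    (ker d).subtype (exact_subtype_ker_map d)
    (ker d'').subtype (exact_subtype_ker_map d'') (range d').mkQ (exact_map_mkQ_range d')
    S.p_surj S.j_inj S.k₂ (LinearMap.ext fun _ => rfl) (Submodule.subtype_injective _)

lemma exact_conn_c₁ : Exact S.conn S.c₁ :=
  SnakeLemma.exact_δ'_left d' d d'' i p S.ip j q S.jq
    (LinearMap.ext fun x => S.comm' x) (LinearMap.ext fun x => S.comm'' x)
    (ker d'').subtype (exact_subtype_ker_map d'') (range d').mkQ (exact_map_mkQ_range d')
    (range d).mkQ (exact_map_mkQ_range d)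
    S.p_surj S.j_inj S.c₁ (LinearMap.ext fun _ => rfl) (Submodule.mkQ_surjective _)

lemma exact_c₁_c₂ : Exact S.c₁ S.c₂ := by
  intro y
  obtain ⟨y, rfl⟩ := Submodule.Quotient.mk_surjective _ y
  constructor
  · intro h
    rw [cokerMap_mk, Submodule.Quotient.mk_eq_zero] at h
    obtain ⟨x'', hx''⟩ := h
    obtain ⟨x, rfl⟩ := S.p_surj x''
    have h0 : q (y - d x) = 0 := by rw [map_sub, S.comm'', hx'', sub_self]
    obtain ⟨y', hy'⟩ := (S.jq _).1 h0
    refine ⟨Submodule.Quotient.mk y', ?_⟩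
    rw [cokerMap_mk, hy', Submodule.Quotient.eq]
    exact ⟨-x, by simp⟩
  · rintro ⟨y', hy'⟩
    obtain ⟨y', rfl⟩ := Submodule.Quotient.mk_surjective _ y'
    rw [← hy', cokerMap_mk, cokerMap_mk, S.jq.apply_apply_eq_zero]
    rfl

lemma c₂_surjective : Surjective S.c₂ := by
  intro y
  obtain ⟨y, rfl⟩ := Submodule.Quotient.mk_surjective _ y
  obtain ⟨z, rfl⟩ := S.q_surj y
  exact ⟨Submodule.Quotient.mk z, rfl⟩

end SES

end Six

section Field

variable {K : Type*} [Field K]

lemma finite_of_exact {U V W : Type*} [AddCommGroup U] [Module K U] [AddCommGroup V] [Module K V]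
    [AddCommGroup W] [Module K W] (f : U →ₗ[K] V) (g : V →ₗ[K] W) (h : Exact f g)
    [FiniteDimensional K U] [FiniteDimensional K W] : FiniteDimensional K V := by
  have : Module.Finite K (ker g) := by
    rw [h.linearMap_ker_eq]
    infer_instance
  have : Module.Finite K (V ⧸ ker g) := Module.Finite.equiv g.quotKerEquivRange.symm
  exact Module.Finite.of_submodule_quotient (ker g)

lemma finrank_eq_of_exact {U V W : Type*} [AddCommGroup U] [Module K U] [AddCommGroup V]
    [Module K V] [AddCommGroup W] [Module K W] (f : U →ₗ[K] V) (g : V →ₗ[K] W) (h : Exact f g)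
    [FiniteDimensional K V] :
    Module.finrank K V = Module.finrank K (range f) + Module.finrank K (range g) := by
  rw [← g.finrank_range_add_finrank_ker, h.linearMap_ker_eq, add_comm]

variable {X' X X'' Y' Y Y'' : Type*}
  [AddCommGroup X'] [Module K X'] [AddCommGroup X] [Module K X] [AddCommGroup X''] [Module K X'']
  [AddCommGroup Y'] [Module K Y'] [AddCommGroup Y] [Module K Y] [AddCommGroup Y''] [Module K Y'']

/-- Kernel and cokernel are finite dimensional. -/
structure FinCoh (d : X →ₗ[K] Y) : Prop where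
  ker : FiniteDimensional K (LinearMap.ker d)
  coker : FiniteDimensional K (Y ⧸ LinearMap.range d)

/-- The index `dim ker - dim coker`. -/
noncomputable def index (d : X →ₗ[K] Y) : ℤ :=
  (Module.finrank K (LinearMap.ker d) : ℤ) - (Module.finrank K (Y ⧸ LinearMap.range d) : ℤ)

variable {d' : X' →ₗ[K] Y'} {d : X →ₗ[K] Y} {d'' : X'' →ₗ[K] Y''}
  {i : X' →ₗ[K] X} {p : X →ₗ[K] X''} {j : Y' →ₗ[K] Y} {q : Y →ₗ[K] Y''}

namespace SES

variable (S : SES d' d d'' i p j q)
include S

lemma finCoh_mid (h' : FinCoh d') (h'' : FinCoh d'') : FinCoh d := by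
  have := h'.ker; have := h'.coker; have := h''.ker; have := h''.coker
  exact ⟨finite_of_exact _ _ S.exact_k₁_k₂, finite_of_exact _ _ S.exact_c₁_c₂⟩

lemma finCoh_right (h' : FinCoh d') (h : FinCoh d) : FinCoh d'' := by
  have := h'.ker; have := h'.coker; have := h.ker; have := h.coker
  exact ⟨finite_of_exact _ _ S.exact_k₂_conn, Module.Finite.of_surjective _ S.c₂_surjective⟩

lemma finCoh_left (h : FinCoh d) (h'' : FinCoh d'') : FinCoh d' := by
  have := h.ker; have := h.coker; have := h''.ker; have := h''.coker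
  exact ⟨Module.Finite.of_injective _ S.k₁_injective, finite_of_exact _ _ S.exact_conn_c₁⟩

/-- Additivity of the index. -/
lemma index_add (h' : FinCoh d') (h'' : FinCoh d'') : index d = index d' + index d'' := by
  have h := S.finCoh_mid h' h''
  have := h'.ker; have := h'.coker; have := h''.ker; have := h''.coker
  have := h.ker; have := h.coker
  have e1 : Module.finrank K (range S.k₁) = Module.finrank K (LinearMap.ker d') :=
    LinearMap.finrank_range_of_inj S.k₁_injective
  have e2 := finrank_eq_of_exact _ _ S.exact_k₁_k₂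
  have e3 := finrank_eq_of_exact _ _ S.exact_k₂_conn
  have e4 := finrank_eq_of_exact _ _ S.exact_conn_c₁
  have e5 := finrank_eq_of_exact _ _ S.exact_c₁_c₂
  have e6 : Module.finrank K (range S.c₂) = Module.finrank K (Y'' ⧸ LinearMap.range d'') := by
    rw [LinearMap.range_eq_top.2 S.c₂_surjective, finrank_top]
  unfold index
  omega

end SES

end Field

end Fermat.Agent.S25.Snake
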