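/-
S25 / block T4: sub-triples, quotient triples, short exact sequences of triples, the six-term
cohomology sequence, additivity of the Euler characteristic.   Owner: helper278.
-/
import Fermat.Agent.S25.AlgSpec
import Fermat.Agent.S25.Triple.Snake

set_option autoImplicit false

universe u

open scoped TensorProduct
open Function

namespace Fermat.Agent.S25

variable {k : Type u} [Field k] {𝔠 : CurveCharts k} {A : Type u} [CommRing A] [Algebra k A]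

namespace Triple

/-! ### Sub-triples and quotient triples -/

section SubQuot

variable (T : Triple 𝔠 A) (S₁ : Submodule (𝔠.R₁ A) T.N₁) (S₂ : Submodule (𝔠.R₂ A) T.N₂)
  (S₁₂ : Submodule (𝔠.R₁₂ A) T.N₁₂) (h₁ : ∀ n ∈ S₁, T.ρ₁ n ∈ S₁₂) (h₂ : ∀ n ∈ S₂, T.ρ₂ n ∈ S₁₂)

/-- The sub-triple given by three compatible submodules. -/
noncomputable def sub : Triple 𝔠 A where
  N₁ := S₁
  N₂ := S₂
  N₁₂ := S₁₂
  ρ₁ := (T.ρ₁.domRestrict S₁).codRestrict S₁₂ (fun n => h₁ n n.2)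
  ρ₂ := (T.ρ₂.domRestrict S₂).codRestrict S₁₂ (fun n => h₂ n n.2)

/-- The quotient triple by three compatible submodules. -/
noncomputable def quot : Triple 𝔠 A where
  N₁ := T.N₁ ⧸ S₁
  N₂ := T.N₂ ⧸ S₂
  N₁₂ := T.N₁₂ ⧸ S₁₂
  ρ₁ := Submodule.mapQ S₁ S₁₂ T.ρ₁ (fun n hn => h₁ n hn)
  ρ₂ := Submodule.mapQ S₂ S₁₂ T.ρ₂ (fun n hn => h₂ n hn)

lemma sub_ρ₁_coe (n : S₁) : S₁₂.subtype ((T.sub S₁ S₂ S₁₂ h₁ h₂).ρ₁ n) = T.ρ₁ n := rfl
lemma sub_ρ₂_coe (n : S₂) : S₁₂.subtype ((T.sub S₁ S₂ S₁₂ h₁ h₂).ρ₂ n) = T.ρ₂ n := rfl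

@[simp] lemma quot_ρ₁_mk (n : T.N₁) :
    (T.quot S₁ S₂ S₁₂ h₁ h₂).ρ₁ (Submodule.Quotient.mk n : T.N₁ ⧸ S₁) =
      (Submodule.Quotient.mk (T.ρ₁ n) : T.N₁₂ ⧸ S₁₂) := rfl
@[simp] lemma quot_ρ₂_mk (n : T.N₂) :
    (T.quot S₁ S₂ S₁₂ h₁ h₂).ρ₂ (Submodule.Quotient.mk n : T.N₂ ⧸ S₂) =
      (Submodule.Quotient.mk (T.ρ₂ n) : T.N₁₂ ⧸ S₁₂) := rfl

/-- The inclusion of a sub-triple. -/
noncomputable def subHom : Hom (T.sub S₁ S₂ S₁₂ h₁ h₂) T where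
  f₁ := S₁.subtype
  f₂ := S₂.subtype
  f₁₂ := S₁₂.subtype
  comm₁ _ := rfl
  comm₂ _ := rfl

/-- The projection onto a quotient triple. -/
noncomputable def quotHom : Hom T (T.quot S₁ S₂ S₁₂ h₁ h₂) where
  f₁ := S₁.mkQ
  f₂ := S₂.mkQ
  f₁₂ := S₁₂.mkQ
  comm₁ _ := rfl
  comm₂ _ := rfl

end SubQuot

/-! ### Maps induced by a morphism on the Čech complex and on cohomology -/

/-- `H⁰` of a triple. -/
abbrev H0 (T : Triple 𝔠 A) : Type u := LinearMap.ker T.δ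
/-- `H¹` of a triple. -/
abbrev H1 (T : Triple 𝔠 A) : Type u := T.N₁₂ ⧸ LinearMap.range T.δ

namespace Hom

variable {T T' T'' : Triple 𝔠 A}

/-- identity morphism -/
def id (T : Triple 𝔠 A) : Hom T T where
  f₁ := LinearMap.id
  f₂ := LinearMap.id
  f₁₂ := LinearMap.id
  comm₁ _ := rfl
  comm₂ _ := rfl

/-- composition of morphisms -/
def comp (g : Hom T' T'') (f : Hom T T') : Hom T T'' where
  f₁ := g.f₁.comp f.f₁
  f₂ := g.f₂.comp f.f₂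
  f₁₂ := g.f₁₂.comp f.f₁₂
  comm₁ n := by
    change g.f₁₂ (f.f₁₂ (T.ρ₁ n)) = T''.ρ₁ (g.f₁ (f.f₁ n))
    rw [f.comm₁, g.comm₁]
  comm₂ n := by
    change g.f₁₂ (f.f₁₂ (T.ρ₂ n)) = T''.ρ₂ (g.f₂ (f.f₂ n))
    rw [f.comm₂, g.comm₂]

variable (f : Hom T T')

/-- the map on Čech `0`-cochains -/
noncomputable def map0 : (T.N₁ × T.N₂) →ₗ[A] (T'.N₁ × T'.N₂) :=
  (f.f₁.restrictScalars A).prodMap (f.f₂.restrictScalars A)

/-- the map on Čech `1`-cochains -/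
noncomputable def map1 : T.N₁₂ →ₗ[A] T'.N₁₂ := f.f₁₂.restrictScalars A

@[simp] lemma map0_apply (z : T.N₁ × T.N₂) : f.map0 z = (f.f₁ z.1, f.f₂ z.2) := rfl
@[simp] lemma map1_apply (z : T.N₁₂) : f.map1 z = f.f₁₂ z := rfl

lemma map1_δ (z : T.N₁ × T.N₂) : f.map1 (T.δ z) = T'.δ (f.map0 z) := by
  rw [δ_apply, δ_apply, map1_apply, map_sub, f.comm₁, f.comm₂]
  rfl

/-- the map on `H⁰` -/
noncomputable def mapH0 : T.H0 →ₗ[A] T'.H0 := Snake.kerMap T.δ T'.δ f.map0 f.map1 f.map1_δ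
/-- the map on `H¹` -/
noncomputable def mapH1 : T.H1 →ₗ[A] T'.H1 := Snake.cokerMap T.δ T'.δ f.map0 f.map1 f.map1_δ

@[simp] lemma mapH0_coe (z : T.H0) : (f.mapH0 z : T'.N₁ × T'.N₂) = (f.f₁ z.1.1, f.f₂ z.1.2) := rfl
@[simp] lemma mapH1_mk (z : T.N₁₂) :
    f.mapH1 (Submodule.Quotient.mk z) = Submodule.Quotient.mk (f.f₁₂ z) := rfl

end Hom

/-! ### Short exact sequences -/

/-- Componentwise short exact sequence `0 → T' → T → T'' → 0` of triples. -/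
structure ShortExact {T' T T'' : Triple 𝔠 A} (f : Hom T' T) (g : Hom T T'') : Prop where
  inj₁ : Injective f.f₁
  inj₂ : Injective f.f₂
  inj₁₂ : Injective f.f₁₂
  exact₁ : Exact f.f₁ g.f₁
  exact₂ : Exact f.f₂ g.f₂
  exact₁₂ : Exact f.f₁₂ g.f₁₂
  surj₁ : Surjective g.f₁
  surj₂ : Surjective g.f₂
  surj₁₂ : Surjective g.f₁₂

/-- `0 → sub → T → quot → 0` is short exact. -/
lemma shortExact_sub_quot (T : Triple 𝔠 A) (S₁ : Submodule (𝔠.R₁ A) T.N₁)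
    (S₂ : Submodule (𝔠.R₂ A) T.N₂) (S₁₂ : Submodule (𝔠.R₁₂ A) T.N₁₂)
    (h₁ : ∀ n ∈ S₁, T.ρ₁ n ∈ S₁₂) (h₂ : ∀ n ∈ S₂, T.ρ₂ n ∈ S₁₂) :
    ShortExact (T.subHom S₁ S₂ S₁₂ h₁ h₂) (T.quotHom S₁ S₂ S₁₂ h₁ h₂) where
  inj₁ := S₁.subtype_injective
  inj₂ := S₂.subtype_injective
  inj₁₂ := S₁₂.subtype_injective
  exact₁ := LinearMap.exact_subtype_mkQ S₁
  exact₂ := LinearMap.exact_subtype_mkQ S₂
  exact₁₂ := LinearMap.exact_subtype_mkQ S₁₂
  surj₁ := S₁.mkQ_surjective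
  surj₂ := S₂.mkQ_surjective
  surj₁₂ := S₁₂.mkQ_surjective

namespace ShortExact

variable {T' T T'' : Triple 𝔠 A} {f : Hom T' T} {g : Hom T T''} (E : ShortExact f g)
include E

/-- The associated short exact sequence of Čech complexes. -/
lemma ses : Snake.SES T'.δ T.δ T''.δ f.map0 g.map0 f.map1 g.map1 where
  comm' := f.map1_δ
  comm'' := g.map1_δ
  i_inj := by
    rintro ⟨a, b⟩ ⟨c, d⟩ h
    simp only [Hom.map0_apply, Prod.mk.injEq] at h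
    exact Prod.ext (E.inj₁ h.1) (E.inj₂ h.2)
  ip := by
    rintro ⟨a, b⟩
    simp only [Hom.map0_apply, Prod.mk_eq_zero, Set.mem_range, Prod.exists, Prod.mk.injEq]
    constructor
    · rintro ⟨ha, hb⟩
      obtain ⟨a', ha'⟩ := (E.exact₁ a).1 ha
      obtain ⟨b', hb'⟩ := (E.exact₂ b).1 hb
      exact ⟨a', b', ha', hb'⟩
    · rintro ⟨a', b', rfl, rfl⟩
      exact ⟨E.exact₁.apply_apply_eq_zero _, E.exact₂.apply_apply_eq_zero _⟩
  p_surj := by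
    rintro ⟨a, b⟩
    obtain ⟨a', rfl⟩ := E.surj₁ a
    obtain ⟨b', rfl⟩ := E.surj₂ b
    exact ⟨(a', b'), rfl⟩
  j_inj := E.inj₁₂
  jq := E.exact₁₂
  q_surj := E.surj₁₂

/-- The connecting homomorphism `H⁰(T'') → H¹(T')`. -/
noncomputable def conn : T''.H0 →ₗ[A] T'.H1 := E.ses.conn

lemma conn_eq (x : T''.H0) (y : T.N₁ × T.N₂) (hy₁ : g.f₁ y.1 = x.1.1) (hy₂ : g.f₂ y.2 = x.1.2)
    (z : T'.N₁₂) (hz : f.f₁₂ z = T.δ y) : E.conn x = Submodule.Quotient.mk z :=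
  E.ses.conn_eq x y (Prod.ext hy₁ hy₂) z hz

lemma mapH0_injective : Injective f.mapH0 := E.ses.k₁_injective
lemma exact_mapH0_mapH0 : Exact f.mapH0 g.mapH0 := E.ses.exact_k₁_k₂
lemma exact_mapH0_conn : Exact g.mapH0 E.conn := E.ses.exact_k₂_conn
lemma exact_conn_mapH1 : Exact E.conn f.mapH1 := E.ses.exact_conn_c₁
lemma exact_mapH1_mapH1 : Exact f.mapH1 g.mapH1 := E.ses.exact_c₁_c₂
lemma mapH1_surjective : Surjective g.mapH1 := E.ses.c₂_surjective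

end ShortExact

/-! ### Euler characteristic over a field -/

section Field

variable {K : Type u} [Field K] [Algebra k K]

/-- Finite-dimensional cohomology. -/
abbrev FinCoh (T : Triple 𝔠 K) : Prop := Snake.FinCoh T.δ

lemma chi_eq_index (T : Triple 𝔠 K) : T.chi = Snake.index T.δ := rfl

namespace ShortExact

variable {T' T T'' : Triple 𝔠 K} {f : Hom T' T} {g : Hom T T''} (E : ShortExact f g)
include E

lemma finCoh_mid (h' : T'.FinCoh) (h'' : T''.FinCoh) : T.FinCoh := E.ses.finCoh_mid h' h''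
lemma finCoh_right (h' : T'.FinCoh) (h : T.FinCoh) : T''.FinCoh := E.ses.finCoh_right h' h
lemma finCoh_left (h : T.FinCoh) (h'' : T''.FinCoh) : T'.FinCoh := E.ses.finCoh_left h h''

/-- Additivity of the Euler characteristic. -/
lemma chi_add (h' : T'.FinCoh) (h'' : T''.FinCoh) : T.chi = T'.chi + T''.chi :=
  E.ses.index_add h' h''

end ShortExact

end Field

end Triple

end Fermat.Agent.S25
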