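/-
S25-T3: module-level lemmas for the internal Hom of triples.   Owner: helper184.

* `SemiExt.hasExt_of_isBCMap` : a base-change map has the unique extension property.
* `SemiExt.isBCMap_ext` : `Hom` out of a finite projective module commutes with base change.
-/
import Fermat.Agent.S25.Triple.IHom
import Fermat.Agent.S25.Triple.BCMod

set_option autoImplicit false

universe u

open scoped TensorProduct

namespace Fermat.Agent.S25

namespace SemiExt

variable {R S : Type u} [CommRing R] [CommRing S] {φ : R →+* S}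
  {M M' N N' : Type u} [AddCommGroup M] [Module R M] [AddCommGroup M'] [Module R M']
  [AddCommGroup N] [Module S N] [AddCommGroup N'] [Module S N']
  {ρ : M →ₛₗ[φ] N} {ρ' : M' →ₛₗ[φ] N'}

/-- `ρ' ∘ f` as a semilinear map. -/
def compLin (ρ' : M' →ₛₗ[φ] N') (f : M →ₗ[R] M') : M →ₛₗ[φ] N' where
  toFun := fun m => ρ' (f m)
  map_add' := fun a b => by rw [map_add, map_add]
  map_smul' := fun r m => by rw [map_smul, ρ'.map_smulₛₗ]

@[simp] lemma compLin_apply (f : M →ₗ[R] M') (m : M) : compLin ρ' f m = ρ' (f m) := rfl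

theorem hasExt_of_isBCMap (h : IsBCMap φ ρ) (ρ' : M' →ₛₗ[φ] N') : HasExt ρ ρ' :=
  fun f => h N' (compLin ρ' f)

/-- A finite dual basis of a finite projective module. -/
theorem exists_dualBasis (R : Type u) [CommRing R] (M : Type u) [AddCommGroup M] [Module R M]
    [Module.Finite R M] [Module.Projective R M] :
    ∃ (n : ℕ) (e : Fin n → M) (l : Fin n → (M →ₗ[R] R)), ∀ m, ∑ i, l i m • e i = m := by
  obtain ⟨n, f, g, -, -, hfg⟩ := Module.Finite.exists_comp_eq_id_of_projective R M
  refine ⟨n, fun i => f (Pi.single i 1), fun i => LinearMap.proj i ∘ₗ g, fun m => ?_⟩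
  have h1 : f (g m) = m := by
    have := congrArg (fun F => F m) hfg
    simpa using this
  conv_rhs => rw [← h1, LinearMap.pi_apply_eq_sum_univ f (g m)]
  refine Finset.sum_congr rfl fun i _ => ?_
  have : (Pi.single i 1 : Fin n → R) = fun j => if i = j then 1 else 0 := by
    ext j
    simp [Pi.single_apply, eq_comm]
  simp [this]

/-- the ring homomorphism as a semilinear map -/
def ringSemi (φ : R →+* S) : R →ₛₗ[φ] S where
  toFun := φ
  map_add' := map_add φ
  map_smul' := fun r m => by simp

@[simp] lemma ringSemi_apply (r : R) : ringSemi φ r = φ r := rfl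

/-- `Hom` out of a finite projective module commutes with base change. -/
theorem isBCMap_ext [Module.Finite R M] [Module.Projective R M]
    (h : IsBCMap φ ρ) (h' : IsBCMap φ ρ') : IsBCMap φ (ext ρ ρ') := by
  obtain ⟨n, e, l, hl⟩ := exists_dualBasis R M
  have hE : HasExt ρ ρ' := hasExt_of_isBCMap h ρ'
  -- the extended functionals
  let L : Fin n → (N →ₗ[S] S) := fun i => h.lift (compLin (ringSemi φ) (l i))
  have hL : ∀ i m, L i (ρ m) = φ (l i m) := fun i m => by simp [L]
  have hN : ∀ x : N, ∑ i, L i x • ρ (e i) = x := by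
    intro x
    have : (∑ i, (L i).smulRight (ρ (e i))) = (LinearMap.id : N →ₗ[S] N) := by
      refine h.hom_ext fun m => ?_
      simp only [LinearMap.sum_apply, LinearMap.smulRight_apply, hL, LinearMap.id_apply]
      conv_rhs => rw [← hl m]
      simp
    simpa using congrArg (fun F => F x) this
  have hext : ∀ (i : Fin n) (m' : M'),
      ext ρ ρ' ((l i).smulRight m') = (L i).smulRight (ρ' m') := fun i m' =>
    ext_unique hE _ _ fun m => by simp [hL]
  have hv : ∀ v : N →ₗ[S] N', v = ∑ i, (L i).smulRight (v (ρ (e i))) := fun v => by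
    ext x
    conv_lhs => rw [← hN x]
    simp
  intro Q _ _ g
  -- `m' ↦ g (l i (·) m')`
  let γ : Fin n → (M' →ₛₗ[φ] Q) := fun i =>
    { toFun := fun m' => g ((l i).smulRight m')
      map_add' := fun a b => by
        rw [← map_add]; congr 1; ext; simp
      map_smul' := fun r m' => by
        rw [← g.map_smulₛₗ]; congr 1; ext x
        simp only [LinearMap.smulRight_apply, LinearMap.smul_apply]
        rw [smul_comm] }
  let θ : Fin n → (N' →ₗ[S] Q) := fun i => h'.lift (γ i)
  have hθ : ∀ i m', θ i (ρ' m') = g ((l i).smulRight m') := fun i m' => by simp [θ, γ]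
  refine ⟨∑ i, (θ i) ∘ₗ (LinearMap.applyₗ (ρ (e i))), fun u => ?_, fun H hH => ?_⟩
  · simp only [LinearMap.sum_apply, LinearMap.comp_apply, LinearMap.applyₗ_apply_apply,
      ext_apply hE, hθ]
    rw [← map_sum]
    congr 1
    ext m
    simp only [LinearMap.sum_apply, LinearMap.smulRight_apply]
    conv_rhs => rw [← hl m]
    simp
  · ext v
    conv_lhs => rw [hv v]
    simp only [map_sum, LinearMap.sum_apply, LinearMap.comp_apply, LinearMap.applyₗ_apply_apply]
    refine Finset.sum_congr rfl fun i _ => ?_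
    have : H ∘ₗ (LinearMap.smulRightₗ (L i)) = θ i := by
      refine h'.hom_ext fun m' => ?_
      simp only [LinearMap.comp_apply, hθ, ← hH, hext]
      rfl
    exact congrArg (fun F => F (v (ρ (e i)))) this

end SemiExt

/-! ### `Hom` between invertible modules -/

namespace InvHom

variable (R : Type u) [CommRing R] (M M' : Type u) [AddCommGroup M] [Module R M]
  [AddCommGroup M'] [Module R M']

theorem invertible_hom [Module.Invertible R M] [Module.Invertible R M'] :
    Module.Invertible R (M →ₗ[R] M') :=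
  Module.Invertible.congr (dualTensorHomEquiv R M M')

/-- evaluation `M ⊗ Hom(M, M') → M'` -/
noncomputable def ev : M ⊗[R] (M →ₗ[R] M') →ₗ[R] M' :=
  TensorProduct.lift LinearMap.applyₗ

@[simp] lemma ev_tmul (m : M) (f : M →ₗ[R] M') : ev R M M' (m ⊗ₜ f) = f m := rfl

theorem ev_bijective [Module.Invertible R M] : Function.Bijective (ev R M M') := by
  let e₁ : M ⊗[R] (Module.Dual R M ⊗[R] M') ≃ₗ[R] M ⊗[R] (M →ₗ[R] M') :=
    (dualTensorHomEquiv R M M').lTensor M
  let e₂ : M ⊗[R] (Module.Dual R M ⊗[R] M') ≃ₗ[R] M' :=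
    Module.Invertible.leftCancelEquiv M'
      (TensorProduct.comm R M (Module.Dual R M) ≪≫ₗ Module.Invertible.linearEquiv R M)
  have h : ev R M M' ∘ₗ e₁.toLinearMap = e₂.toLinearMap := by
    ext m l m'
    simp [e₁, e₂, Module.Invertible.linearEquiv]
  have h2 : ev R M M' = e₂.toLinearMap ∘ₗ e₁.symm.toLinearMap := by
    rw [← h]
    ext
    simp
  rw [h2]
  exact (e₁.symm ≪≫ₗ e₂).bijective

/-- evaluation `M ⊗ Hom(M, M') ≃ M'` for invertible `M` -/
noncomputable def evEquiv [Module.Invertible R M] : M ⊗[R] (M →ₗ[R] M') ≃ₗ[R] M' :=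
  LinearEquiv.ofBijective (ev R M M') (ev_bijective R M M')

@[simp] lemma evEquiv_tmul [Module.Invertible R M] (m : M) (f : M →ₗ[R] M') :
    evEquiv R M M' (m ⊗ₜ f) = f m := rfl

variable {R M}

/-- every endomorphism of an invertible module is a homothety -/
theorem exists_unique_smul [Module.Invertible R M] (f : M →ₗ[R] M) :
    ∃! r : R, ∀ m, f m = r • m := by
  obtain ⟨r, hr⟩ := (Module.Invertible.toModuleEnd_bijective R M).2 f
  refine ⟨r, fun m => by rw [← hr]; rfl, fun r' hr' => ?_⟩
  refine (Module.Invertible.toModuleEnd_bijective R M).1 ?_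
  rw [hr]
  ext m
  exact (hr' m).symm

end InvHom

end Fermat.Agent.S25
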