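/-
S25 / block T4 (5): triples one of whose restriction maps is surjective/bijective, torsion triples
over a field (finite-dimensional `N₁`, `N₂`): `H¹ = 0`, `χ = dim N₁ + dim N₂ - dim N₁₂`.
Owner: helper278.
-/
import Fermat.Agent.S25.Triple.Exact

set_option autoImplicit false

universe u

open scoped TensorProduct
open Function

namespace Fermat.Agent.S25

variable {k : Type u} [Field k]

namespace CurveCharts

variable (𝔠 : CurveCharts k) (A : Type u) [CommRing A] [Algebra k A]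

lemma res₁_xA : 𝔠.res₁ A (𝔠.xA A) = 1 ⊗ₜ[k] algebraMap 𝔠.B₁ 𝔠.B₁₂ 𝔠.x := by
  simp [res₁, xA]

lemma res₂_yA : 𝔠.res₂ A (𝔠.yA A) = 1 ⊗ₜ[k] algebraMap 𝔠.B₂ 𝔠.B₁₂ 𝔠.y := by
  simp [res₂, yA]

/-- `x y = 1` on the overlap. -/
lemma res₁_xA_mul_res₂_yA : 𝔠.res₁ A (𝔠.xA A) * 𝔠.res₂ A (𝔠.yA A) = 1 := by
  rw [res₁_xA, res₂_yA, Algebra.TensorProduct.tmul_mul_tmul, 𝔠.xy, mul_one]
  rfl

lemma res₂_yA_mul_res₁_xA : 𝔠.res₂ A (𝔠.yA A) * 𝔠.res₁ A (𝔠.xA A) = 1 := by
  rw [mul_comm, res₁_xA_mul_res₂_yA]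

lemma isUnit_res₁_xA : IsUnit (𝔠.res₁ A (𝔠.xA A)) :=
  IsUnit.of_mul_eq_one _ (𝔠.res₁_xA_mul_res₂_yA A)

lemma isUnit_res₂_yA : IsUnit (𝔠.res₂ A (𝔠.yA A)) :=
  IsUnit.of_mul_eq_one _ (𝔠.res₂_yA_mul_res₁_xA A)

end CurveCharts

namespace Triple

variable {𝔠 : CurveCharts k} {A : Type u} [CommRing A] [Algebra k A]

section Surj

variable (T : Triple 𝔠 A)

lemma δ_surjective_of_ρ₁ (h : Surjective T.ρ₁) : Surjective T.δ := fun n => by
  obtain ⟨a, ha⟩ := h n
  exact ⟨(a, 0), by rw [δ_apply, T.ρ₂.map_zero, sub_zero, ha]⟩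

lemma δ_surjective_of_ρ₂ (h : Surjective T.ρ₂) : Surjective T.δ := fun n => by
  obtain ⟨a, ha⟩ := h n
  exact ⟨(0, -a), by rw [δ_apply, T.ρ₁.map_zero, T.ρ₂.map_neg, zero_sub, neg_neg, ha]⟩

lemma subsingleton_H1_of_surjective (h : Surjective T.δ) : Subsingleton T.H1 := by
  rw [Submodule.Quotient.subsingleton_iff]
  exact LinearMap.range_eq_top.2 h

lemma surjective_of_subsingleton_H1 (h : Subsingleton T.H1) : Surjective T.δ := by
  rw [Submodule.Quotient.subsingleton_iff] at h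
  exact LinearMap.range_eq_top.1 h

/-- If `ρ₂` is bijective then `H⁰ ≃ N₁`. -/
noncomputable def H0EquivOfBijective₂ (h : Bijective T.ρ₂) : T.H0 ≃ₗ[A] T.N₁ :=
  LinearEquiv.ofBijective ((LinearMap.fst A T.N₁ T.N₂).comp (LinearMap.ker T.δ).subtype) (by
    constructor
    · rw [injective_iff_map_eq_zero]
      rintro ⟨⟨a, b⟩, hz⟩ h0
      have ha : a = 0 := h0
      subst ha
      have hz' : T.ρ₁ 0 - T.ρ₂ b = 0 := (T.δ_apply (0, b)).symm.trans hz
      have hb : b = 0 := by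
        apply h.1
        rw [T.ρ₁.map_zero, zero_sub, neg_eq_zero] at hz'
        rw [hz', T.ρ₂.map_zero]
      subst hb
      rfl
    · intro a
      obtain ⟨b, hb⟩ := h.2 (T.ρ₁ a)
      exact ⟨⟨(a, b), by rw [LinearMap.mem_ker, δ_apply, hb, sub_self]⟩, rfl⟩)

@[simp] lemma H0EquivOfBijective₂_apply (h : Bijective T.ρ₂) (z : T.H0) :
    T.H0EquivOfBijective₂ h z = z.1.1 := rfl

/-- If `ρ₁` is bijective then `H⁰ ≃ N₂`. -/
noncomputable def H0EquivOfBijective₁ (h : Bijective T.ρ₁) : T.H0 ≃ₗ[A] T.N₂ :=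
  LinearEquiv.ofBijective ((LinearMap.snd A T.N₁ T.N₂).comp (LinearMap.ker T.δ).subtype) (by
    constructor
    · rw [injective_iff_map_eq_zero]
      rintro ⟨⟨a, b⟩, hz⟩ h0
      have hb : b = 0 := h0
      subst hb
      have hz' : T.ρ₁ a - T.ρ₂ 0 = 0 := (T.δ_apply (a, 0)).symm.trans hz
      have ha : a = 0 := by
        apply h.1
        rw [T.ρ₂.map_zero, sub_zero] at hz'
        rw [hz', T.ρ₁.map_zero]
      subst ha
      rfl
    · intro b
      obtain ⟨a, ha⟩ := h.2 (T.ρ₂ b)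
      exact ⟨⟨(a, b), by rw [LinearMap.mem_ker, δ_apply, ha, sub_self]⟩, rfl⟩)

@[simp] lemma H0EquivOfBijective₁_apply (h : Bijective T.ρ₁) (z : T.H0) :
    T.H0EquivOfBijective₁ h z = z.1.2 := rfl

end Surj

section Field

variable {K : Type u} [Field K] [Algebra k K] {Q : Triple 𝔠 K}

/-- A `K`-subspace `R` of `N₁₂`, finite dimensional and stable under a unit `ξ`, is "saturated". -/
private lemma mem_of_unit_pow_smul_mem (R : Submodule K Q.N₁₂) [FiniteDimensional K R]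
    (ξ : 𝔠.R₁₂ K) (hξ : IsUnit ξ) (hR : ∀ n ∈ R, ξ • n ∈ R) (m : ℕ) (n : Q.N₁₂)
    (hn : ξ ^ m • n ∈ R) : n ∈ R := by
  have hinj : ∀ a b : Q.N₁₂, ξ • a = ξ • b → a = b := fun a b hab => by
    obtain ⟨u, rfl⟩ := hξ
    have := congrArg (fun z => (↑u⁻¹ : 𝔠.R₁₂ K) • z) hab
    simpa [smul_smul] using this
  let X : R →ₗ[K] R :=
    { toFun := fun r => ⟨ξ • r.1, hR _ r.2⟩
      map_add' := fun a b => Subtype.ext (by simp)
      map_smul' := fun c a => Subtype.ext (by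
        change ξ • (c • a.1) = c • (ξ • a.1)
        rw [smul_comm]) }
  have hXinj : Injective X := fun a b hab =>
    Subtype.ext (hinj _ _ (congrArg Subtype.val hab))
  have hXsurj : Surjective X := LinearMap.injective_iff_surjective.1 hXinj
  have step : ∀ n : Q.N₁₂, ξ • n ∈ R → n ∈ R := fun n hn => by
    obtain ⟨r, hr⟩ := hXsurj ⟨_, hn⟩
    have : ξ • r.1 = ξ • n := congrArg Subtype.val hr
    rw [← hinj _ _ this]
    exact r.2
  induction m generalizing n with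
  | zero => simpa using hn
  | succ m ih =>
    apply ih
    apply step
    rwa [smul_smul, ← pow_succ']

/-- If `N₁` is finite dimensional over the field `K` then `ρ₁` is onto. -/
lemma IsQC.ρ₁_surjective_of_finite (hQ : Q.IsQC) [FiniteDimensional K Q.N₁] :
    Surjective Q.ρ₁ := by
  intro n
  obtain ⟨m, n₁, hn₁⟩ := hQ.surj₁ n
  have : n ∈ LinearMap.range Q.ρ₁A := by
    refine mem_of_unit_pow_smul_mem (LinearMap.range Q.ρ₁A) _ (𝔠.isUnit_res₁_xA K) ?_ m n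
      ⟨n₁, hn₁⟩
    rintro _ ⟨a, rfl⟩
    exact ⟨𝔠.xA K • a, Q.ρ₁.map_smulₛₗ _ _⟩
  exact this

/-- If `N₂` is finite dimensional over the field `K` then `ρ₂` is onto. -/
lemma IsQC.ρ₂_surjective_of_finite (hQ : Q.IsQC) [FiniteDimensional K Q.N₂] :
    Surjective Q.ρ₂ := by
  intro n
  obtain ⟨m, n₂, hn₂⟩ := hQ.surj₂ n
  have : n ∈ LinearMap.range Q.ρ₂A := by
    refine mem_of_unit_pow_smul_mem (LinearMap.range Q.ρ₂A) _ (𝔠.isUnit_res₂_yA K) ?_ m n
      ⟨n₂, hn₂⟩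
    rintro _ ⟨a, rfl⟩
    exact ⟨𝔠.yA K • a, Q.ρ₂.map_smulₛₗ _ _⟩
  exact this

lemma IsQC.finite_N₁₂_of_finite₁ (hQ : Q.IsQC) [FiniteDimensional K Q.N₁] :
    FiniteDimensional K Q.N₁₂ :=
  Module.Finite.of_surjective Q.ρ₁A hQ.ρ₁_surjective_of_finite

lemma IsQC.finite_N₁₂_of_finite₂ (hQ : Q.IsQC) [FiniteDimensional K Q.N₂] :
    FiniteDimensional K Q.N₁₂ :=
  Module.Finite.of_surjective Q.ρ₂A hQ.ρ₂_surjective_of_finite

/-- A triple with surjective `δ` and finite-dimensional `N₁`, `N₂`. -/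
lemma finCoh_of_finite_of_surjective [FiniteDimensional K Q.N₁] [FiniteDimensional K Q.N₂]
    (h : Surjective Q.δ) : Q.FinCoh := by
  have := Q.subsingleton_H1_of_surjective h
  exact ⟨inferInstance, inferInstance⟩

lemma h1_eq_zero_of_surjective (h : Surjective Q.δ) : Q.h1 = 0 := by
  have := Q.subsingleton_H1_of_surjective h
  exact Module.finrank_zero_of_subsingleton

lemma h0_of_finite_of_surjective [FiniteDimensional K Q.N₁] [FiniteDimensional K Q.N₂]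
    (h : Surjective Q.δ) :
    Q.h0 + Module.finrank K Q.N₁₂ = Module.finrank K Q.N₁ + Module.finrank K Q.N₂ := by
  have h1 := Q.δ.finrank_range_add_finrank_ker
  rw [LinearMap.range_eq_top.2 h, finrank_top, Module.finrank_prod] at h1
  unfold h0
  omega

/-- Torsion triples over a field: finite cohomology. -/
lemma IsQC.finCoh_of_finite (hQ : Q.IsQC) [FiniteDimensional K Q.N₁] [FiniteDimensional K Q.N₂] :
    Q.FinCoh :=
  finCoh_of_finite_of_surjective (Q.δ_surjective_of_ρ₁ hQ.ρ₁_surjective_of_finite)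

/-- Torsion triples over a field: `H¹ = 0`. -/
lemma IsQC.h1_eq_zero_of_finite₁ (hQ : Q.IsQC) [FiniteDimensional K Q.N₁] : Q.h1 = 0 :=
  h1_eq_zero_of_surjective (Q.δ_surjective_of_ρ₁ hQ.ρ₁_surjective_of_finite)

lemma IsQC.h1_eq_zero_of_finite₂ (hQ : Q.IsQC) [FiniteDimensional K Q.N₂] : Q.h1 = 0 :=
  h1_eq_zero_of_surjective (Q.δ_surjective_of_ρ₂ hQ.ρ₂_surjective_of_finite)

/-- Torsion triples over a field: `χ = dim N₁ + dim N₂ - dim N₁₂`. -/
lemma IsQC.chi_of_finite (hQ : Q.IsQC) [FiniteDimensional K Q.N₁] [FiniteDimensional K Q.N₂] :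
    Q.chi = (Module.finrank K Q.N₁ : ℤ) + Module.finrank K Q.N₂ - Module.finrank K Q.N₁₂ := by
  have h := Q.δ_surjective_of_ρ₁ hQ.ρ₁_surjective_of_finite
  have e0 := h0_of_finite_of_surjective h
  have e1 := h1_eq_zero_of_surjective h
  unfold chi
  omega

end Field

end Triple

end Fermat.Agent.S25
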