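/-
S25 / block T4 (6): quasi-coherence of sub- and quotient triples, the sub-triple `𝔞 • T` for a
compatible triple of ideals, the ideal triple, invertibility, `𝔞 ⊗ T ≅ 𝔞 • T`.
Owner: helper278.
-/
import Fermat.Agent.S25.Triple.Torsion
import Fermat.Agent.S25.Triple.Tensor

set_option autoImplicit false

universe u

open scoped TensorProduct
open Function

namespace Fermat.Agent.S25

/-! ### `I ⊗ M ≃ I • ⊤` for a flat module -/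

section Alg

variable {R M : Type*} [CommRing R] [AddCommGroup M] [Module R M] (I : Ideal R)

/-- the multiplication map `I ⊗ M → M` -/
noncomputable def idealMulMap : (I ⊗[R] M) →ₗ[R] M :=
  (TensorProduct.lid R M).toLinearMap ∘ₗ (I.subtype.rTensor M)

@[simp] lemma idealMulMap_tmul (a : I) (m : M) : idealMulMap I (a ⊗ₜ[R] m) = (a : R) • m := by
  simp [idealMulMap]

lemma range_idealMulMap : LinearMap.range (idealMulMap (M := M) I) = I • ⊤ := by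
  apply le_antisymm
  · rintro _ ⟨t, rfl⟩
    induction t with
    | zero => simp
    | tmul a m =>
      rw [idealMulMap_tmul]
      exact Submodule.smul_mem_smul a.2 trivial
    | add x y hx hy =>
      rw [map_add]
      exact add_mem hx hy
  · rw [Submodule.smul_le]
    intro r hr m _
    exact ⟨(⟨r, hr⟩ : I) ⊗ₜ[R] m, by simp⟩

lemma idealMulMap_injective [Module.Flat R M] : Injective (idealMulMap (M := M) I) :=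
  (TensorProduct.lid R M).injective.comp
    (Module.Flat.rTensor_preserves_injective_linearMap I.subtype Subtype.val_injective)

/-- For a flat module, `I ⊗ M ≃ I • ⊤`. -/
noncomputable def idealTensorEquiv [Module.Flat R M] :
    (I ⊗[R] M) ≃ₗ[R] (I • ⊤ : Submodule R M) :=
  (LinearEquiv.ofInjective _ (idealMulMap_injective I)).trans
    (LinearEquiv.ofEq _ _ (range_idealMulMap I))

@[simp] lemma idealTensorEquiv_tmul [Module.Flat R M] (a : I) (m : M) :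
    ((idealTensorEquiv I (a ⊗ₜ[R] m) : (I • ⊤ : Submodule R M)) : M) = (a : R) • m := by
  simp [idealTensorEquiv]

/-- compatibility of `idealTensorEquiv` with semilinear maps -/
lemma idealTensorEquiv_map {S N : Type*} [CommRing S] [AddCommGroup N] [Module S N]
    [Module.Flat R M] [Module.Flat S N] {φ : R →+* S} (J : Ideal S) (ι : I →ₛₗ[φ] J)
    (hι : ∀ a, (ι a : S) = φ a) (ρ : M →ₛₗ[φ] N) (t : I ⊗[R] M) :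
    ((idealTensorEquiv J (TensorProduct.map ι ρ t) : (J • ⊤ : Submodule S N)) : N) =
      ρ ((idealTensorEquiv I t : (I • ⊤ : Submodule R M)) : M) := by
  induction t with
  | zero => simp
  | tmul a m => simp [hι]
  | add x y hx hy => simp [hx, hy]

end Alg

variable {k : Type u} [Field k] {𝔠 : CurveCharts k} {A : Type u} [CommRing A] [Algebra k A]

namespace Triple

/-! ### Quasi-coherence of sub-triples and quotients -/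

section QC

variable {T : Triple 𝔠 A} {S₁ : Submodule (𝔠.R₁ A) T.N₁} {S₂ : Submodule (𝔠.R₂ A) T.N₂}
  {S₁₂ : Submodule (𝔠.R₁₂ A) T.N₁₂} {h₁ : ∀ n ∈ S₁, T.ρ₁ n ∈ S₁₂} {h₂ : ∀ n ∈ S₂, T.ρ₂ n ∈ S₁₂}

/-- A sub-triple of a quasi-coherent triple is quasi-coherent as soon as `S₁₂` is generated by
`S₁` and by `S₂` up to powers of `x`, `y`. -/
lemma IsQC.sub (hT : T.IsQC)
    (s₁ : ∀ n ∈ S₁₂, ∃ m : ℕ, ∃ n₁ ∈ S₁, T.ρ₁ n₁ = (𝔠.res₁ A (𝔠.xA A)) ^ m • n)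
    (s₂ : ∀ n ∈ S₁₂, ∃ m : ℕ, ∃ n₂ ∈ S₂, T.ρ₂ n₂ = (𝔠.res₂ A (𝔠.yA A)) ^ m • n) :
    (T.sub S₁ S₂ S₁₂ h₁ h₂).IsQC where
  surj₁ := by
    rintro ⟨n, hn⟩
    obtain ⟨m, n₁, hn₁, e⟩ := s₁ n hn
    exact ⟨m, ⟨n₁, hn₁⟩, Subtype.ext e⟩
  inj₁ := by
    rintro ⟨n, hn⟩ h0
    obtain ⟨m, hm⟩ := hT.inj₁ n (congrArg Subtype.val h0)
    exact ⟨m, Subtype.ext hm⟩
  surj₂ := by
    rintro ⟨n, hn⟩
    obtain ⟨m, n₂, hn₂, e⟩ := s₂ n hn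
    exact ⟨m, ⟨n₂, hn₂⟩, Subtype.ext e⟩
  inj₂ := by
    rintro ⟨n, hn⟩ h0
    obtain ⟨m, hm⟩ := hT.inj₂ n (congrArg Subtype.val h0)
    exact ⟨m, Subtype.ext hm⟩

/-- Under the same hypotheses the quotient triple is quasi-coherent. -/
lemma IsQC.quot (hT : T.IsQC)
    (s₁ : ∀ n ∈ S₁₂, ∃ m : ℕ, ∃ n₁ ∈ S₁, T.ρ₁ n₁ = (𝔠.res₁ A (𝔠.xA A)) ^ m • n)
    (s₂ : ∀ n ∈ S₁₂, ∃ m : ℕ, ∃ n₂ ∈ S₂, T.ρ₂ n₂ = (𝔠.res₂ A (𝔠.yA A)) ^ m • n) :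
    (T.quot S₁ S₂ S₁₂ h₁ h₂).IsQC where
  surj₁ := by
    intro n
    obtain ⟨n, rfl⟩ := Submodule.Quotient.mk_surjective _ n
    obtain ⟨m, n₁, e⟩ := hT.surj₁ n
    refine ⟨m, Submodule.Quotient.mk n₁, ?_⟩
    rw [quot_ρ₁_mk, e]
    rfl
  inj₁ := by
    intro n h0
    obtain ⟨n, rfl⟩ := Submodule.Quotient.mk_surjective _ n
    have h0' : (Submodule.Quotient.mk (T.ρ₁ n) : T.N₁₂ ⧸ S₁₂) = 0 := h0
    rw [Submodule.Quotient.mk_eq_zero] at h0'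
    obtain ⟨m, s, hs, e⟩ := s₁ _ h0'
    have e' : T.ρ₁ (s - (𝔠.xA A) ^ m • n) = 0 := by
      rw [T.ρ₁.map_sub, T.ρ₁.map_smulₛₗ, e, sub_eq_zero]
      simp
    obtain ⟨m', hm'⟩ := hT.inj₁ _ e'
    refine ⟨m' + m, ?_⟩
    change (𝔠.xA A) ^ (m' + m) • (Submodule.Quotient.mk n : T.N₁ ⧸ S₁) = 0
    rw [← Submodule.Quotient.mk_smul, Submodule.Quotient.mk_eq_zero]
    rw [smul_sub, sub_eq_zero, smul_smul, ← pow_add] at hm'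
    rw [← hm']
    exact S₁.smul_mem _ hs
  surj₂ := by
    intro n
    obtain ⟨n, rfl⟩ := Submodule.Quotient.mk_surjective _ n
    obtain ⟨m, n₂, e⟩ := hT.surj₂ n
    refine ⟨m, Submodule.Quotient.mk n₂, ?_⟩
    rw [quot_ρ₂_mk, e]
    rfl
  inj₂ := by
    intro n h0
    obtain ⟨n, rfl⟩ := Submodule.Quotient.mk_surjective _ n
    have h0' : (Submodule.Quotient.mk (T.ρ₂ n) : T.N₁₂ ⧸ S₁₂) = 0 := h0
    rw [Submodule.Quotient.mk_eq_zero] at h0'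
    obtain ⟨m, s, hs, e⟩ := s₂ _ h0'
    have e' : T.ρ₂ (s - (𝔠.yA A) ^ m • n) = 0 := by
      rw [T.ρ₂.map_sub, T.ρ₂.map_smulₛₗ, e, sub_eq_zero]
      simp
    obtain ⟨m', hm'⟩ := hT.inj₂ _ e'
    refine ⟨m' + m, ?_⟩
    change (𝔠.yA A) ^ (m' + m) • (Submodule.Quotient.mk n : T.N₂ ⧸ S₂) = 0
    rw [← Submodule.Quotient.mk_smul, Submodule.Quotient.mk_eq_zero]
    rw [smul_sub, sub_eq_zero, smul_smul, ← pow_add] at hm'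
    rw [← hm']
    exact S₂.smul_mem _ hs

end QC

/-! ### The sub-triple `𝔞 • T` -/

section IdealSMul

variable (T : Triple 𝔠 A) (a₁ : Ideal (𝔠.R₁ A)) (a₂ : Ideal (𝔠.R₂ A)) (a₁₂ : Ideal (𝔠.R₁₂ A))

lemma ρ₁_mem_smul_top (h₁ : a₁.map (𝔠.res₁ A) ≤ a₁₂) (n : T.N₁)
    (hn : n ∈ (a₁ • ⊤ : Submodule (𝔠.R₁ A) T.N₁)) :
    T.ρ₁ n ∈ (a₁₂ • ⊤ : Submodule (𝔠.R₁₂ A) T.N₁₂) := by
  induction hn using Submodule.smul_induction_on' with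
  | smul r hr m _ =>
    rw [T.ρ₁.map_smulₛₗ]
    exact Submodule.smul_mem_smul (h₁ (Ideal.mem_map_of_mem (𝔠.res₁ A) hr)) trivial
  | add x _ y _ hx hy =>
    rw [T.ρ₁.map_add]
    exact add_mem hx hy

lemma ρ₂_mem_smul_top (h₂ : a₂.map (𝔠.res₂ A) ≤ a₁₂) (n : T.N₂)
    (hn : n ∈ (a₂ • ⊤ : Submodule (𝔠.R₂ A) T.N₂)) :
    T.ρ₂ n ∈ (a₁₂ • ⊤ : Submodule (𝔠.R₁₂ A) T.N₁₂) := by
  induction hn using Submodule.smul_induction_on' with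
  | smul r hr m _ =>
    rw [T.ρ₂.map_smulₛₗ]
    exact Submodule.smul_mem_smul (h₂ (Ideal.mem_map_of_mem (𝔠.res₂ A) hr)) trivial
  | add x _ y _ hx hy =>
    rw [T.ρ₂.map_add]
    exact add_mem hx hy

/-- The sub-triple `(𝔞₁ N₁, 𝔞₂ N₂, 𝔞₁₂ N₁₂)`. -/
noncomputable def idealSMul (h₁ : a₁.map (𝔠.res₁ A) ≤ a₁₂) (h₂ : a₂.map (𝔠.res₂ A) ≤ a₁₂) :
    Triple 𝔠 A :=
  T.sub (a₁ • ⊤) (a₂ • ⊤) (a₁₂ • ⊤) (T.ρ₁_mem_smul_top a₁ a₁₂ h₁) (T.ρ₂_mem_smul_top a₂ a₁₂ h₂)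

/-- The quotient triple `T / 𝔞 T`. -/
noncomputable def idealQuot (h₁ : a₁.map (𝔠.res₁ A) ≤ a₁₂) (h₂ : a₂.map (𝔠.res₂ A) ≤ a₁₂) :
    Triple 𝔠 A :=
  T.quot (a₁ • ⊤) (a₂ • ⊤) (a₁₂ • ⊤) (T.ρ₁_mem_smul_top a₁ a₁₂ h₁) (T.ρ₂_mem_smul_top a₂ a₁₂ h₂)

/-- inclusion `𝔞 T → T` -/
noncomputable def idealSMulHom (h₁ : a₁.map (𝔠.res₁ A) ≤ a₁₂) (h₂ : a₂.map (𝔠.res₂ A) ≤ a₁₂) :
    Hom (T.idealSMul a₁ a₂ a₁₂ h₁ h₂) T := T.subHom _ _ _ _ _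

/-- projection `T → T / 𝔞 T` -/
noncomputable def idealQuotHom (h₁ : a₁.map (𝔠.res₁ A) ≤ a₁₂) (h₂ : a₂.map (𝔠.res₂ A) ≤ a₁₂) :
    Hom T (T.idealQuot a₁ a₂ a₁₂ h₁ h₂) := T.quotHom _ _ _ _ _

lemma shortExact_idealSMul (h₁ : a₁.map (𝔠.res₁ A) ≤ a₁₂) (h₂ : a₂.map (𝔠.res₂ A) ≤ a₁₂) :
    ShortExact (T.idealSMulHom a₁ a₂ a₁₂ h₁ h₂) (T.idealQuotHom a₁ a₂ a₁₂ h₁ h₂) :=
  shortExact_sub_quot _ _ _ _ _ _

variable {T a₁ a₂ a₁₂}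

/-- generation of `𝔞₁₂ N₁₂` by `𝔞₁ N₁` up to powers of `x` -/
lemma IsQC.sat₁ (hT : T.IsQC) (e₁ : a₁.map (𝔠.res₁ A) = a₁₂) (n : T.N₁₂)
    (hn : n ∈ (a₁₂ • ⊤ : Submodule (𝔠.R₁₂ A) T.N₁₂)) :
    ∃ m : ℕ, ∃ n₁ ∈ (a₁ • ⊤ : Submodule (𝔠.R₁ A) T.N₁),
      T.ρ₁ n₁ = (𝔠.res₁ A (𝔠.xA A)) ^ m • n := by
  have hadd : ∀ n n' : T.N₁₂,
      (∃ m : ℕ, ∃ n₁ ∈ (a₁ • ⊤ : Submodule (𝔠.R₁ A) T.N₁),
        T.ρ₁ n₁ = (𝔠.res₁ A (𝔠.xA A)) ^ m • n) →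
      (∃ m : ℕ, ∃ n₁ ∈ (a₁ • ⊤ : Submodule (𝔠.R₁ A) T.N₁),
        T.ρ₁ n₁ = (𝔠.res₁ A (𝔠.xA A)) ^ m • n') →
      (∃ m : ℕ, ∃ n₁ ∈ (a₁ • ⊤ : Submodule (𝔠.R₁ A) T.N₁),
        T.ρ₁ n₁ = (𝔠.res₁ A (𝔠.xA A)) ^ m • (n + n')) := by
    rintro n n' ⟨m, n₁, hn₁, e⟩ ⟨m', n₁', hn₁', e'⟩
    refine ⟨m' + m, (𝔠.xA A) ^ m' • n₁ + (𝔠.xA A) ^ m • n₁',
      add_mem (Submodule.smul_mem _ _ hn₁) (Submodule.smul_mem _ _ hn₁'), ?_⟩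
    rw [T.ρ₁.map_add, T.ρ₁.map_smulₛₗ, T.ρ₁.map_smulₛₗ, e, e', smul_smul, smul_smul, smul_add]
    congr 1
    · congr 1
      simp [pow_add]
    · congr 1
      simp [pow_add, mul_comm]
  have key : ∀ r ∈ a₁₂, ∀ z : T.N₁₂, ∃ m : ℕ, ∃ n₁ ∈ (a₁ • ⊤ : Submodule (𝔠.R₁ A) T.N₁),
      T.ρ₁ n₁ = (𝔠.res₁ A (𝔠.xA A)) ^ m • (r • z) := by
    intro r hr
    rw [← e₁] at hr
    induction hr using Submodule.span_induction with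
    | mem r hr =>
      obtain ⟨a, ha, rfl⟩ := hr
      intro z
      obtain ⟨m, n', e⟩ := hT.surj₁ z
      refine ⟨m, a • n', Submodule.smul_mem_smul ha trivial, ?_⟩
      rw [T.ρ₁.map_smulₛₗ, e, smul_comm]
      rfl
    | zero =>
      intro z
      exact ⟨0, 0, zero_mem _, by rw [T.ρ₁.map_zero, zero_smul, smul_zero]⟩
    | add r s _ _ hr hs =>
      intro z
      rw [add_smul]
      exact hadd _ _ (hr z) (hs z)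
    | smul c r _ hr =>
      intro z
      rw [smul_eq_mul, mul_comm, mul_smul]
      exact hr (c • z)
  induction hn using Submodule.smul_induction_on' with
  | smul r hr z _ => exact key r hr z
  | add x _ y _ hx hy => exact hadd _ _ hx hy

/-- generation of `𝔞₁₂ N₁₂` by `𝔞₂ N₂` up to powers of `y` -/
lemma IsQC.sat₂ (hT : T.IsQC) (e₂ : a₂.map (𝔠.res₂ A) = a₁₂) (n : T.N₁₂)
    (hn : n ∈ (a₁₂ • ⊤ : Submodule (𝔠.R₁₂ A) T.N₁₂)) :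
    ∃ m : ℕ, ∃ n₂ ∈ (a₂ • ⊤ : Submodule (𝔠.R₂ A) T.N₂),
      T.ρ₂ n₂ = (𝔠.res₂ A (𝔠.yA A)) ^ m • n := by
  have hadd : ∀ n n' : T.N₁₂,
      (∃ m : ℕ, ∃ n₂ ∈ (a₂ • ⊤ : Submodule (𝔠.R₂ A) T.N₂),
        T.ρ₂ n₂ = (𝔠.res₂ A (𝔠.yA A)) ^ m • n) →
      (∃ m : ℕ, ∃ n₂ ∈ (a₂ • ⊤ : Submodule (𝔠.R₂ A) T.N₂),
        T.ρ₂ n₂ = (𝔠.res₂ A (𝔠.yA A)) ^ m • n') →
      (∃ m : ℕ, ∃ n₂ ∈ (a₂ • ⊤ : Submodule (𝔠.R₂ A) T.N₂),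
        T.ρ₂ n₂ = (𝔠.res₂ A (𝔠.yA A)) ^ m • (n + n')) := by
    rintro n n' ⟨m, n₂, hn₂, e⟩ ⟨m', n₂', hn₂', e'⟩
    refine ⟨m' + m, (𝔠.yA A) ^ m' • n₂ + (𝔠.yA A) ^ m • n₂',
      add_mem (Submodule.smul_mem _ _ hn₂) (Submodule.smul_mem _ _ hn₂'), ?_⟩
    rw [T.ρ₂.map_add, T.ρ₂.map_smulₛₗ, T.ρ₂.map_smulₛₗ, e, e', smul_smul, smul_smul, smul_add]
    congr 1
    · congr 1
      simp [pow_add]
    · congr 1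
      simp [pow_add, mul_comm]
  have key : ∀ r ∈ a₁₂, ∀ z : T.N₁₂, ∃ m : ℕ, ∃ n₂ ∈ (a₂ • ⊤ : Submodule (𝔠.R₂ A) T.N₂),
      T.ρ₂ n₂ = (𝔠.res₂ A (𝔠.yA A)) ^ m • (r • z) := by
    intro r hr
    rw [← e₂] at hr
    induction hr using Submodule.span_induction with
    | mem r hr =>
      obtain ⟨a, ha, rfl⟩ := hr
      intro z
      obtain ⟨m, n', e⟩ := hT.surj₂ z
      refine ⟨m, a • n', Submodule.smul_mem_smul ha trivial, ?_⟩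
      rw [T.ρ₂.map_smulₛₗ, e, smul_comm]
      rfl
    | zero =>
      intro z
      exact ⟨0, 0, zero_mem _, by rw [T.ρ₂.map_zero, zero_smul, smul_zero]⟩
    | add r s _ _ hr hs =>
      intro z
      rw [add_smul]
      exact hadd _ _ (hr z) (hs z)
    | smul c r _ hr =>
      intro z
      rw [smul_eq_mul, mul_comm, mul_smul]
      exact hr (c • z)
  induction hn using Submodule.smul_induction_on' with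
  | smul r hr z _ => exact key r hr z
  | add x _ y _ hx hy => exact hadd _ _ hx hy

/-- `𝔞 T` is quasi-coherent. -/
lemma IsQC.idealSMul (hT : T.IsQC) (e₁ : a₁.map (𝔠.res₁ A) = a₁₂)
    (e₂ : a₂.map (𝔠.res₂ A) = a₁₂) : (T.idealSMul a₁ a₂ a₁₂ e₁.le e₂.le).IsQC :=
  IsQC.sub hT (hT.sat₁ e₁) (hT.sat₂ e₂)

/-- `T / 𝔞 T` is quasi-coherent. -/
lemma IsQC.idealQuot (hT : T.IsQC) (e₁ : a₁.map (𝔠.res₁ A) = a₁₂)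
    (e₂ : a₂.map (𝔠.res₂ A) = a₁₂) : (T.idealQuot a₁ a₂ a₁₂ e₁.le e₂.le).IsQC :=
  IsQC.quot hT (hT.sat₁ e₁) (hT.sat₂ e₂)

/-- `𝔞 T` is invertible if `T` and the ideals `𝔞₁`, `𝔞₂` are. -/
lemma IsInvertible.idealSMul (hT : T.IsInvertible) (e₁ : a₁.map (𝔠.res₁ A) = a₁₂)
    (e₂ : a₂.map (𝔠.res₂ A) = a₁₂) (i₁ : Module.Invertible (𝔠.R₁ A) a₁)
    (i₂ : Module.Invertible (𝔠.R₂ A) a₂) : (T.idealSMul a₁ a₂ a₁₂ e₁.le e₂.le).IsInvertible where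
  toIsQC := hT.toIsQC.idealSMul e₁ e₂
  inv₁ := by
    have := hT.inv₁
    exact Module.Invertible.congr (idealTensorEquiv (M := T.N₁) a₁)
  inv₂ := by
    have := hT.inv₂
    exact Module.Invertible.congr (idealTensorEquiv (M := T.N₂) a₂)

end IdealSMul

/-! ### The ideal triple -/

section IdealTriple

variable (a₁ : Ideal (𝔠.R₁ A)) (a₂ : Ideal (𝔠.R₂ A)) (a₁₂ : Ideal (𝔠.R₁₂ A))

/-- The triple of ideals `(𝔞₁, 𝔞₂, 𝔞₁₂)` as a sub-triple of the structure sheaf. -/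
noncomputable def idealTriple (h₁ : a₁.map (𝔠.res₁ A) ≤ a₁₂) (h₂ : a₂.map (𝔠.res₂ A) ≤ a₁₂) :
    Triple 𝔠 A :=
  (unit 𝔠 A).sub a₁ a₂ a₁₂ (fun _ hn => h₁ (Ideal.mem_map_of_mem (𝔠.res₁ A) hn))
    (fun _ hn => h₂ (Ideal.mem_map_of_mem (𝔠.res₂ A) hn))

/-- The structure sheaf of the closed subscheme, `O / 𝔞`. -/
noncomputable def idealQuotTriple (h₁ : a₁.map (𝔠.res₁ A) ≤ a₁₂)
    (h₂ : a₂.map (𝔠.res₂ A) ≤ a₁₂) : Triple 𝔠 A :=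
  (unit 𝔠 A).quot a₁ a₂ a₁₂ (fun _ hn => h₁ (Ideal.mem_map_of_mem (𝔠.res₁ A) hn))
    (fun _ hn => h₂ (Ideal.mem_map_of_mem (𝔠.res₂ A) hn))

variable {a₁ a₂ a₁₂}

private lemma unit_mem_smul_top₁₂ (n : 𝔠.R₁₂ A) (hn : n ∈ a₁₂) :
    n ∈ (a₁₂ • ⊤ : Submodule (𝔠.R₁₂ A) (unit 𝔠 A).N₁₂) := by
  have h := Submodule.smul_mem_smul (N := (⊤ : Submodule (𝔠.R₁₂ A) (unit 𝔠 A).N₁₂))
    (n := (1 : 𝔠.R₁₂ A)) hn trivial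
  have e : n * (1 : 𝔠.R₁₂ A) = n := mul_one n
  exact e ▸ h

private lemma unit_mem_of_mem_smul_top₁ (n : 𝔠.R₁ A)
    (hn : n ∈ (a₁ • ⊤ : Submodule (𝔠.R₁ A) (unit 𝔠 A).N₁)) : n ∈ a₁ := by
  induction hn using Submodule.smul_induction_on' with
  | smul r hr z _ => exact a₁.mul_mem_right (show 𝔠.R₁ A from z) hr
  | add x _ y _ hx hy => exact a₁.add_mem hx hy

private lemma unit_mem_of_mem_smul_top₂ (n : 𝔠.R₂ A)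
    (hn : n ∈ (a₂ • ⊤ : Submodule (𝔠.R₂ A) (unit 𝔠 A).N₂)) : n ∈ a₂ := by
  induction hn using Submodule.smul_induction_on' with
  | smul r hr z _ => exact a₂.mul_mem_right (show 𝔠.R₂ A from z) hr
  | add x _ y _ hx hy => exact a₂.add_mem hx hy

private lemma unit_sat₁ (hU : (unit 𝔠 A).IsQC) (e₁ : a₁.map (𝔠.res₁ A) = a₁₂)
    (n : 𝔠.R₁₂ A) (hn : n ∈ a₁₂) :
    ∃ m : ℕ, ∃ n₁ ∈ a₁, (unit 𝔠 A).ρ₁ n₁ = (𝔠.res₁ A (𝔠.xA A)) ^ m • n := by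
  obtain ⟨m, n₁, hn₁, e⟩ := hU.sat₁ e₁ n (unit_mem_smul_top₁₂ n hn)
  exact ⟨m, n₁, unit_mem_of_mem_smul_top₁ n₁ hn₁, e⟩

private lemma unit_sat₂ (hU : (unit 𝔠 A).IsQC) (e₂ : a₂.map (𝔠.res₂ A) = a₁₂)
    (n : 𝔠.R₁₂ A) (hn : n ∈ a₁₂) :
    ∃ m : ℕ, ∃ n₂ ∈ a₂, (unit 𝔠 A).ρ₂ n₂ = (𝔠.res₂ A (𝔠.yA A)) ^ m • n := by
  obtain ⟨m, n₂, hn₂, e⟩ := hU.sat₂ e₂ n (unit_mem_smul_top₁₂ n hn)
  exact ⟨m, n₂, unit_mem_of_mem_smul_top₂ n₂ hn₂, e⟩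

lemma idealTriple_isQC (hU : (unit 𝔠 A).IsQC) (e₁ : a₁.map (𝔠.res₁ A) = a₁₂)
    (e₂ : a₂.map (𝔠.res₂ A) = a₁₂) : (idealTriple a₁ a₂ a₁₂ e₁.le e₂.le).IsQC :=
  IsQC.sub hU (unit_sat₁ hU e₁) (unit_sat₂ hU e₂)

lemma idealQuotTriple_isQC (hU : (unit 𝔠 A).IsQC) (e₁ : a₁.map (𝔠.res₁ A) = a₁₂)
    (e₂ : a₂.map (𝔠.res₂ A) = a₁₂) : (idealQuotTriple a₁ a₂ a₁₂ e₁.le e₂.le).IsQC :=
  IsQC.quot hU (unit_sat₁ hU e₁) (unit_sat₂ hU e₂)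

lemma idealTriple_isInvertible (hU : (unit 𝔠 A).IsQC) (e₁ : a₁.map (𝔠.res₁ A) = a₁₂)
    (e₂ : a₂.map (𝔠.res₂ A) = a₁₂) (i₁ : Module.Invertible (𝔠.R₁ A) a₁)
    (i₂ : Module.Invertible (𝔠.R₂ A) a₂) : (idealTriple a₁ a₂ a₁₂ e₁.le e₂.le).IsInvertible where
  toIsQC := idealTriple_isQC hU e₁ e₂
  inv₁ := i₁
  inv₂ := i₂

/-- `𝔞 ⊗ T ≅ 𝔞 T` when the three components of `T` are flat. -/
noncomputable def idealTensorIso (T : Triple 𝔠 A) (h₁ : a₁.map (𝔠.res₁ A) ≤ a₁₂)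
    (h₂ : a₂.map (𝔠.res₂ A) ≤ a₁₂) [Module.Flat (𝔠.R₁ A) T.N₁] [Module.Flat (𝔠.R₂ A) T.N₂]
    [Module.Flat (𝔠.R₁₂ A) T.N₁₂] :
    Iso ((idealTriple a₁ a₂ a₁₂ h₁ h₂).tensor T) (T.idealSMul a₁ a₂ a₁₂ h₁ h₂) where
  e₁ := idealTensorEquiv (M := T.N₁) a₁
  e₂ := idealTensorEquiv (M := T.N₂) a₂
  e₁₂ := idealTensorEquiv (M := T.N₁₂) a₁₂
  comm₁ n := Subtype.ext
    (idealTensorEquiv_map (M := T.N₁) (N := T.N₁₂) a₁ a₁₂ (idealTriple a₁ a₂ a₁₂ h₁ h₂).ρ₁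
      (fun _ => rfl) T.ρ₁ n)
  comm₂ n := Subtype.ext
    (idealTensorEquiv_map (M := T.N₂) (N := T.N₁₂) a₂ a₁₂ (idealTriple a₁ a₂ a₁₂ h₁ h₂).ρ₂
      (fun _ => rfl) T.ρ₂ n)

end IdealTriple

end Triple

end Fermat.Agent.S25
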