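/-
S25-T3: internal Hom of triples: quasi-coherence, invertibility, base change, evaluation,
global sections = morphisms.   Owner: helper184.
-/
import Fermat.Agent.S25.Triple.IHomMod
import Fermat.Agent.S25.Triple.BCLemmas
import Fermat.Agent.S25.Triple.IsoLemmas
import Fermat.Agent.S25.Triple.Tensor

set_option autoImplicit false

universe u

open scoped TensorProduct

namespace Fermat.Agent.S25

namespace SemiExt

section Square

variable {R S R' S' : Type u} [CommRing R] [CommRing S] [CommRing R'] [CommRing S']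
  {σ : R →+* S} {σ' : R' →+* S'} {r : R →+* R'} {s : S →+* S'}
  {M M' L L' N N' K K' : Type u}
  [AddCommGroup M] [AddCommGroup M'] [AddCommGroup L] [AddCommGroup L']
  [AddCommGroup N] [AddCommGroup N'] [AddCommGroup K] [AddCommGroup K']
  [Module R M] [Module R M'] [Module S L] [Module S L']
  [Module R' N] [Module R' N'] [Module S' K] [Module S' K']

/-- Extension of linear maps is compatible with a commutative square of semilinear maps. -/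
theorem ext_ext_comm {ρ : M →ₛₗ[σ] L} {ρ' : M' →ₛₗ[σ] L'}
    {τ : N →ₛₗ[σ'] K} {τ' : N' →ₛₗ[σ'] K'}
    {b : M →ₛₗ[r] N} {b' : M' →ₛₗ[r] N'} {c : L →ₛₗ[s] K} {c' : L' →ₛₗ[s] K'}
    (h : ∀ n, c (ρ n) = τ (b n)) (h' : ∀ n, c' (ρ' n) = τ' (b' n))
    (hρ : HasExt ρ ρ') (hτ : IsBCMap σ' τ) (hb : IsBCMap r b) (hc : HasExt c c')
    (f : M →ₗ[R] M') :
    ext c c' (ext ρ ρ' f) = ext τ τ' (ext b b' f) := by
  have hτ' : HasExt τ τ' := hasExt_of_isBCMap hτ τ'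
  have hb' : HasExt b b' := hasExt_of_isBCMap hb b'
  refine hτ.hom_ext fun m => ?_
  have key : (ext c c' (ext ρ ρ' f)).comp τ = (ext τ τ' (ext b b' f)).comp τ := by
    refine hb.semilinear_ext fun n => ?_
    simp only [LinearMap.comp_apply]
    rw [ext_apply hτ', ext_apply hb', ← h, ext_apply hc, ext_apply hρ, h']
  exact congrArg (fun F => F m) key

end Square

section Ev

variable {R S : Type u} [CommRing R] [CommRing S] {φ : R →+* S}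
  {M M' N N' : Type u} [AddCommGroup M] [Module R M] [AddCommGroup M'] [Module R M']
  [AddCommGroup N] [Module S N] [AddCommGroup N'] [Module S N']
  {ρ : M →ₛₗ[φ] N} {ρ' : M' →ₛₗ[φ] N'}

/-- evaluation is compatible with extension -/
theorem evEquiv_map_comm (hE : HasExt ρ ρ') [Module.Invertible R M] [Module.Invertible S N]
    (n : M ⊗[R] (M →ₗ[R] M')) :
    InvHom.evEquiv S N N' (TensorProduct.map ρ (ext ρ ρ') n) = ρ' (InvHom.evEquiv R M M' n) := by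
  induction n using TensorProduct.induction_on with
  | zero => simp only [map_zero]
  | tmul x f => simp only [TensorProduct.map_tmul, InvHom.evEquiv_tmul, ext_apply hE]
  | add x y hx hy => simp only [map_add, hx, hy]

end Ev

end SemiExt

variable {k : Type u} [Field k]

namespace Triple

variable {𝔠 : CurveCharts k} {A : Type u} [CommRing A] [Algebra k A]

theorem IsQC.bc₁ {T : Triple 𝔠 A} (h : T.IsQC) : IsBCMap (𝔠.res₁ A).toRingHom T.ρ₁ :=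
  ((isQC_iff T).1 h).1

theorem IsQC.bc₂ {T : Triple 𝔠 A} (h : T.IsQC) : IsBCMap (𝔠.res₂ A).toRingHom T.ρ₂ :=
  ((isQC_iff T).1 h).2

theorem IsQC.hasExt₁ {T : Triple 𝔠 A} (h : T.IsQC) (T' : Triple 𝔠 A) :
    SemiExt.HasExt T.ρ₁ T'.ρ₁ := SemiExt.hasExt_of_isBCMap h.bc₁ _

theorem IsQC.hasExt₂ {T : Triple 𝔠 A} (h : T.IsQC) (T' : Triple 𝔠 A) :
    SemiExt.HasExt T.ρ₂ T'.ρ₂ := SemiExt.hasExt_of_isBCMap h.bc₂ _

lemma ihom_ρ₁ (T T' : Triple 𝔠 A) : (ihom T T').ρ₁ = SemiExt.ext T.ρ₁ T'.ρ₁ := rfl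
lemma ihom_ρ₂ (T T' : Triple 𝔠 A) : (ihom T T').ρ₂ = SemiExt.ext T.ρ₂ T'.ρ₂ := rfl

/-- characterisation of the restriction maps of `ihom` -/
lemma ihom_ρ₁_apply {T : Triple 𝔠 A} (h : T.IsQC) (T' : Triple 𝔠 A)
    (f : T.N₁ →ₗ[𝔠.R₁ A] T'.N₁) (n : T.N₁) :
    (show T.N₁₂ →ₗ[𝔠.R₁₂ A] T'.N₁₂ from (ihom T T').ρ₁ f) (T.ρ₁ n) = T'.ρ₁ (f n) :=
  SemiExt.ext_apply (h.hasExt₁ T') f n

lemma ihom_ρ₂_apply {T : Triple 𝔠 A} (h : T.IsQC) (T' : Triple 𝔠 A)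
    (f : T.N₂ →ₗ[𝔠.R₂ A] T'.N₂) (n : T.N₂) :
    (show T.N₁₂ →ₗ[𝔠.R₁₂ A] T'.N₁₂ from (ihom T T').ρ₂ f) (T.ρ₂ n) = T'.ρ₂ (f n) :=
  SemiExt.ext_apply (h.hasExt₂ T') f n

lemma ihom_ρ₁_eq_iff {T : Triple 𝔠 A} (h : T.IsQC) (T' : Triple 𝔠 A)
    (f : T.N₁ →ₗ[𝔠.R₁ A] T'.N₁) (g : T.N₁₂ →ₗ[𝔠.R₁₂ A] T'.N₁₂) :
    (ihom T T').ρ₁ f = g ↔ ∀ n, g (T.ρ₁ n) = T'.ρ₁ (f n) :=
  SemiExt.ext_eq_iff (h.hasExt₁ T') f g

lemma ihom_ρ₂_eq_iff {T : Triple 𝔠 A} (h : T.IsQC) (T' : Triple 𝔠 A)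
    (f : T.N₂ →ₗ[𝔠.R₂ A] T'.N₂) (g : T.N₁₂ →ₗ[𝔠.R₁₂ A] T'.N₁₂) :
    (ihom T T').ρ₂ f = g ↔ ∀ n, g (T.ρ₂ n) = T'.ρ₂ (f n) :=
  SemiExt.ext_eq_iff (h.hasExt₂ T') f g

/-- `ihom T T'` is quasi-coherent for `T` invertible and `T'` quasi-coherent. -/
theorem ihom_isQC {T T' : Triple 𝔠 A} (h : T.IsInvertible) (h' : T'.IsQC) :
    (ihom T T').IsQC := by
  rw [isQC_iff]
  have := h.inv₁
  have := h.inv₂
  exact ⟨SemiExt.isBCMap_ext h.toIsQC.bc₁ h'.bc₁, SemiExt.isBCMap_ext h.toIsQC.bc₂ h'.bc₂⟩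

/-- `ihom T T'` is invertible for `T`, `T'` invertible. -/
theorem ihom_isInvertible {T T' : Triple 𝔠 A} (h : T.IsInvertible) (h' : T'.IsInvertible) :
    (ihom T T').IsInvertible where
  toIsQC := ihom_isQC h h'.toIsQC
  inv₁ := by
    have := h.inv₁
    have := h'.inv₁
    exact InvHom.invertible_hom (𝔠.R₁ A) T.N₁ T'.N₁
  inv₂ := by
    have := h.inv₂
    have := h'.inv₂
    exact InvHom.invertible_hom (𝔠.R₂ A) T.N₂ T'.N₂

theorem dual_isInvertible {T : Triple 𝔠 A} (h : T.IsInvertible) : (dual T).IsInvertible :=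
  ihom_isInvertible h unit_isInvertible

/-- Base change commutes with `ihom` (first argument invertible). -/
noncomputable def BaseChange.ihom {A' : Type u} [CommRing A'] [Algebra k A'] {φ : A →ₐ[k] A'}
    {T T' : Triple 𝔠 A} {S S' : Triple 𝔠 A'} (hT : T.IsInvertible)
    (b : BaseChange φ T S) (b' : BaseChange φ T' S') :
    BaseChange φ (T.ihom T') (S.ihom S') where
  β₁ := SemiExt.ext b.β₁ b'.β₁
  β₂ := SemiExt.ext b.β₂ b'.β₂
  β₁₂ := SemiExt.ext b.β₁₂ b'.β₁₂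
  comm₁ := SemiExt.ext_ext_comm b.comm₁ b'.comm₁ (hT.toIsQC.hasExt₁ T') (b.isQC hT.toIsQC).bc₁
    b.h₁ (SemiExt.hasExt_of_isBCMap b.h₁₂ _)
  comm₂ := SemiExt.ext_ext_comm b.comm₂ b'.comm₂ (hT.toIsQC.hasExt₂ T') (b.isQC hT.toIsQC).bc₂
    b.h₂ (SemiExt.hasExt_of_isBCMap b.h₁₂ _)
  isBC₁ := by
    have := hT.inv₁
    exact SemiExt.isBCMap_ext b.h₁ b'.h₁
  isBC₂ := by
    have := hT.inv₂
    exact SemiExt.isBCMap_ext b.h₂ b'.h₂
  isBC₁₂ := by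
    have := hT.inv₁₂
    exact SemiExt.isBCMap_ext b.h₁₂ b'.h₁₂

/-- Base change commutes with the dual. -/
noncomputable def BaseChange.dual {A' : Type u} [CommRing A'] [Algebra k A'] {φ : A →ₐ[k] A'}
    {T : Triple 𝔠 A} {S : Triple 𝔠 A'} (hT : T.IsInvertible) (b : BaseChange φ T S) :
    BaseChange φ T.dual S.dual :=
  BaseChange.ihom hT b (BaseChange.unit φ)

/-- Evaluation `T ⊗ ihom T T' ≅ T'` for invertible `T`. -/
noncomputable def evIso {T : Triple 𝔠 A} (h : T.IsInvertible) (T' : Triple 𝔠 A) :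
    Iso (T.tensor (ihom T T')) T' where
  e₁ := haveI := h.inv₁; InvHom.evEquiv (𝔠.R₁ A) T.N₁ T'.N₁
  e₂ := haveI := h.inv₂; InvHom.evEquiv (𝔠.R₂ A) T.N₂ T'.N₂
  e₁₂ := haveI := h.inv₁₂; InvHom.evEquiv (𝔠.R₁₂ A) T.N₁₂ T'.N₁₂
  comm₁ := fun n =>
    haveI := h.inv₁
    haveI := h.inv₁₂
    SemiExt.evEquiv_map_comm (h.toIsQC.hasExt₁ T') n
  comm₂ := fun n =>
    haveI := h.inv₂
    haveI := h.inv₁₂
    SemiExt.evEquiv_map_comm (h.toIsQC.hasExt₂ T') n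

/-- `T ⊗ T^∨ ≅ O` for invertible `T`. -/
noncomputable def tensorDualIso {T : Triple 𝔠 A} (h : T.IsInvertible) :
    Iso (T.tensor (dual T)) (unit 𝔠 A) := evIso h (unit 𝔠 A)

end Triple

end Fermat.Agent.S25
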