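/-
S25-T3 (calculus): formal consequences of `evIso : T ⊗ ℋom(T, T') ≅ T'`.   Owner: helper25.

* `InvHom.rigid_hom`, `IsRigid.ihom`
* `tensorCancel`, `ihomUnique` (`ℋom(T,T')` is characterised by `T ⊗ X ≅ T'`)
* `Iso.ihom`, `ihomTensor`, `ihomUnit`, `ihomSelf`, `ihomTensorLeft`, `ihomIhom`, `isoTensorOfIhom`
-/
import Fermat.Agent.S25.Triple.IHomLemmas

set_option autoImplicit false

universe u

open scoped TensorProduct

namespace Fermat.Agent.S25

namespace InvHom

/-- `Hom(N, N')` is generated by one element modulo `𝔭` if `N` and `N'` are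
(`N` finite projective). -/
theorem rigid_hom {R : Type u} [CommRing R] (𝔭 : Ideal R) {N N' : Type u} [AddCommGroup N]
    [Module R N] [AddCommGroup N'] [Module R N'] [Module.Finite R N] [Module.Projective R N]
    {n : N} (hn : ∀ m : N, ∃ r : R, m - r • n ∈ 𝔭 • (⊤ : Submodule R N))
    {n' : N'} (hn' : ∀ m : N', ∃ r : R, m - r • n' ∈ 𝔭 • (⊤ : Submodule R N')) :
    ∃ l : N →ₗ[R] N', ∀ μ : N →ₗ[R] N', ∃ r : R,
      μ - r • l ∈ 𝔭 • (⊤ : Submodule R (N →ₗ[R] N')) := by
  obtain ⟨d, e, l, hl⟩ := SemiExt.exists_dualBasis R N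
  choose r hr using fun i => hn (e i)
  let ℓ : N →ₗ[R] R := ∑ i, r i • l i
  have hℓ : ∀ m : N, m - ℓ m • n ∈ 𝔭 • (⊤ : Submodule R N) := by
    intro m
    have : m - ℓ m • n = ∑ i, l i m • (e i - r i • n) := by
      simp only [smul_sub, Finset.sum_sub_distrib, hl m, ℓ, LinearMap.sum_apply,
        LinearMap.smul_apply, smul_eq_mul, Finset.sum_smul, mul_smul]
      congr 1
      exact Finset.sum_congr rfl fun i _ => smul_comm _ _ _
    rw [this]
    exact Submodule.sum_mem _ fun i _ => Submodule.smul_mem _ _ (hr i)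
  -- maps with values in `𝔭 N'`
  have key : ∀ ν : N →ₗ[R] N', (∀ m, ν m ∈ 𝔭 • (⊤ : Submodule R N')) →
      ν ∈ 𝔭 • (⊤ : Submodule R (N →ₗ[R] N')) := by
    intro ν hν
    have h1 : ν = ∑ i, (l i).smulRight (ν (e i)) := by
      ext m
      conv_lhs => rw [← hl m]
      simp
    rw [h1]
    refine Submodule.sum_mem _ fun i _ => ?_
    have h2 : ∀ w ∈ 𝔭 • (⊤ : Submodule R N'),
        (l i).smulRight w ∈ 𝔭 • (⊤ : Submodule R (N →ₗ[R] N')) := by
      intro w hw
      refine Submodule.smul_induction_on hw (fun p hp w _ => ?_) (fun a b ha hb => ?_)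
      · have : (l i).smulRight (p • w) = p • (l i).smulRight w := by
          ext m
          simp only [LinearMap.smulRight_apply, LinearMap.smul_apply]
          rw [smul_comm]
        rw [this]
        exact Submodule.smul_mem_smul hp trivial
      · have : (l i).smulRight (a + b) = (l i).smulRight a + (l i).smulRight b := by
          ext m
          simp
        rw [this]
        exact Submodule.add_mem _ ha hb
    exact h2 _ (hν _)
  have hmap : ∀ (μ : N →ₗ[R] N') (m : N), m ∈ 𝔭 • (⊤ : Submodule R N) →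
      μ m ∈ 𝔭 • (⊤ : Submodule R N') := by
    intro μ m hm
    refine Submodule.smul_induction_on hm (fun p hp w _ => ?_) (fun a b ha hb => ?_)
    · rw [map_smul]
      exact Submodule.smul_mem_smul hp trivial
    · rw [map_add]
      exact Submodule.add_mem _ ha hb
  refine ⟨ℓ.smulRight n', fun μ => ?_⟩
  obtain ⟨c, hc⟩ := hn' (μ n)
  refine ⟨c, key _ fun m => ?_⟩
  have : (μ - c • ℓ.smulRight n') m = μ (m - ℓ m • n) + ℓ m • (μ n - c • n') := by
    simp only [LinearMap.sub_apply, LinearMap.smul_apply, LinearMap.smulRight_apply, map_sub,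
      map_smul, smul_sub]
    rw [smul_comm c (ℓ m) n']
    abel
  rw [this]
  exact Submodule.add_mem _ (hmap μ _ (hℓ m)) (Submodule.smul_mem _ _ hc)

end InvHom

namespace Triple

variable {k : Type u} [Field k] {𝔠 : CurveCharts k} {A : Type u} [CommRing A] [Algebra k A]

theorem IsRigid.ihom {T T' : Triple 𝔠 A} (hT : T.IsInvertible) (h : T.IsRigid) (h' : T'.IsRigid) :
    (ihom T T').IsRigid := by
  have := hT.inv₂
  obtain ⟨n, hn⟩ := h
  obtain ⟨n', hn'⟩ := h'
  exact InvHom.rigid_hom _ hn hn'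

/-- cancellation of an invertible factor -/
noncomputable def tensorCancel {T : Triple 𝔠 A} (h : T.IsInvertible) {X Y : Triple 𝔠 A}
    (e : Iso (T.tensor X) (T.tensor Y)) : Iso X Y :=
  -- X ≅ 𝒪 ⊗ X ≅ (T^∨ ⊗ T) ⊗ X ≅ T^∨ ⊗ (T ⊗ X)
  let c : ∀ Z : Triple 𝔠 A, Iso Z ((dual T).tensor (T.tensor Z)) := fun Z =>
    (unitTensor Z).symm.trans
      ((Iso.tensor (((tensorComm (dual T) T).trans (tensorDualIso h)).symm) (Iso.refl Z)).trans
        (tensorAssoc (dual T) T Z))
  (c X).trans ((Iso.tensor (Iso.refl (dual T)) e).trans (c Y).symm)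

/-- `ℋom(T, T')` is characterised by `T ⊗ X ≅ T'`. -/
noncomputable def ihomUnique {T : Triple 𝔠 A} (h : T.IsInvertible) {T' X : Triple 𝔠 A}
    (e : Iso (T.tensor X) T') : Iso X (ihom T T') :=
  tensorCancel h (e.trans (evIso h T').symm)

/-- functoriality of `ℋom` for isomorphisms -/
noncomputable def Iso.ihom {T T' S S' : Triple 𝔠 A} (hT : T.IsInvertible) (e : Iso T S)
    (e' : Iso T' S') : Iso (ihom T T') (ihom S S') :=
  ihomUnique (hT.of_iso e)
    ((Iso.tensor e.symm (Iso.refl (Triple.ihom T T'))).trans ((evIso hT T').trans e'))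

/-- `ℋom(T, T' ⊗ L) ≅ ℋom(T, T') ⊗ L` -/
noncomputable def ihomTensor {T : Triple 𝔠 A} (hT : T.IsInvertible) (T' L : Triple 𝔠 A) :
    Iso ((ihom T T').tensor L) (ihom T (T'.tensor L)) :=
  ihomUnique hT ((tensorAssoc T (ihom T T') L).symm.trans (Iso.tensor (evIso hT T') (Iso.refl L)))

/-- `ℋom(𝒪, T) ≅ T` -/
noncomputable def ihomUnit (T : Triple 𝔠 A) : Iso T (ihom (unit 𝔠 A) T) :=
  ihomUnique unit_isInvertible (unitTensor T)

/-- `ℋom(T, T) ≅ 𝒪` -/
noncomputable def ihomSelf {T : Triple 𝔠 A} (hT : T.IsInvertible) : Iso (unit 𝔠 A) (ihom T T) :=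
  ihomUnique hT (tensorUnit T)

/-- `ℋom(T ⊗ L, T') ≅ ℋom(T, ℋom(L, T'))` -/
noncomputable def ihomTensorLeft {T L : Triple 𝔠 A} (hT : T.IsInvertible) (hL : L.IsInvertible)
    (T' : Triple 𝔠 A) : Iso (ihom T (ihom L T')) (ihom (T.tensor L) T') :=
  ihomUnique (hT.tensor hL)
    (((Iso.tensor (tensorComm T L) (Iso.refl _)).trans (tensorAssoc L T _)).trans
      ((Iso.tensor (Iso.refl L) (evIso hT _)).trans (evIso hL T')))

/-- `ℋom(ℋom(T, T'), T') ≅ T` -/
noncomputable def ihomIhom {T T' : Triple 𝔠 A} (hT : T.IsInvertible) (hT' : T'.IsInvertible) :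
    Iso T (ihom (ihom T T') T') :=
  ihomUnique (ihom_isInvertible hT hT') ((tensorComm _ _).trans (evIso hT T'))

/-- `T' ≅ T ⊗ X` from `X ≅ ℋom(T,T')` -/
noncomputable def isoTensorOfIhom {T : Triple 𝔠 A} (hT : T.IsInvertible) {T' X : Triple 𝔠 A}
    (e : Iso X (ihom T T')) : Iso (T.tensor X) T' :=
  (Iso.tensor (Iso.refl T) e).trans (evIso hT T')

end Triple

end Fermat.Agent.S25
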