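/-
S25-T2 (continued): tensoring with an invertible triple is exact.   Owner: helper228.
-/
import Fermat.Agent.S25.Triple.Tensor
import Fermat.Agent.S25.Triple.Exact

set_option autoImplicit false

universe u

open scoped TensorProduct
open Function

namespace Fermat.Agent.S25

namespace Triple

variable {k : Type u} [Field k] {𝔠 : CurveCharts k} {A : Type u} [CommRing A] [Algebra k A]

/-- Tensoring (on the left) a componentwise short exact sequence with an invertible triple gives a
short exact sequence. -/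
theorem ShortExact.tensorLeft {L : Triple 𝔠 A} (hL : L.IsInvertible) {T' T T'' : Triple 𝔠 A}
    {f : Hom T' T} {g : Hom T T''} (E : ShortExact f g) :
    ShortExact ((Hom.id L).tensor f) ((Hom.id L).tensor g) := by
  have i₁ := hL.inv₁
  have i₂ := hL.inv₂
  have i₁₂ := hL.inv₁₂
  exact
    { inj₁ := Module.Flat.lTensor_preserves_injective_linearMap (M := L.N₁) f.f₁ E.inj₁
      inj₂ := Module.Flat.lTensor_preserves_injective_linearMap (M := L.N₂) f.f₂ E.inj₂
      inj₁₂ := Module.Flat.lTensor_preserves_injective_linearMap (M := L.N₁₂) f.f₁₂ E.inj₁₂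
      exact₁ := lTensor_exact L.N₁ E.exact₁ E.surj₁
      exact₂ := lTensor_exact L.N₂ E.exact₂ E.surj₂
      exact₁₂ := lTensor_exact L.N₁₂ E.exact₁₂ E.surj₁₂
      surj₁ := LinearMap.lTensor_surjective L.N₁ E.surj₁
      surj₂ := LinearMap.lTensor_surjective L.N₂ E.surj₂
      surj₁₂ := LinearMap.lTensor_surjective L.N₁₂ E.surj₁₂ }

/-- Tensoring (on the right) a componentwise short exact sequence with an invertible triple gives a
short exact sequence. -/
theorem ShortExact.tensorRight {L : Triple 𝔠 A} (hL : L.IsInvertible) {T' T T'' : Triple 𝔠 A}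
    {f : Hom T' T} {g : Hom T T''} (E : ShortExact f g) :
    ShortExact (f.tensor (Hom.id L)) (g.tensor (Hom.id L)) := by
  have i₁ := hL.inv₁
  have i₂ := hL.inv₂
  have i₁₂ := hL.inv₁₂
  exact
    { inj₁ := Module.Flat.rTensor_preserves_injective_linearMap (M := L.N₁) f.f₁ E.inj₁
      inj₂ := Module.Flat.rTensor_preserves_injective_linearMap (M := L.N₂) f.f₂ E.inj₂
      inj₁₂ := Module.Flat.rTensor_preserves_injective_linearMap (M := L.N₁₂) f.f₁₂ E.inj₁₂
      exact₁ := rTensor_exact L.N₁ E.exact₁ E.surj₁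
      exact₂ := rTensor_exact L.N₂ E.exact₂ E.surj₂
      exact₁₂ := rTensor_exact L.N₁₂ E.exact₁₂ E.surj₁₂
      surj₁ := LinearMap.rTensor_surjective L.N₁ E.surj₁
      surj₂ := LinearMap.rTensor_surjective L.N₂ E.surj₂
      surj₁₂ := LinearMap.rTensor_surjective L.N₁₂ E.surj₁₂ }

end Triple

end Fermat.Agent.S25
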