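/-
S25-T3: morphisms of triples = global sections of `ihom`; `H⁰(𝒪) = A`; `End(T) = A` for an
invertible triple; isomorphisms from morphisms.   Owner: helper184.
-/
import Fermat.Agent.S25.Triple.IHomLemmas
import Fermat.Agent.S25.Triple.Exact

set_option autoImplicit false

universe u

open scoped TensorProduct

namespace Fermat.Agent.S25

variable {k : Type u} [Field k]

/-! ### `H⁰(C × Spec A, 𝒪) = A` -/

namespace CurveCharts

variable (𝔠 : CurveCharts k)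

/-- the `k`-linear Čech differential of the curve -/
noncomputable def d₀ : (𝔠.B₁ × 𝔠.B₂) →ₗ[k] 𝔠.B₁₂ :=
  (IsScalarTower.toAlgHom k 𝔠.B₁ 𝔠.B₁₂).toLinearMap.coprod
    (-(IsScalarTower.toAlgHom k 𝔠.B₂ 𝔠.B₁₂).toLinearMap)

/-- the constants -/
noncomputable def ι₀ : k →ₗ[k] (𝔠.B₁ × 𝔠.B₂) :=
  (Algebra.linearMap k 𝔠.B₁).prod (Algebra.linearMap k 𝔠.B₂)

lemma d₀_apply (z : 𝔠.B₁ × 𝔠.B₂) :
    𝔠.d₀ z = algebraMap 𝔠.B₁ 𝔠.B₁₂ z.1 - algebraMap 𝔠.B₂ 𝔠.B₁₂ z.2 := by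
  simp [d₀, sub_eq_add_neg]

lemma algebraMap_B₂_injective : Function.Injective (algebraMap 𝔠.B₂ 𝔠.B₁₂) := by
  have := 𝔠.away₂
  exact IsLocalization.injective 𝔠.B₁₂
    (powers_le_nonZeroDivisors_of_noZeroDivisors (TensorAux.y_ne_zero 𝔠))

lemma exact₀ : Function.Exact 𝔠.ι₀ 𝔠.d₀ := by
  intro z
  constructor
  · intro hz
    rw [d₀_apply, sub_eq_zero] at hz
    obtain ⟨c, hc⟩ := 𝔠.const z.1 z.2 hz
    refine ⟨c, Prod.ext hc.symm ?_⟩
    apply 𝔠.algebraMap_B₂_injective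
    rw [← hz, hc]
    change algebraMap 𝔠.B₂ 𝔠.B₁₂ (algebraMap k 𝔠.B₂ c) = _
    rw [← IsScalarTower.algebraMap_apply, ← IsScalarTower.algebraMap_apply]
  · rintro ⟨c, rfl⟩
    rw [d₀_apply, sub_eq_zero]
    change algebraMap 𝔠.B₁ 𝔠.B₁₂ (algebraMap k 𝔠.B₁ c) = algebraMap 𝔠.B₂ 𝔠.B₁₂ (algebraMap k 𝔠.B₂ c)
    rw [← IsScalarTower.algebraMap_apply, ← IsScalarTower.algebraMap_apply]

variable (A : Type u) [CommRing A] [Algebra k A]

lemma lTensor_d₀ (w : A ⊗[k] (𝔠.B₁ × 𝔠.B₂)) :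
    𝔠.d₀.lTensor A w = 𝔠.res₁ A (TensorProduct.prodRight k k A 𝔠.B₁ 𝔠.B₂ w).1 -
      𝔠.res₂ A (TensorProduct.prodRight k k A 𝔠.B₁ 𝔠.B₂ w).2 := by
  induction w using TensorProduct.induction_on with
  | zero => simp
  | tmul a b =>
    simp only [LinearMap.lTensor_tmul, d₀_apply, TensorProduct.prodRight_tmul,
      TensorAux.res₁_tmul, TensorAux.res₂_tmul, TensorProduct.tmul_sub]
  | add s t hs ht =>
    simp only [map_add, hs, ht, Prod.fst_add, Prod.snd_add]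
    abel

/-- global functions on `C × Spec A` are the elements of `A` -/
theorem exists_const_of_res_eq (z₁ : 𝔠.R₁ A) (z₂ : 𝔠.R₂ A) (h : 𝔠.res₁ A z₁ = 𝔠.res₂ A z₂) :
    ∃ a : A, z₁ = algebraMap A (𝔠.R₁ A) a ∧ z₂ = algebraMap A (𝔠.R₂ A) a := by
  have hex : Function.Exact (𝔠.ι₀.lTensor A) (𝔠.d₀.lTensor A) :=
    Module.Flat.lTensor_exact A 𝔠.exact₀
  set w := (TensorProduct.prodRight k k A 𝔠.B₁ 𝔠.B₂).symm (z₁, z₂) with hw
  have hw0 : 𝔠.d₀.lTensor A w = 0 := by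
    rw [lTensor_d₀, hw, LinearEquiv.apply_symm_apply, h, sub_self]
  obtain ⟨t, ht⟩ := (hex w).1 hw0
  refine ⟨TensorProduct.rid k A t, ?_⟩
  have ht' : t = (TensorProduct.rid k A t) ⊗ₜ[k] (1 : k) := by
    conv_lhs => rw [← (TensorProduct.rid k A).symm_apply_apply t]
    rfl
  have h2 : (z₁, z₂) = TensorProduct.prodRight k k A 𝔠.B₁ 𝔠.B₂ (𝔠.ι₀.lTensor A t) := by
    rw [ht, hw, LinearEquiv.apply_symm_apply]
  rw [ht', LinearMap.lTensor_tmul, TensorProduct.prodRight_tmul] at h2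
  have h3 := congrArg Prod.fst h2
  have h4 := congrArg Prod.snd h2
  have e1 : (𝔠.ι₀ 1).1 = 1 := map_one (algebraMap k 𝔠.B₁)
  have e2 : (𝔠.ι₀ 1).2 = 1 := map_one (algebraMap k 𝔠.B₂)
  simp only [e1, e2] at h3 h4
  exact ⟨h3, h4⟩

lemma algebraMap_R₁_injective : Function.Injective (algebraMap A (𝔠.R₁ A)) :=
  Algebra.TensorProduct.includeLeft_injective (S := A) (algebraMap k 𝔠.B₁).injective

lemma algebraMap_R₂_injective : Function.Injective (algebraMap A (𝔠.R₂ A)) :=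
  Algebra.TensorProduct.includeLeft_injective (S := A) (algebraMap k 𝔠.B₂).injective

end CurveCharts

namespace Triple

variable {𝔠 : CurveCharts k} {A : Type u} [CommRing A] [Algebra k A]

/-! ### `H⁰` of the structure sheaf -/

/-- the constant section `a` of the structure sheaf -/
noncomputable def unitConst (𝔠 : CurveCharts k) (A : Type u) [CommRing A] [Algebra k A] :
    A →ₗ[A] (unit 𝔠 A).H0 where
  toFun a := ⟨(algebraMap A (𝔠.R₁ A) a, algebraMap A (𝔠.R₂ A) a), by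
    rw [LinearMap.mem_ker, δ_apply, sub_eq_zero]
    exact ((𝔠.res₁ A).commutes a).trans ((𝔠.res₂ A).commutes a).symm⟩
  map_add' a b := Subtype.ext (Prod.ext (map_add _ _ _) (map_add _ _ _))
  map_smul' a b := Subtype.ext (Prod.ext (map_mul (algebraMap A (𝔠.R₁ A)) a b)
    (map_mul (algebraMap A (𝔠.R₂ A)) a b))

lemma unitConst_bijective (𝔠 : CurveCharts k) (A : Type u) [CommRing A] [Algebra k A] :
    Function.Bijective (unitConst 𝔠 A) := by
  constructor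
  · intro a b hab
    exact 𝔠.algebraMap_R₁_injective A (congrArg (fun z => z.1.1) hab)
  · rintro ⟨⟨z₁, z₂⟩, hz⟩
    rw [LinearMap.mem_ker, δ_apply, sub_eq_zero] at hz
    obtain ⟨a, h₁, h₂⟩ := 𝔠.exists_const_of_res_eq A z₁ z₂ hz
    exact ⟨a, Subtype.ext (Prod.ext h₁.symm h₂.symm)⟩

/-- `H⁰(C × Spec A, 𝒪) = A` -/
noncomputable def unitH0Equiv (𝔠 : CurveCharts k) (A : Type u) [CommRing A] [Algebra k A] :
    A ≃ₗ[A] (unit 𝔠 A).H0 :=
  LinearEquiv.ofBijective (unitConst 𝔠 A) (unitConst_bijective 𝔠 A)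

@[simp] lemma unitH0Equiv_apply_fst (a : A) :
    (unitH0Equiv 𝔠 A a).1.1 = algebraMap A (𝔠.R₁ A) a := rfl

@[simp] lemma unitH0Equiv_apply_snd (a : A) :
    (unitH0Equiv 𝔠 A a).1.2 = algebraMap A (𝔠.R₂ A) a := rfl

theorem h0_unit (𝔠 : CurveCharts k) (K : Type u) [Field K] [Algebra k K] : (unit 𝔠 K).h0 = 1 := by
  rw [h0, ← (unitH0Equiv 𝔠 K).finrank_eq, Module.finrank_self]

/-! ### Morphisms = global sections of `ihom` -/

theorem Hom.ext₃ {T T' : Triple 𝔠 A} {F G : Hom T T'} (h₁ : F.f₁ = G.f₁) (h₂ : F.f₂ = G.f₂)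
    (h₁₂ : F.f₁₂ = G.f₁₂) : F = G := by
  cases F; cases G; simp_all

/-- a morphism out of a quasi-coherent triple is determined by `f₁` -/
theorem Hom.f₁₂_eq {T T' : Triple 𝔠 A} (h : T.IsQC) (F : Hom T T') :
    F.f₁₂ = SemiExt.ext T.ρ₁ T'.ρ₁ F.f₁ :=
  (SemiExt.ext_unique (h.hasExt₁ T') _ _ F.comm₁).symm

theorem Hom.f₁₂_eq' {T T' : Triple 𝔠 A} (h : T.IsQC) (F : Hom T T') :
    F.f₁₂ = SemiExt.ext T.ρ₂ T'.ρ₂ F.f₂ :=
  (SemiExt.ext_unique (h.hasExt₂ T') _ _ F.comm₂).symm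

theorem Hom.ext_of_isQC {T T' : Triple 𝔠 A} (h : T.IsQC) {F G : Hom T T'} (h₁ : F.f₁ = G.f₁)
    (h₂ : F.f₂ = G.f₂) : F = G :=
  Hom.ext₃ h₁ h₂ (by rw [F.f₁₂_eq h, G.f₁₂_eq h, h₁])

/-- a global section of `ihom T T'` is a morphism `T → T'` -/
noncomputable def homOfH0 {T : Triple 𝔠 A} (h : T.IsQC) (T' : Triple 𝔠 A)
    (z : (ihom T T').H0) : Hom T T' where
  f₁ := z.1.1
  f₂ := z.1.2
  f₁₂ := SemiExt.ext T.ρ₁ T'.ρ₁ z.1.1
  comm₁ := SemiExt.ext_apply (h.hasExt₁ T') _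
  comm₂ := by
    have hz : SemiExt.ext T.ρ₁ T'.ρ₁ z.1.1 = SemiExt.ext T.ρ₂ T'.ρ₂ z.1.2 := by
      have := z.2
      rw [LinearMap.mem_ker, δ_apply, sub_eq_zero] at this
      exact this
    rw [hz]
    exact SemiExt.ext_apply (h.hasExt₂ T') _

/-- a morphism `T → T'` is a global section of `ihom T T'` -/
noncomputable def Hom.toH0 {T T' : Triple 𝔠 A} (h : T.IsQC) (F : Hom T T') : (ihom T T').H0 :=
  ⟨(F.f₁, F.f₂), by
    rw [LinearMap.mem_ker, δ_apply, sub_eq_zero]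
    exact (F.f₁₂_eq h).symm.trans (F.f₁₂_eq' h)⟩

/-- `Hom(T, T') = H⁰(ihom T T')` -/
noncomputable def homEquivH0 {T : Triple 𝔠 A} (h : T.IsQC) (T' : Triple 𝔠 A) :
    Hom T T' ≃ (ihom T T').H0 where
  toFun F := F.toH0 h
  invFun z := homOfH0 h T' z
  left_inv _ := Hom.ext_of_isQC h rfl rfl
  right_inv _ := rfl

@[simp] lemma homOfH0_f₁ {T : Triple 𝔠 A} (h : T.IsQC) (T' : Triple 𝔠 A) (z : (ihom T T').H0) :
    (homOfH0 h T' z).f₁ = z.1.1 := rfl
@[simp] lemma homOfH0_f₂ {T : Triple 𝔠 A} (h : T.IsQC) (T' : Triple 𝔠 A) (z : (ihom T T').H0) :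
    (homOfH0 h T' z).f₂ = z.1.2 := rfl

/-! ### Homotheties; `End(T) = A` -/

/-- multiplication by `a : A` -/
noncomputable def Hom.homothety (T : Triple 𝔠 A) (a : A) : Hom T T where
  f₁ := algebraMap A (𝔠.R₁ A) a • LinearMap.id
  f₂ := algebraMap A (𝔠.R₂ A) a • LinearMap.id
  f₁₂ := algebraMap A (𝔠.R₁₂ A) a • LinearMap.id
  comm₁ n := by
    simp only [LinearMap.smul_apply, LinearMap.id_apply]
    rw [T.ρ₁.map_smulₛₗ]
    congr 1
    exact ((𝔠.res₁ A).commutes a).symm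
  comm₂ n := by
    simp only [LinearMap.smul_apply, LinearMap.id_apply]
    rw [T.ρ₂.map_smulₛₗ]
    congr 1
    exact ((𝔠.res₂ A).commutes a).symm

lemma Hom.homothety_f₁_apply (T : Triple 𝔠 A) (a : A) (n : T.N₁) :
    (Hom.homothety T a).f₁ n = a • n := rfl
lemma Hom.homothety_f₂_apply (T : Triple 𝔠 A) (a : A) (n : T.N₂) :
    (Hom.homothety T a).f₂ n = a • n := rfl
lemma Hom.homothety_f₁₂_apply (T : Triple 𝔠 A) (a : A) (n : T.N₁₂) :
    (Hom.homothety T a).f₁₂ n = a • n := rfl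

lemma Hom.homothety_one (T : Triple 𝔠 A) : Hom.homothety T 1 = Hom.id T :=
  Hom.ext₃ (by simp only [Hom.homothety, Hom.id, map_one, one_smul])
    (by simp only [Hom.homothety, Hom.id, map_one, one_smul])
    (by simp only [Hom.homothety, Hom.id, map_one, one_smul])

lemma Hom.homothety_injective {T : Triple 𝔠 A} (h : T.IsInvertible) :
    Function.Injective (Hom.homothety T) := by
  intro a b hab
  have := h.inv₁
  apply 𝔠.algebraMap_R₁_injective A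
  refine eq_of_smul_eq_smul (α := T.N₁) fun n => ?_
  exact congrArg (fun F : Hom T T => F.f₁ n) hab

/-- `End(T) = A` for an invertible triple -/
theorem Hom.exists_homothety {T : Triple 𝔠 A} (h : T.IsInvertible) (F : Hom T T) :
    ∃ a : A, F = Hom.homothety T a := by
  have i₁ := h.inv₁
  have i₂ := h.inv₂
  have i₁₂ := h.inv₁₂
  obtain ⟨r₁, hr₁, -⟩ := InvHom.exists_unique_smul F.f₁
  obtain ⟨r₂, hr₂, -⟩ := InvHom.exists_unique_smul F.f₂
  have e₁ : F.f₁₂ = (𝔠.res₁ A r₁) • LinearMap.id := by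
    refine h.toIsQC.bc₁.hom_ext fun m => ?_
    rw [F.comm₁, hr₁, T.ρ₁.map_smulₛₗ]
    rfl
  have e₂ : F.f₁₂ = (𝔠.res₂ A r₂) • LinearMap.id := by
    refine h.toIsQC.bc₂.hom_ext fun m => ?_
    rw [F.comm₂, hr₂, T.ρ₂.map_smulₛₗ]
    rfl
  have e : 𝔠.res₁ A r₁ = 𝔠.res₂ A r₂ := by
    refine eq_of_smul_eq_smul (α := T.N₁₂) fun n => ?_
    have := congrArg (fun G : T.N₁₂ →ₗ[𝔠.R₁₂ A] T.N₁₂ => G n) (e₁.symm.trans e₂)
    simpa using this
  obtain ⟨a, ha₁, ha₂⟩ := 𝔠.exists_const_of_res_eq A r₁ r₂ e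
  refine ⟨a, Hom.ext_of_isQC h.toIsQC ?_ ?_⟩
  · ext n
    rw [hr₁, ha₁]
    rfl
  · ext n
    rw [hr₂, ha₂]
    rfl

theorem Hom.exists_unique_homothety {T : Triple 𝔠 A} (h : T.IsInvertible) (F : Hom T T) :
    ∃! a : A, F = Hom.homothety T a := by
  obtain ⟨a, ha⟩ := Hom.exists_homothety h F
  exact ⟨a, ha, fun b hb => Hom.homothety_injective h (hb.symm.trans ha)⟩

/-! ### Isomorphisms from morphisms -/

/-- a morphism which is bijective on all three charts is an isomorphism -/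
noncomputable def Iso.ofBijective {T T' : Triple 𝔠 A} (F : Hom T T')
    (h₁ : Function.Bijective F.f₁) (h₂ : Function.Bijective F.f₂)
    (h₁₂ : Function.Bijective F.f₁₂) : Iso T T' where
  e₁ := LinearEquiv.ofBijective F.f₁ h₁
  e₂ := LinearEquiv.ofBijective F.f₂ h₂
  e₁₂ := LinearEquiv.ofBijective F.f₁₂ h₁₂
  comm₁ := F.comm₁
  comm₂ := F.comm₂

/-- mutually inverse morphisms give an isomorphism -/
noncomputable def Iso.ofHoms {T T' : Triple 𝔠 A} (F : Hom T T') (G : Hom T' T)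
    (hGF : G.comp F = Hom.id T) (hFG : F.comp G = Hom.id T') : Iso T T' where
  e₁ := LinearEquiv.ofLinear F.f₁ G.f₁ (congrArg Hom.f₁ hFG) (congrArg Hom.f₁ hGF)
  e₂ := LinearEquiv.ofLinear F.f₂ G.f₂ (congrArg Hom.f₂ hFG) (congrArg Hom.f₂ hGF)
  e₁₂ := LinearEquiv.ofLinear F.f₁₂ G.f₁₂ (congrArg Hom.f₁₂ hFG) (congrArg Hom.f₁₂ hGF)
  comm₁ := F.comm₁
  comm₂ := F.comm₂

private lemma bijective_of_comp_smul {R : Type u} [CommRing R] {M M' : Type u} [AddCommGroup M]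
    [Module R M] [AddCommGroup M'] [Module R M'] [Module.Invertible R M] [Module.Invertible R M']
    (f : M →ₗ[R] M') (g : M' →ₗ[R] M) (r : R) (hr : IsUnit r) (h : ∀ m, g (f m) = r • m) :
    Function.Bijective f := by
  obtain ⟨u, rfl⟩ := hr
  have hb : Function.Bijective (g ∘ f) := by
    have : (g ∘ f) = fun m => (u : R) • m := funext h
    rw [this]
    exact MulAction.bijective u
  have hg : Function.Bijective g :=
    Module.Invertible.bijective_of_surjective (Function.Surjective.of_comp hb.2)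
  exact (Function.Bijective.of_comp_iff' hg f).1 hb

/-- if `G ∘ F` is multiplication by a unit, `F` is an isomorphism (`T`, `T'` invertible) -/
noncomputable def Iso.ofCompHomothety {T T' : Triple 𝔠 A} (hT : T.IsInvertible)
    (hT' : T'.IsInvertible) (F : Hom T T') (G : Hom T' T) (a : A) (ha : IsUnit a)
    (h : G.comp F = Hom.homothety T a) : Iso T T' :=
  Iso.ofBijective F
    (haveI := hT.inv₁; haveI := hT'.inv₁
      bijective_of_comp_smul F.f₁ G.f₁ _ (ha.map (algebraMap A (𝔠.R₁ A)))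
        fun m => congrArg (fun H : Hom T T => H.f₁ m) h)
    (haveI := hT.inv₂; haveI := hT'.inv₂
      bijective_of_comp_smul F.f₂ G.f₂ _ (ha.map (algebraMap A (𝔠.R₂ A)))
        fun m => congrArg (fun H : Hom T T => H.f₂ m) h)
    (haveI := hT.inv₁₂; haveI := hT'.inv₁₂
      bijective_of_comp_smul F.f₁₂ G.f₁₂ _ (ha.map (algebraMap A (𝔠.R₁₂ A)))
        fun m => congrArg (fun H : Hom T T => H.f₁₂ m) h)

end Triple

end Fermat.Agent.S25
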