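/-
S25-T3: further lemmas on the internal Hom of triples: rigidity, functoriality for isomorphisms,
cancellation, `ihom T T' ≅ T^∨ ⊗ T'`, base change of morphisms.   Owner: helper184.
-/
import Fermat.Agent.S25.Triple.HomLemmas
import Fermat.Agent.S25.Triple.IHomCalc

set_option autoImplicit false

universe u

open scoped TensorProduct

namespace Fermat.Agent.S25

/-! ### Module-level lemmas -/

namespace InvHom

variable {R : Type u} [CommRing R] {M M' : Type u} [AddCommGroup M] [Module R M]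
  [AddCommGroup M'] [Module R M']

lemma map_mem_smul_top (I : Ideal R) (f : M →ₗ[R] M') {m : M}
    (hm : m ∈ I • (⊤ : Submodule R M)) : f m ∈ I • (⊤ : Submodule R M') := by
  induction hm using Submodule.smul_induction_on' with
  | smul r hr m _ =>
    rw [map_smul]
    exact Submodule.smul_mem_smul hr Submodule.mem_top
  | add a _ b _ ha hb =>
    rw [map_add]
    exact Submodule.add_mem _ ha hb

lemma map_mem_of_mem_smul_top (I : Ideal R) (f : M →ₗ[R] R) {m : M}
    (hm : m ∈ I • (⊤ : Submodule R M)) : f m ∈ I := by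
  have := map_mem_smul_top I f hm
  simpa using this

lemma smulRight_mem_smul_top (I : Ideal R) (l : M →ₗ[R] R) {x : M'}
    (hx : x ∈ I • (⊤ : Submodule R M')) :
    l.smulRight x ∈ I • (⊤ : Submodule R (M →ₗ[R] M')) := by
  induction hx using Submodule.smul_induction_on' with
  | smul r hr m _ =>
    have : l.smulRight (r • m) = r • l.smulRight m := by
      ext y
      simp only [LinearMap.smulRight_apply, LinearMap.smul_apply]
      rw [smul_comm]
    rw [this]
    exact Submodule.smul_mem_smul hr Submodule.mem_top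
  | add a _ b _ ha hb =>
    have : l.smulRight (a + b) = l.smulRight a + l.smulRight b := by
      ext y
      simp
    rw [this]
    exact Submodule.add_mem _ ha hb

/-- a map from a finite projective module with values in `I M'` lies in `I Hom(M, M')` -/
lemma mem_smul_top_of_forall [Module.Finite R M] [Module.Projective R M] (I : Ideal R)
    (h : M →ₗ[R] M') (hh : ∀ m, h m ∈ I • (⊤ : Submodule R M')) :
    h ∈ I • (⊤ : Submodule R (M →ₗ[R] M')) := by
  obtain ⟨n, e, l, hl⟩ := SemiExt.exists_dualBasis R M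
  have : h = ∑ i, (l i).smulRight (h (e i)) := by
    ext m
    conv_lhs => rw [← hl m]
    simp
  rw [this]
  exact Submodule.sum_mem _ fun i _ => smulRight_mem_smul_top I (l i) (hh (e i))

/-- a functional taking the value `1` modulo `I` at a generator modulo `I` -/
lemma exists_dual_of_gen [Module.Invertible R M] (I : Ideal R) {n : M}
    (hn : ∀ m : M, ∃ r : R, m - r • n ∈ I • (⊤ : Submodule R M)) :
    ∃ l : M →ₗ[R] R, l n - 1 ∈ I := by
  have key : ∀ t : Module.Dual R M ⊗[R] M, ∃ l : M →ₗ[R] R, l n - contractLeft R M t ∈ I := by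
    intro t
    induction t using TensorProduct.induction_on with
    | zero => exact ⟨0, by simp⟩
    | tmul μ m =>
      obtain ⟨r, hr⟩ := hn m
      refine ⟨r • μ, ?_⟩
      have h1 := map_mem_of_mem_smul_top I μ hr
      rw [map_sub, map_smul] at h1
      have : (r • μ) n - contractLeft R M (μ ⊗ₜ m) = -(μ m - r • μ n) := by
        simp [contractLeft_apply]
      rw [this]
      exact I.neg_mem h1
    | add a b ha hb =>
      obtain ⟨l, hl⟩ := ha
      obtain ⟨l', hl'⟩ := hb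
      refine ⟨l + l', ?_⟩
      have : (l + l') n - contractLeft R M (a + b) =
          (l n - contractLeft R M a) + (l' n - contractLeft R M b) := by
        simp only [LinearMap.add_apply, map_add]
        ring
      rw [this]
      exact I.add_mem hl hl'
  obtain ⟨t, ht⟩ := (Module.Invertible.bijective (R := R) (M := M)).2 1
  obtain ⟨l, hl⟩ := key t
  exact ⟨l, by rwa [ht] at hl⟩

end InvHom

namespace SemiExt

variable {R S : Type u} [CommRing R] [CommRing S] {φ : R →+* S}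
  {M M' M'' N N' N'' : Type u} [AddCommGroup M] [Module R M] [AddCommGroup M'] [Module R M']
  [AddCommGroup M''] [Module R M'']
  [AddCommGroup N] [Module S N] [AddCommGroup N'] [Module S N'] [AddCommGroup N''] [Module S N'']
  {ρ : M →ₛₗ[φ] N} {ρ' : M' →ₛₗ[φ] N'} {ρ'' : M'' →ₛₗ[φ] N''}

theorem ext_id (h : HasExt ρ ρ) : ext ρ ρ LinearMap.id = LinearMap.id :=
  ext_unique h _ _ fun _ => rfl

theorem ext_comp (h : HasExt ρ ρ') (h' : HasExt ρ' ρ'') (h'' : HasExt ρ ρ'')
    (g : M' →ₗ[R] M'') (f : M →ₗ[R] M') :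
    ext ρ ρ'' (g ∘ₗ f) = ext ρ' ρ'' g ∘ₗ ext ρ ρ' f :=
  ext_unique h'' _ _ fun n => by
    rw [LinearMap.comp_apply, ext_apply h, ext_apply h', LinearMap.comp_apply]

/-- `ext` is compatible with `arrowCongr` -/
theorem arrowCongr_ext {P P' Q Q' : Type u} [AddCommGroup P] [Module R P] [AddCommGroup P']
    [Module R P'] [AddCommGroup Q] [Module S Q] [AddCommGroup Q'] [Module S Q']
    {τ : P →ₛₗ[φ] Q} {τ' : P' →ₛₗ[φ] Q'} (h : HasExt ρ ρ') (hτ : HasExt τ τ')
    (e : M ≃ₗ[R] P) (e' : M' ≃ₗ[R] P') (ε : N ≃ₗ[S] Q) (ε' : N' ≃ₗ[S] Q')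
    (c : ∀ n, ε (ρ n) = τ (e n)) (c' : ∀ n, ε' (ρ' n) = τ' (e' n)) (f : M →ₗ[R] M') :
    LinearEquiv.arrowCongr ε ε' (ext ρ ρ' f) = ext τ τ' (LinearEquiv.arrowCongr e e' f) := by
  refine (ext_unique hτ _ _ fun n => ?_).symm
  have h1 : ε.symm (τ n) = ρ (e.symm n) := by
    rw [LinearEquiv.symm_apply_eq, c, LinearEquiv.apply_symm_apply]
  rw [LinearEquiv.arrowCongr_apply, LinearEquiv.arrowCongr_apply, h1, ext_apply h, c']

/-- `dualTensorHom` is compatible with `ext` -/
theorem dualTensorHom_map_comm (h : HasExt ρ ρ') (ι : R →ₛₗ[φ] S) (hι : ∀ r, ι r = φ r)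
    (h₀ : HasExt ρ ι) (t : Module.Dual R M ⊗[R] M') :
    dualTensorHom S N N' (TensorProduct.map (ext ρ ι) ρ' t) = ext ρ ρ' (dualTensorHom R M M' t) := by
  induction t using TensorProduct.induction_on with
  | zero => simp only [map_zero]
  | tmul l m' =>
    refine (ext_unique h _ _ fun n => ?_).symm
    rw [TensorProduct.map_tmul, dualTensorHom_apply, dualTensorHom_apply, ρ'.map_smulₛₗ, ← hι]
    congr 1
    exact ext_apply h₀ l n
  | add x y hx hy => simp only [map_add, hx, hy]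

end SemiExt

variable {k : Type u} [Field k]

namespace Triple

variable {𝔠 : CurveCharts k} {A : Type u} [CommRing A] [Algebra k A]

/-! ### Aliases -/

theorem IsQC.ihom {T T' : Triple 𝔠 A} (h : T.IsInvertible) (h' : T'.IsQC) : (ihom T T').IsQC :=
  ihom_isQC h h'

theorem IsInvertible.ihom {T T' : Triple 𝔠 A} (h : T.IsInvertible) (h' : T'.IsInvertible) :
    (ihom T T').IsInvertible := ihom_isInvertible h h'

theorem IsInvertible.dual {T : Triple 𝔠 A} (h : T.IsInvertible) : (dual T).IsInvertible :=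
  dual_isInvertible h

/-! ### Rigidity -/

theorem IsRigid.dual {T : Triple 𝔠 A} (hT : T.IsInvertible) (h : T.IsRigid) : (dual T).IsRigid :=
  IsRigid.ihom hT h unit_isRigid

/-! ### Global sections -/

theorem mem_ker_ihom_δ_iff {T : Triple 𝔠 A} (h : T.IsQC) (T' : Triple 𝔠 A)
    (z : (ihom T T').N₁ × (ihom T T').N₂) :
    z ∈ LinearMap.ker (ihom T T').δ ↔ ∃ F : Hom T T', F.f₁ = z.1 ∧ F.f₂ = z.2 :=
  ⟨fun hz => ⟨homOfH0 h T' ⟨z, hz⟩, rfl, rfl⟩, fun ⟨F, h₁, h₂⟩ => by
    have := (F.toH0 h).2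
    have e : ((F.toH0 h : (ihom T T').H0) : (ihom T T').N₁ × (ihom T T').N₂) = z :=
      Prod.ext h₁ h₂
    rwa [e] at this⟩

/-! ### Functoriality for isomorphisms -/

/-- `ihom` of isomorphisms, explicit form `arrowCongr` (only `T.IsQC` is needed) -/
noncomputable def Iso.ihomOfQC {T T' S S' : Triple 𝔠 A} (hT : T.IsQC) (e : Iso T S) (e' : Iso T' S') :
    Iso (T.ihom T') (S.ihom S') where
  e₁ := LinearEquiv.arrowCongr e.e₁ e'.e₁
  e₂ := LinearEquiv.arrowCongr e.e₂ e'.e₂
  e₁₂ := LinearEquiv.arrowCongr e.e₁₂ e'.e₁₂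
  comm₁ := SemiExt.arrowCongr_ext (hT.hasExt₁ T') ((hT.of_iso e).hasExt₁ S') e.e₁ e'.e₁ e.e₁₂ e'.e₁₂
    e.comm₁ e'.comm₁
  comm₂ := SemiExt.arrowCongr_ext (hT.hasExt₂ T') ((hT.of_iso e).hasExt₂ S') e.e₂ e'.e₂ e.e₁₂ e'.e₁₂
    e.comm₂ e'.comm₂

/-- `dual` of an isomorphism -/
noncomputable def Iso.dual {T S : Triple 𝔠 A} (hT : T.IsQC) (e : Iso T S) :
    Iso T.dual S.dual := Iso.ihomOfQC hT e (Iso.refl _)

/-! ### `T^∨ ⊗ T' ≅ ihom T T'` -/

/-- `T^∨ ⊗ T' ≅ ihom T T'` for invertible `T` -/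
noncomputable def dualTensorIso {T : Triple 𝔠 A} (h : T.IsInvertible) (T' : Triple 𝔠 A) :
    Iso ((dual T).tensor T') (ihom T T') where
  e₁ := haveI := h.inv₁; dualTensorHomEquiv (𝔠.R₁ A) T.N₁ T'.N₁
  e₂ := haveI := h.inv₂; dualTensorHomEquiv (𝔠.R₂ A) T.N₂ T'.N₂
  e₁₂ := haveI := h.inv₁₂; dualTensorHomEquiv (𝔠.R₁₂ A) T.N₁₂ T'.N₁₂
  comm₁ := SemiExt.dualTensorHom_map_comm (h.toIsQC.hasExt₁ T') (unit 𝔠 A).ρ₁ (fun _ => rfl)
    (h.toIsQC.hasExt₁ (unit 𝔠 A))
  comm₂ := SemiExt.dualTensorHom_map_comm (h.toIsQC.hasExt₂ T') (unit 𝔠 A).ρ₂ (fun _ => rfl)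
    (h.toIsQC.hasExt₂ (unit 𝔠 A))

/-- `ihom T T' ≅ T^∨ ⊗ T'` for invertible `T` -/
noncomputable def ihomIsoDualTensor {T : Triple 𝔠 A} (h : T.IsInvertible) (T' : Triple 𝔠 A) :
    Iso (ihom T T') ((dual T).tensor T') := (dualTensorIso h T').symm

/-! ### Cancellation -/

/-- `T^∨ ⊗ (T ⊗ T') ≅ T'` -/
noncomputable def dualTensorTensor {L : Triple 𝔠 A} (h : L.IsInvertible) (T : Triple 𝔠 A) :
    Iso ((dual L).tensor (L.tensor T)) T :=
  ((tensorAssoc (dual L) L T).symm.trans
    ((((tensorComm (dual L) L).trans (tensorDualIso h)).tensor (Iso.refl T)))).trans (unitTensor T)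

/-- an invertible triple can be cancelled on the right -/
noncomputable def tensorCancelRight {L : Triple 𝔠 A} (h : L.IsInvertible) {T T' : Triple 𝔠 A}
    (e : Iso (T.tensor L) (T'.tensor L)) : Iso T T' :=
  tensorCancel h (((tensorComm L T).trans e).trans (tensorComm T' L))

end Triple

end Fermat.Agent.S25
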