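/-
S25-T3: base change of morphisms of triples.   Owner: helper184.
-/
import Fermat.Agent.S25.Triple.IHomMore

set_option autoImplicit false

universe u

open scoped TensorProduct

namespace Fermat.Agent.S25

variable {k : Type u} [Field k]

namespace Triple

variable {𝔠 : CurveCharts k} {A A' : Type u} [CommRing A] [Algebra k A] [CommRing A'] [Algebra k A']
  {φ : A →ₐ[k] A'}

theorem BaseChange.hasExt₁ {T : Triple 𝔠 A} {S : Triple 𝔠 A'} (b : BaseChange φ T S)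
    {T' : Triple 𝔠 A} {S' : Triple 𝔠 A'} (b' : BaseChange φ T' S') :
    SemiExt.HasExt b.β₁ b'.β₁ := SemiExt.hasExt_of_isBCMap b.h₁ _
theorem BaseChange.hasExt₂ {T : Triple 𝔠 A} {S : Triple 𝔠 A'} (b : BaseChange φ T S)
    {T' : Triple 𝔠 A} {S' : Triple 𝔠 A'} (b' : BaseChange φ T' S') :
    SemiExt.HasExt b.β₂ b'.β₂ := SemiExt.hasExt_of_isBCMap b.h₂ _
theorem BaseChange.hasExt₁₂ {T : Triple 𝔠 A} {S : Triple 𝔠 A'} (b : BaseChange φ T S)
    {T' : Triple 𝔠 A} {S' : Triple 𝔠 A'} (b' : BaseChange φ T' S') :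
    SemiExt.HasExt b.β₁₂ b'.β₁₂ := SemiExt.hasExt_of_isBCMap b.h₁₂ _

/-- Base change of a morphism of triples. -/
noncomputable def Hom.baseChange {T T' : Triple 𝔠 A} {S S' : Triple 𝔠 A'}
    (b : BaseChange φ T S) (b' : BaseChange φ T' S') (F : Hom T T') : Hom S S' where
  f₁ := SemiExt.ext b.β₁ b'.β₁ F.f₁
  f₂ := SemiExt.ext b.β₂ b'.β₂ F.f₂
  f₁₂ := SemiExt.ext b.β₁₂ b'.β₁₂ F.f₁₂
  comm₁ := by
    have key : (SemiExt.ext b.β₁₂ b'.β₁₂ F.f₁₂).comp S.ρ₁ =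
        S'.ρ₁.comp (SemiExt.ext b.β₁ b'.β₁ F.f₁) := by
      refine b.h₁.semilinear_ext fun n => ?_
      simp only [LinearMap.comp_apply]
      rw [← b.comm₁, SemiExt.ext_apply (b.hasExt₁₂ b'), F.comm₁, b'.comm₁,
        SemiExt.ext_apply (b.hasExt₁ b')]
    exact fun n => congrArg (fun G => G n) key
  comm₂ := by
    have key : (SemiExt.ext b.β₁₂ b'.β₁₂ F.f₁₂).comp S.ρ₂ =
        S'.ρ₂.comp (SemiExt.ext b.β₂ b'.β₂ F.f₂) := by
      refine b.h₂.semilinear_ext fun n => ?_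
      simp only [LinearMap.comp_apply]
      rw [← b.comm₂, SemiExt.ext_apply (b.hasExt₁₂ b'), F.comm₂, b'.comm₂,
        SemiExt.ext_apply (b.hasExt₂ b')]
    exact fun n => congrArg (fun G => G n) key

section

variable {T T' T'' : Triple 𝔠 A} {S S' S'' : Triple 𝔠 A'}
  (b : BaseChange φ T S) (b' : BaseChange φ T' S') (b'' : BaseChange φ T'' S'')

@[simp] lemma Hom.baseChange_f₁_apply (F : Hom T T') (n : T.N₁) :
    (F.baseChange b b').f₁ (b.β₁ n) = b'.β₁ (F.f₁ n) := SemiExt.ext_apply (b.hasExt₁ b') _ _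
@[simp] lemma Hom.baseChange_f₂_apply (F : Hom T T') (n : T.N₂) :
    (F.baseChange b b').f₂ (b.β₂ n) = b'.β₂ (F.f₂ n) := SemiExt.ext_apply (b.hasExt₂ b') _ _
@[simp] lemma Hom.baseChange_f₁₂_apply (F : Hom T T') (n : T.N₁₂) :
    (F.baseChange b b').f₁₂ (b.β₁₂ n) = b'.β₁₂ (F.f₁₂ n) := SemiExt.ext_apply (b.hasExt₁₂ b') _ _

/-- uniqueness of the base change of a morphism -/
theorem Hom.eq_baseChange (F : Hom T T') (G : Hom S S')
    (h₁ : ∀ n, G.f₁ (b.β₁ n) = b'.β₁ (F.f₁ n)) (h₂ : ∀ n, G.f₂ (b.β₂ n) = b'.β₂ (F.f₂ n))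
    (h₁₂ : ∀ n, G.f₁₂ (b.β₁₂ n) = b'.β₁₂ (F.f₁₂ n)) : G = F.baseChange b b' :=
  Hom.ext₃ (SemiExt.ext_unique (b.hasExt₁ b') _ _ h₁).symm
    (SemiExt.ext_unique (b.hasExt₂ b') _ _ h₂).symm
    (SemiExt.ext_unique (b.hasExt₁₂ b') _ _ h₁₂).symm

theorem Hom.baseChange_id : (Hom.id T).baseChange b b = Hom.id S :=
  (Hom.eq_baseChange b b _ _ (fun _ => rfl) (fun _ => rfl) (fun _ => rfl)).symm

theorem Hom.baseChange_comp (G : Hom T' T'') (F : Hom T T') :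
    (G.comp F).baseChange b b'' = (G.baseChange b' b'').comp (F.baseChange b b') :=
  (Hom.eq_baseChange b b'' _ _
    (fun n => by
      change (G.baseChange b' b'').f₁ ((F.baseChange b b').f₁ (b.β₁ n)) = b''.β₁ (G.f₁ (F.f₁ n))
      rw [Hom.baseChange_f₁_apply, Hom.baseChange_f₁_apply])
    (fun n => by
      change (G.baseChange b' b'').f₂ ((F.baseChange b b').f₂ (b.β₂ n)) = b''.β₂ (G.f₂ (F.f₂ n))
      rw [Hom.baseChange_f₂_apply, Hom.baseChange_f₂_apply])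
    (fun n => by
      change (G.baseChange b' b'').f₁₂ ((F.baseChange b b').f₁₂ (b.β₁₂ n)) =
        b''.β₁₂ (G.f₁₂ (F.f₁₂ n))
      rw [Hom.baseChange_f₁₂_apply, Hom.baseChange_f₁₂_apply])).symm

lemma _root_.Fermat.Agent.S25.CurveCharts.bc₁_algebraMap (𝔠 : CurveCharts k) (φ : A →ₐ[k] A')
    (a : A) : 𝔠.bc₁ φ (algebraMap A (𝔠.R₁ A) a) = algebraMap A' (𝔠.R₁ A') (φ a) := by
  simp [CurveCharts.bc₁, Algebra.TensorProduct.algebraMap_apply]
lemma _root_.Fermat.Agent.S25.CurveCharts.bc₂_algebraMap (𝔠 : CurveCharts k) (φ : A →ₐ[k] A')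
    (a : A) : 𝔠.bc₂ φ (algebraMap A (𝔠.R₂ A) a) = algebraMap A' (𝔠.R₂ A') (φ a) := by
  simp [CurveCharts.bc₂, Algebra.TensorProduct.algebraMap_apply]
lemma _root_.Fermat.Agent.S25.CurveCharts.bc₁₂_algebraMap (𝔠 : CurveCharts k) (φ : A →ₐ[k] A')
    (a : A) : 𝔠.bc₁₂ φ (algebraMap A (𝔠.R₁₂ A) a) = algebraMap A' (𝔠.R₁₂ A') (φ a) := by
  simp [CurveCharts.bc₁₂, Algebra.TensorProduct.algebraMap_apply]

theorem Hom.baseChange_homothety (a : A) :
    (Hom.homothety T a).baseChange b b = Hom.homothety S (φ a) :=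
  (Hom.eq_baseChange b b _ _
    (fun n => by
      change algebraMap A' (𝔠.R₁ A') (φ a) • b.β₁ n = b.β₁ (algebraMap A (𝔠.R₁ A) a • n)
      rw [b.β₁.map_smulₛₗ, ← 𝔠.bc₁_algebraMap φ a]
      rfl)
    (fun n => by
      change algebraMap A' (𝔠.R₂ A') (φ a) • b.β₂ n = b.β₂ (algebraMap A (𝔠.R₂ A) a • n)
      rw [b.β₂.map_smulₛₗ, ← 𝔠.bc₂_algebraMap φ a]
      rfl)
    (fun n => by
      change algebraMap A' (𝔠.R₁₂ A') (φ a) • b.β₁₂ n = b.β₁₂ (algebraMap A (𝔠.R₁₂ A) a • n)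
      rw [b.β₁₂.map_smulₛₗ, ← 𝔠.bc₁₂_algebraMap φ a]
      rfl)).symm

/-- Base change of morphisms corresponds to the base change maps of `ihom` on global sections. -/
theorem Hom.baseChange_f₁_eq (hT : T.IsInvertible) (F : Hom T T') :
    (F.baseChange b b').f₁ = (BaseChange.ihom hT b b').β₁ F.f₁ := rfl
theorem Hom.baseChange_f₂_eq (hT : T.IsInvertible) (F : Hom T T') :
    (F.baseChange b b').f₂ = (BaseChange.ihom hT b b').β₂ F.f₂ := rfl

/-- Base change of an isomorphism. -/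
noncomputable def Iso.baseChange (e : Iso T T') : Iso S S' :=
  Iso.ofHoms (e.toHom.baseChange b b') (e.symm.toHom.baseChange b' b)
    (by
      rw [← Hom.baseChange_comp, ← Hom.baseChange_id b]
      congr 1
      exact Hom.ext₃ (by ext; simp [Hom.comp, Hom.id]) (by ext; simp [Hom.comp, Hom.id])
        (by ext; simp [Hom.comp, Hom.id]))
    (by
      rw [← Hom.baseChange_comp, ← Hom.baseChange_id b']
      congr 1
      exact Hom.ext₃ (by ext; simp [Hom.comp, Hom.id]) (by ext; simp [Hom.comp, Hom.id])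
        (by ext; simp [Hom.comp, Hom.id]))

end

end Triple

end Fermat.Agent.S25
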